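/-
S51 library, piece (T): transfer of the mod `n` Galois representation along a change of variables
of Weierstrass curves, and reduction to the short Weierstrass form `y² = x³ + A x + B`.

Main results (namespace `Fermat.Agent.S51lib`):
* `vcHom`, `vcEquiv`, `vcEquiv'`: the group isomorphism `(C • W).Point ≃+ W.Point`,
  `(x, y) ↦ (u²x + r, u³y + u²sx + t)`.
* `galoisRepIsIrreducible_of_equiv`: transfer along a Galois-equivariant isomorphism of points.
* `galoisRepIsIrreducible_variableChange_iff` (T2).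
* `shortW`, `modRepIsIrreducible_iff_short` (T3), `short_disc_eq`, `short_disc_ne_zero`,
  `short_j_eq`.
-/
import Mathlib
import Fermat.Prelude.Def_FLTPrelim_GaloisRep
import Fermat.Prelude.Def_FLTPrelim_ModularRep

set_option autoImplicit false

namespace Fermat.Agent.S51lib

open WeierstrassCurve

section VarChange

variable {F : Type*} [Field F] (W : WeierstrassCurve F) (C : WeierstrassCurve.VariableChange F)

/-- The `x`-coordinate of the image of a point under the variable change. -/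
def vcX (x : F) : F := (C.u : F) ^ 2 * x + C.r

/-- The `y`-coordinate of the image of a point under the variable change. -/
def vcY (x y : F) : F := (C.u : F) ^ 3 * y + (C.u : F) ^ 2 * C.s * x + C.t

lemma vc_u_ne_zero : (C.u : F) ≠ 0 := C.u.ne_zero

lemma vc_inv : ((C.u⁻¹ : Fˣ) : F) = (C.u : F)⁻¹ := Units.val_inv_eq_inv_val C.u

lemma vcX_injective : Function.Injective (vcX C) := by
  intro x x' h
  have hu := vc_u_ne_zero C
  simp only [vcX] at h
  have : (C.u : F) ^ 2 * (x - x') = 0 := by linear_combination h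
  exact sub_eq_zero.mp ((mul_eq_zero.mp this).resolve_left (pow_ne_zero _ hu))

lemma vcY_injective (x : F) : Function.Injective (vcY C x) := by
  intro y y' h
  have hu := vc_u_ne_zero C
  simp only [vcY] at h
  have : (C.u : F) ^ 3 * (y - y') = 0 := by linear_combination h
  exact sub_eq_zero.mp ((mul_eq_zero.mp this).resolve_left (pow_ne_zero _ hu))

lemma vc_equation_aux (x y : F) :
    (vcY C x y) ^ 2 + W.a₁ * (vcX C x) * (vcY C x y) + W.a₃ * (vcY C x y)
      - ((vcX C x) ^ 3 + W.a₂ * (vcX C x) ^ 2 + W.a₄ * (vcX C x) + W.a₆) =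
    (C.u : F) ^ 6 * (y ^ 2 + (C • W).a₁ * x * y + (C • W).a₃ * y
      - (x ^ 3 + (C • W).a₂ * x ^ 2 + (C • W).a₄ * x + (C • W).a₆)) := by
  have hu := vc_u_ne_zero C
  simp only [variableChange_a₁, variableChange_a₂, variableChange_a₃, variableChange_a₄,
    variableChange_a₆, vc_inv, vcX, vcY]
  field_simp
  ring

lemma vc_equation (x y : F) :
    (C • W).toAffine.Equation x y ↔ W.toAffine.Equation (vcX C x) (vcY C x y) := by
  rw [Affine.equation_iff', Affine.equation_iff', vc_equation_aux]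
  have hu := vc_u_ne_zero C
  constructor
  · intro h; rw [h, mul_zero]
  · intro h
    exact (mul_eq_zero.mp h).resolve_left (pow_ne_zero _ hu)

lemma vc_polyX_aux (x y : F) :
    W.a₁ * (vcY C x y) - (3 * (vcX C x) ^ 2 + 2 * W.a₂ * (vcX C x) + W.a₄) + C.s *
      (2 * (vcY C x y) + W.a₁ * (vcX C x) + W.a₃) =
    (C.u : F) ^ 4 * ((C • W).a₁ * y - (3 * x ^ 2 + 2 * (C • W).a₂ * x + (C • W).a₄)) := by
  have hu := vc_u_ne_zero C
  simp only [variableChange_a₁, variableChange_a₂, variableChange_a₄, vc_inv, vcX, vcY]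
  field_simp
  ring

lemma vc_polyY_aux (x y : F) :
    2 * (vcY C x y) + W.a₁ * (vcX C x) + W.a₃ =
    (C.u : F) ^ 3 * (2 * y + (C • W).a₁ * x + (C • W).a₃) := by
  have hu := vc_u_ne_zero C
  simp only [variableChange_a₁, variableChange_a₃, vc_inv, vcX, vcY]
  field_simp
  ring

lemma vc_nonsingular (x y : F) :
    (C • W).toAffine.Nonsingular x y ↔ W.toAffine.Nonsingular (vcX C x) (vcY C x y) := by
  rw [Affine.nonsingular_iff', Affine.nonsingular_iff', vc_equation]
  have hu := vc_u_ne_zero C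
  have h4 : (C.u : F) ^ 4 ≠ 0 := pow_ne_zero _ hu
  have h3 : (C.u : F) ^ 3 ≠ 0 := pow_ne_zero _ hu
  have hX := vc_polyX_aux W C x y
  have hY := vc_polyY_aux W C x y
  refine and_congr Iff.rfl ?_
  rw [← not_iff_not]
  push Not
  constructor
  · rintro ⟨h1, h2⟩
    have hY0 : 2 * (vcY C x y) + W.a₁ * (vcX C x) + W.a₃ = 0 := by rw [hY, h2, mul_zero]
    refine ⟨?_, hY0⟩
    rw [h1, mul_zero, hY0, mul_zero, add_zero] at hX
    exact hX
  · rintro ⟨h1, h2⟩
    rw [h1, h2, mul_zero, add_zero] at hX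
    rw [h2] at hY
    exact ⟨((mul_eq_zero.mp hX.symm).resolve_left h4), ((mul_eq_zero.mp hY.symm).resolve_left h3)⟩

lemma vc_negY (x y : F) :
    W.toAffine.negY (vcX C x) (vcY C x y) = vcY C x ((C • W).toAffine.negY x y) := by
  have hu := vc_u_ne_zero C
  simp only [Affine.negY, variableChange_a₁, variableChange_a₃, vc_inv, vcX, vcY]
  field_simp
  ring

lemma vc_addX (x₁ x₂ ℓ : F) :
    W.toAffine.addX (vcX C x₁) (vcX C x₂) ((C.u : F) * ℓ + C.s) =
      vcX C ((C • W).toAffine.addX x₁ x₂ ℓ) := by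
  have hu := vc_u_ne_zero C
  simp only [Affine.addX, variableChange_a₁, variableChange_a₂, vc_inv, vcX]
  field_simp
  ring

lemma vc_negAddY (x₁ x₂ y₁ ℓ : F) :
    W.toAffine.negAddY (vcX C x₁) (vcX C x₂) (vcY C x₁ y₁) ((C.u : F) * ℓ + C.s) =
      vcY C ((C • W).toAffine.addX x₁ x₂ ℓ) ((C • W).toAffine.negAddY x₁ x₂ y₁ ℓ) := by
  rw [Affine.negAddY, vc_addX, Affine.negAddY]
  simp only [vcX, vcY]
  ring

lemma vc_addY (x₁ x₂ y₁ ℓ : F) :
    W.toAffine.addY (vcX C x₁) (vcX C x₂) (vcY C x₁ y₁) ((C.u : F) * ℓ + C.s) =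
      vcY C ((C • W).toAffine.addX x₁ x₂ ℓ) ((C • W).toAffine.addY x₁ x₂ y₁ ℓ) := by
  rw [Affine.addY, vc_negAddY, vc_addX, vc_negY, Affine.addY]

variable [DecidableEq F]

lemma vc_slope {x₁ x₂ y₁ y₂ : F} (h₁ : (C • W).toAffine.Equation x₁ y₁)
    (h₂ : (C • W).toAffine.Equation x₂ y₂)
    (hxy : ¬(x₁ = x₂ ∧ y₁ = (C • W).toAffine.negY x₂ y₂)) :
    W.toAffine.slope (vcX C x₁) (vcX C x₂) (vcY C x₁ y₁) (vcY C x₂ y₂) =
      (C.u : F) * (C • W).toAffine.slope x₁ x₂ y₁ y₂ + C.s := by
  have hu := vc_u_ne_zero C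
  by_cases hx : x₁ = x₂
  · have hy : y₁ ≠ (C • W).toAffine.negY x₂ y₂ := fun h => hxy ⟨hx, h⟩
    have hyy : y₁ = y₂ := Affine.Y_eq_of_Y_ne h₁ h₂ hx hy
    subst hx hyy
    have hy' : vcY C x₁ y₁ ≠ W.toAffine.negY (vcX C x₁) (vcY C x₁ y₁) := by
      rw [vc_negY]
      exact fun h => hy (vcY_injective C x₁ h)
    rw [Affine.slope_of_Y_ne rfl hy', Affine.slope_of_Y_ne rfl hy]
    have hd' : vcY C x₁ y₁ - W.toAffine.negY (vcX C x₁) (vcY C x₁ y₁) ≠ 0 := sub_ne_zero.mpr hy'
    have hd : y₁ - (C • W).toAffine.negY x₁ y₁ ≠ 0 := sub_ne_zero.mpr hy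
    have e1 : vcY C x₁ y₁ - W.toAffine.negY (vcX C x₁) (vcY C x₁ y₁) =
        (C.u : F) ^ 3 * (y₁ - (C • W).toAffine.negY x₁ y₁) := by
      have := vc_polyY_aux W C x₁ y₁
      simp only [Affine.negY]
      linear_combination this
    have e2 := vc_polyX_aux W C x₁ y₁
    have e3 := vc_polyY_aux W C x₁ y₁
    rw [div_eq_iff hd', e1]
    have : (C.u : F) * ((3 * x₁ ^ 2 + 2 * (C • W).toAffine.a₂ * x₁ + (C • W).toAffine.a₄ -
        (C • W).toAffine.a₁ * y₁) / (y₁ - (C • W).toAffine.negY x₁ y₁)) *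
        (y₁ - (C • W).toAffine.negY x₁ y₁) = (C.u : F) * (3 * x₁ ^ 2 + 2 * (C • W).toAffine.a₂ * x₁
          + (C • W).toAffine.a₄ - (C • W).toAffine.a₁ * y₁) := by
      field_simp
    simp only [Affine.negY] at this ⊢
    linear_combination (-1 : F) * e2 - (C.u : F) ^ 3 * this + C.s * e3
  · have hx' : vcX C x₁ ≠ vcX C x₂ := fun h => hx (vcX_injective C h)
    rw [Affine.slope_of_X_ne hx', Affine.slope_of_X_ne hx]
    have hd : x₁ - x₂ ≠ 0 := sub_ne_zero.mpr hx
    have hd' : vcX C x₁ - vcX C x₂ ≠ 0 := sub_ne_zero.mpr hx'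
    rw [div_eq_iff hd']
    simp only [vcX, vcY]
    field_simp
    ring

open WeierstrassCurve.Affine in
/-- The group homomorphism on points induced by a change of variables: a point `(x, y)` of
`C • W` is sent to the point `(u²x + r, u³y + u²sx + t)` of `W`. -/
noncomputable def vcHom : (C • W).toAffine.Point →+ W.toAffine.Point where
  toFun P := match P with
    | .zero => 0
    | .some x y h => .some (vcX C x) (vcY C x y) ((vc_nonsingular W C x y).mp h)
  map_zero' := rfl
  map_add' := by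
    rintro (_ | ⟨x₁, y₁, h₁⟩) (_ | ⟨x₂, y₂, h₂⟩)
    any_goals rfl
    by_cases hxy : x₁ = x₂ ∧ y₁ = (C • W).toAffine.negY x₂ y₂
    · rw [Point.add_of_Y_eq hxy.left hxy.right]
      exact (Point.add_of_Y_eq (congr_arg _ hxy.left)
        (by rw [vc_negY, hxy.right, hxy.left])).symm
    · have hxy' : ¬(vcX C x₁ = vcX C x₂ ∧
          vcY C x₁ y₁ = W.toAffine.negY (vcX C x₂) (vcY C x₂ y₂)) := by
        rintro ⟨hx, hy⟩
        have hx' := vcX_injective C hx
        subst hx'
        rw [vc_negY] at hy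
        exact hxy ⟨rfl, vcY_injective C _ hy⟩
      rw [Point.add_some hxy]
      refine Eq.trans ?_ (Point.add_some hxy').symm
      simp only [Point.some.injEq]
      rw [vc_slope W C h₁.1 h₂.1 hxy]
      exact ⟨(vc_addX W C _ _ _).symm, (vc_addY W C _ _ _ _).symm⟩

open WeierstrassCurve.Affine in
lemma vcHom_some {x y : F} (h : (C • W).toAffine.Nonsingular x y) :
    vcHom W C (.some x y h) = .some (vcX C x) (vcY C x y) ((vc_nonsingular W C x y).mp h) := rfl

open WeierstrassCurve.Affine in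
lemma vcHom_bijective : Function.Bijective (vcHom W C) := by
  have hu := vc_u_ne_zero C
  constructor
  · rintro (_ | ⟨x₁, y₁, h₁⟩) (_ | ⟨x₂, y₂, h₂⟩) h
    · rfl
    · exact absurd h (by simp [vcHom])
    · exact absurd h (by simp [vcHom])
    · rw [vcHom_some, vcHom_some, Point.some.injEq] at h
      obtain ⟨hx, hy⟩ := h
      have hx' := vcX_injective C hx
      subst hx'
      have hy' := vcY_injective C _ hy
      subst hy'
      rfl
  · rintro (_ | ⟨X, Y, h⟩)
    · exact ⟨0, rfl⟩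
    · have hX : vcX C ((X - C.r) / (C.u : F) ^ 2) = X := by
        simp only [vcX]; field_simp; ring
      have hY : vcY C ((X - C.r) / (C.u : F) ^ 2)
          ((Y - (C.u : F) ^ 2 * C.s * ((X - C.r) / (C.u : F) ^ 2) - C.t) / (C.u : F) ^ 3) = Y := by
        simp only [vcY]; field_simp; ring
      have h' : (C • W).toAffine.Nonsingular ((X - C.r) / (C.u : F) ^ 2)
          ((Y - (C.u : F) ^ 2 * C.s * ((X - C.r) / (C.u : F) ^ 2) - C.t) / (C.u : F) ^ 3) := by
        rw [vc_nonsingular, hX, hY]; exact h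
      refine ⟨.some _ _ h', ?_⟩
      rw [vcHom_some, Point.some.injEq]
      exact ⟨hX, hY⟩

/-- The group isomorphism on points induced by a change of variables. -/
noncomputable def vcEquiv : (C • W).toAffine.Point ≃+ W.toAffine.Point :=
  AddEquiv.ofBijective (vcHom W C) (vcHom_bijective W C)

/-- Version of `vcEquiv` for a curve that is only propositionally equal to `C • W`. -/
noncomputable def vcEquiv' {W₁ : WeierstrassCurve F} (h : C • W = W₁) :
    W₁.toAffine.Point ≃+ W.toAffine.Point :=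
  h ▸ vcEquiv W C

open WeierstrassCurve.Affine in
lemma vcEquiv'_some {W₁ : WeierstrassCurve F} (h : C • W = W₁) {x y : F}
    (hxy : W₁.toAffine.Nonsingular x y) :
    ∃ hxy' : W.toAffine.Nonsingular (vcX C x) (vcY C x y),
      vcEquiv' W C h (.some x y hxy) = .some (vcX C x) (vcY C x y) hxy' := by
  subst h
  exact ⟨_, rfl⟩

open WeierstrassCurve.Affine in
lemma vcEquiv'_zero {W₁ : WeierstrassCurve F} (h : C • W = W₁) :
    vcEquiv' W C h (.zero) = .zero := by
  subst h
  rfl

end VarChange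

section Galois

open WeierstrassCurve.Affine WeierstrassCurve.Affine.Point

variable {F₀ : Type*} {K : Type*} [Field F₀] [Field K] [DecidableEq K] [Algebra F₀ K]

/-- Transfer of irreducibility of the Galois representation on `n`-torsion along a
Galois-equivariant group isomorphism of the groups of points. -/
theorem galoisRepIsIrreducible_of_equiv {W₁ W₂ : Affine F₀} (n : ℕ)
    (e : (W₁⁄K).Point ≃+ (W₂⁄K).Point)
    (he : ∀ (σ : K ≃ₐ[F₀] K) (P : (W₁⁄K).Point), e (σ • P) = σ • e P)
    (h : GaloisRepIsIrreducible (K := K) F₀ W₁ n) :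
    GaloisRepIsIrreducible (K := K) F₀ W₂ n := by
  obtain ⟨hnt, hirr⟩ := h
  -- the restriction of `e` to the torsion
  have hmem : ∀ x ∈ Submodule.torsionBy ℤ (W₁⁄K).Point n,
      e.toAddMonoidHom.toIntLinearMap x ∈ Submodule.torsionBy ℤ (W₂⁄K).Point n := by
    intro x hx
    rw [Submodule.mem_torsionBy_iff] at hx ⊢
    change (n : ℤ) • e x = 0
    rw [← map_zsmul, hx, _root_.map_zero]
  let f₀ : Submodule.torsionBy ℤ (W₁⁄K).Point n →ₗ[ℤ] Submodule.torsionBy ℤ (W₂⁄K).Point n :=
    e.toAddMonoidHom.toIntLinearMap.restrict hmem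
  let f : Submodule.torsionBy ℤ (W₁⁄K).Point n →ₗ[ZMod n]
      Submodule.torsionBy ℤ (W₂⁄K).Point n := f₀.toAddMonoidHom.toZModLinearMap n
  have hf_apply : ∀ x, ((f x : Submodule.torsionBy ℤ (W₂⁄K).Point n) : (W₂⁄K).Point) =
      e (x : (W₁⁄K).Point) := fun x => rfl
  have hf_inj : Function.Injective f := by
    intro x y hxy
    apply Subtype.ext
    apply e.injective
    rw [← hf_apply, ← hf_apply, hxy]
  have hf_surj : Function.Surjective f := by
    intro y
    have hy : e.symm (y : (W₂⁄K).Point) ∈ Submodule.torsionBy ℤ (W₁⁄K).Point n := by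
      have := y.2
      rw [Submodule.mem_torsionBy_iff] at this ⊢
      rw [← map_zsmul, this, _root_.map_zero]
    refine ⟨⟨_, hy⟩, ?_⟩
    apply Subtype.ext
    rw [hf_apply]
    exact e.apply_symm_apply _
  have hf_smul : ∀ (σ : K ≃ₐ[F₀] K) x, f (σ • x) = σ • f x := by
    intro σ x
    apply Subtype.ext
    rw [hf_apply]
    exact he σ _
  refine ⟨?_, ?_⟩
  · have := hnt
    exact hf_inj.nontrivial
  · intro N hN
    have hstab : IsGaloisStable F₀ (N.comap f) := by
      intro σ x hx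
      rw [Submodule.mem_comap] at hx ⊢
      rw [hf_smul]
      exact hN σ _ hx
    rcases hirr _ hstab with h0 | h1
    · left
      rw [← Submodule.map_comap_eq_of_surjective hf_surj N, h0, Submodule.map_bot]
    · right
      rw [← Submodule.map_comap_eq_of_surjective hf_surj N, h1, Submodule.map_top,
        LinearMap.range_eq_top.mpr hf_surj]

omit [DecidableEq K] in
lemma baseChange_variableChange (E : Affine F₀) (C : VariableChange F₀) :
    (C.map (algebraMap F₀ K)) • (E⁄K) = (C • E)⁄K :=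
  WeierstrassCurve.map_variableChange E C _

/-- The group isomorphism between the `K`-points of `C • E` and of `E`, for a change of variables
`C` defined over the base field. -/
noncomputable def vcEquivBaseChange (E : Affine F₀) (C : VariableChange F₀) :
    ((C • E)⁄K).Point ≃+ (E⁄K).Point :=
  vcEquiv' (E⁄K) (C.map (algebraMap F₀ K)) (baseChange_variableChange E C)

lemma vcEquivBaseChange_some (E : Affine F₀) (C : VariableChange F₀) {x y : K}
    (h : ((C • E)⁄K).Nonsingular x y) :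
    ∃ h' : (E⁄K).Nonsingular (vcX (C.map (algebraMap F₀ K)) x)
        (vcY (C.map (algebraMap F₀ K)) x y),
      vcEquivBaseChange E C (.some x y h) = .some _ _ h' :=
  vcEquiv'_some (E⁄K) (C.map (algebraMap F₀ K)) (baseChange_variableChange E C) h

lemma vcEquivBaseChange_smul (E : Affine F₀) (C : VariableChange F₀) (σ : K ≃ₐ[F₀] K)
    (P : ((C • E)⁄K).Point) :
    vcEquivBaseChange E C (σ • P) = σ • vcEquivBaseChange (K := K) E C P := by
  rcases P with _ | ⟨x, y, h⟩
  · change vcEquivBaseChange (K := K) E C (Point.map σ.toAlgHom 0) =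
      Point.map σ.toAlgHom (vcEquivBaseChange (K := K) E C 0)
    rw [Point.map_zero]
    have h0 : vcEquivBaseChange (K := K) E C 0 = 0 := _root_.map_zero _
    rw [h0, Point.map_zero]
  · rw [algEquiv_smul_def, algEquiv_smul_def, Point.map_some]
    obtain ⟨h1, e1⟩ := vcEquivBaseChange_some E C h
    obtain ⟨h2, e2⟩ := vcEquivBaseChange_some E C
      ((baseChange_nonsingular (C • E) σ.toAlgHom.injective x y).mpr h)
    rw [e1, e2, Point.map_some, Point.some.injEq]
    simp only [vcX, vcY, VariableChange.map_u, VariableChange.map_r, VariableChange.map_s,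
      VariableChange.map_t, Units.coe_map, MonoidHom.coe_coe, map_add, map_mul, map_pow,
      AlgHom.commutes]
    exact ⟨trivial, trivial⟩

/-- (T2) Irreducibility of the mod `n` Galois representation is invariant under a change of
variables over the base field. -/
theorem galoisRepIsIrreducible_variableChange_iff (E : Affine F₀) (C : VariableChange F₀) (n : ℕ) :
    GaloisRepIsIrreducible (K := K) F₀ (C • E) n ↔ GaloisRepIsIrreducible (K := K) F₀ E n := by
  constructor
  · exact galoisRepIsIrreducible_of_equiv n (vcEquivBaseChange E C)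
      (vcEquivBaseChange_smul E C)
  · refine galoisRepIsIrreducible_of_equiv n (vcEquivBaseChange E C).symm ?_
    intro σ P
    apply (vcEquivBaseChange (K := K) E C).injective
    rw [AddEquiv.apply_symm_apply, vcEquivBaseChange_smul, AddEquiv.apply_symm_apply]

end Galois

section Short

/-- The short Weierstrass curve `y² = x³ + A x + B`. -/
def shortW {F : Type*} [CommRing F] (A B : F) : WeierstrassCurve F := ⟨0, 0, 0, A, B⟩

@[simp] lemma shortW_a₁ {F : Type*} [CommRing F] (A B : F) : (shortW A B).a₁ = 0 := rfl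
@[simp] lemma shortW_a₂ {F : Type*} [CommRing F] (A B : F) : (shortW A B).a₂ = 0 := rfl
@[simp] lemma shortW_a₃ {F : Type*} [CommRing F] (A B : F) : (shortW A B).a₃ = 0 := rfl
@[simp] lemma shortW_a₄ {F : Type*} [CommRing F] (A B : F) : (shortW A B).a₄ = A := rfl
@[simp] lemma shortW_a₆ {F : Type*} [CommRing F] (A B : F) : (shortW A B).a₆ = B := rfl

lemma shortW_Δ {F : Type*} [CommRing F] (A B : F) :
    (shortW A B).Δ = -16 * (4 * A ^ 3 + 27 * B ^ 2) := by
  simp only [WeierstrassCurve.Δ, WeierstrassCurve.b₂, WeierstrassCurve.b₄, WeierstrassCurve.b₆,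
    WeierstrassCurve.b₈, shortW_a₁, shortW_a₂, shortW_a₃, shortW_a₄, shortW_a₆]
  ring

lemma shortW_c₄ {F : Type*} [CommRing F] (A B : F) : (shortW A B).c₄ = -48 * A := by
  simp only [WeierstrassCurve.c₄, WeierstrassCurve.b₂, WeierstrassCurve.b₄, shortW_a₁, shortW_a₂,
    shortW_a₃, shortW_a₄]
  ring

lemma shortW_map {F F' : Type*} [CommRing F] [CommRing F'] (f : F →+* F') (A B : F) :
    (shortW A B).map f = shortW (f A) (f B) := by
  ext <;> simp [shortW, WeierstrassCurve.map]

open WeierstrassCurve.Affine WeierstrassCurve.Affine.Point in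
/-- (T3) Reduction of the irreducibility of the mod `n` representation of an integral Weierstrass
curve to that of the short Weierstrass curve `y² = x³ - (c₄/48) x - c₆/864`. -/
theorem modRepIsIrreducible_iff_short (W : WeierstrassCurve ℤ) (n : ℕ) :
    W.ModRepIsIrreducible n ↔
      GaloisRepIsIrreducible (K := AlgebraicClosure ℚ) ℚ
        (shortW (-(W.c₄ : ℚ) / 48) (-(W.c₆ : ℚ) / 864)) n := by
  let _i2 : Invertible (2 : ℚ) := invertibleOfNonzero (by norm_num)
  let _i3 : Invertible (3 : ℚ) := invertibleOfNonzero (by norm_num)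
  set E : WeierstrassCurve ℚ := W.map (Int.castRingHom ℚ) with hE
  have hu : (E.toShortNF.u : ℚ) = 1 := by
    simp [WeierstrassCurve.toShortNF, WeierstrassCurve.toCharNeTwoNF,
      WeierstrassCurve.VariableChange.mul_def]
  have hui : ((E.toShortNF.u⁻¹ : ℚˣ) : ℚ) = 1 := by
    rw [Units.val_inv_eq_inv_val, hu, inv_one]
  have hc4 : (E.toShortNF • E).c₄ = (W.c₄ : ℚ) := by
    rw [WeierstrassCurve.variableChange_c₄, hui, one_pow, one_mul, hE, WeierstrassCurve.map_c₄]
    rfl
  have hc6 : (E.toShortNF • E).c₆ = (W.c₆ : ℚ) := by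
    rw [WeierstrassCurve.variableChange_c₆, hui, one_pow, one_mul, hE, WeierstrassCurve.map_c₆]
    rfl
  have hshort : E.toShortNF • E = shortW (-(W.c₄ : ℚ) / 48) (-(W.c₆ : ℚ) / 864) := by
    have h4 := WeierstrassCurve.c₄_of_isShortNF (E.toShortNF • E)
    have h6 := WeierstrassCurve.c₆_of_isShortNF (E.toShortNF • E)
    rw [hc4] at h4
    rw [hc6] at h6
    ext
    · exact WeierstrassCurve.a₁_of_isShortNF _
    · exact WeierstrassCurve.a₂_of_isShortNF _
    · exact WeierstrassCurve.a₃_of_isShortNF _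
    · rw [shortW_a₄, h4]; ring
    · rw [shortW_a₆, h6]; ring
  rw [← hshort]
  exact (galoisRepIsIrreducible_variableChange_iff (K := AlgebraicClosure ℚ) E E.toShortNF n).symm

/-- Discriminant bookkeeping for (T3): `4A³ + 27B² = -Δ/16`. -/
lemma short_disc_eq (W : WeierstrassCurve ℤ) :
    4 * (-(W.c₄ : ℚ) / 48) ^ 3 + 27 * (-(W.c₆ : ℚ) / 864) ^ 2 = -(W.Δ : ℚ) / 16 := by
  have h := W.c_relation
  have h' : (1728 : ℚ) * (W.Δ : ℚ) = (W.c₄ : ℚ) ^ 3 - (W.c₆ : ℚ) ^ 2 := by exact_mod_cast h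
  linear_combination (1 / 27648 : ℚ) * h'

lemma short_disc_ne_zero (W : WeierstrassCurve ℤ) (hΔ : W.Δ ≠ 0) :
    4 * (-(W.c₄ : ℚ) / 48) ^ 3 + 27 * (-(W.c₆ : ℚ) / 864) ^ 2 ≠ 0 := by
  rw [short_disc_eq]
  have : (W.Δ : ℚ) ≠ 0 := by exact_mod_cast hΔ
  intro h
  apply this
  linear_combination (-16 : ℚ) * h

/-- `j`-invariant bookkeeping for (T3): `6912 A³ / (4A³ + 27B²) = c₄³ / Δ`. -/
lemma short_j_eq (W : WeierstrassCurve ℤ) (hΔ : W.Δ ≠ 0) :
    6912 * (-(W.c₄ : ℚ) / 48) ^ 3 / (4 * (-(W.c₄ : ℚ) / 48) ^ 3 + 27 * (-(W.c₆ : ℚ) / 864) ^ 2) =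
      (W.c₄ : ℚ) ^ 3 / (W.Δ : ℚ) := by
  rw [short_disc_eq]
  have : (W.Δ : ℚ) ≠ 0 := by exact_mod_cast hΔ
  field_simp
  ring

end Short

end Fermat.Agent.S51lib
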