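/-
S51 library, endgame: the four non-cuspidal rational points of `X₀(15)` have `j`-invariants whose
numerators are divisible by `5` but not by `5^3`; such a curve has no semistable model at `5`.
-/
import Mathlib

set_option autoImplicit false

namespace Fermat.Agent.S51lib

theorem five_dvd_of_pow_three {k c : ℤ} (hk : ¬ (5 : ℤ) ∣ k) (h : (5 : ℤ) ∣ k * c ^ 3) :
    (5 : ℤ) ∣ c := by
  have hp : Prime (5 : ℤ) := by
    rw [Int.prime_iff_natAbs_prime]; norm_num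
  rcases hp.dvd_or_dvd h with h1 | h1
  · exact absurd h1 hk
  · exact hp.dvd_of_dvd_pow h1

/-- If `c₄^3 h = Δ (h^2+10h+5)^3` with `h` one of the four exceptional values, then `5` divides
both `c₄` and `Δ`. -/
theorem five_dvd_c4_and_disc (c4 D : ℤ) (h : ℚ)
    (hh : h = -10 ∨ h = -40 ∨ h = -25 / 2 ∨ h = -25 / 8)
    (heq : (c4 : ℚ) ^ 3 * h = (D : ℚ) * (h ^ 2 + 10 * h + 5) ^ 3) :
    (5 : ℤ) ∣ c4 ∧ (5 : ℤ) ∣ D := by
  rcases hh with rfl | rfl | rfl | rfl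
  · -- `-2 c4^3 = 25 D`
    have e : (-2 : ℤ) * c4 ^ 3 = 25 * D := by
      have : ((-2 : ℤ) * c4 ^ 3 : ℚ) = ((25 * D : ℤ) : ℚ) := by
        push_cast; linear_combination (1 / 5 : ℚ) * heq
      exact_mod_cast this
    have hc : (5 : ℤ) ∣ c4 := five_dvd_of_pow_three (k := -2) (by norm_num) ⟨5 * D, by rw [e]; ring⟩
    refine ⟨hc, ?_⟩
    obtain ⟨k, rfl⟩ := hc
    refine ⟨-2 * k ^ 3, ?_⟩
    have e2 : (25 : ℤ) * D = 25 * (5 * (-2 * k ^ 3)) := by rw [← e]; ring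
    exact mul_left_cancel₀ (by norm_num) e2
  · -- `-8 c4^3 = 25 * 241^3 D`
    have e : (-8 : ℤ) * c4 ^ 3 = 25 * 241 ^ 3 * D := by
      have : ((-8 : ℤ) * c4 ^ 3 : ℚ) = ((25 * 241 ^ 3 * D : ℤ) : ℚ) := by
        push_cast; linear_combination (1 / 5 : ℚ) * heq
      exact_mod_cast this
    have hc : (5 : ℤ) ∣ c4 :=
      five_dvd_of_pow_three (k := -8) (by norm_num) ⟨5 * 241 ^ 3 * D, by rw [e]; ring⟩
    refine ⟨hc, ?_⟩
    obtain ⟨k, rfl⟩ := hc
    have e' : 241 ^ 3 * D = -40 * k ^ 3 := by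
      have e2 : (25 : ℤ) * (241 ^ 3 * D) = 25 * (-40 * k ^ 3) := by
        rw [← mul_assoc, ← e]; ring
      exact mul_left_cancel₀ (by norm_num) e2
    have hp : Prime (5 : ℤ) := by
      rw [Int.prime_iff_natAbs_prime]; norm_num
    have : (5 : ℤ) ∣ 241 ^ 3 * D := ⟨-8 * k ^ 3, by rw [e']; ring⟩
    rcases hp.dvd_or_dvd this with h1 | h1
    · exact absurd h1 (by norm_num)
    · exact h1
  · -- `-32 c4^3 = 5 * 29^3 D`
    have e : (-32 : ℤ) * c4 ^ 3 = 5 * 29 ^ 3 * D := by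
      have : ((-32 : ℤ) * c4 ^ 3 : ℚ) = ((5 * 29 ^ 3 * D : ℤ) : ℚ) := by
        push_cast; linear_combination (64 / 25 : ℚ) * heq
      exact_mod_cast this
    have hc : (5 : ℤ) ∣ c4 :=
      five_dvd_of_pow_three (k := -32) (by norm_num) ⟨29 ^ 3 * D, by rw [e]; ring⟩
    refine ⟨hc, ?_⟩
    obtain ⟨k, rfl⟩ := hc
    have e' : 29 ^ 3 * D = -800 * k ^ 3 := by
      have e2 : (5 : ℤ) * (29 ^ 3 * D) = 5 * (-800 * k ^ 3) := by
        rw [← mul_assoc, ← e]; ring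
      exact mul_left_cancel₀ (by norm_num) e2
    have hp : Prime (5 : ℤ) := by
      rw [Int.prime_iff_natAbs_prime]; norm_num
    have : (5 : ℤ) ∣ 29 ^ 3 * D := ⟨-160 * k ^ 3, by rw [e']; ring⟩
    rcases hp.dvd_or_dvd this with h1 | h1
    · exact absurd h1 (by norm_num)
    · exact h1
  · -- `32768 c4^3 = 5 * 211^3 D`
    have e : (32768 : ℤ) * c4 ^ 3 = 5 * 211 ^ 3 * D := by
      have : ((32768 : ℤ) * c4 ^ 3 : ℚ) = ((5 * 211 ^ 3 * D : ℤ) : ℚ) := by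
        push_cast; linear_combination (-262144 / 25 : ℚ) * heq
      exact_mod_cast this
    have hc : (5 : ℤ) ∣ c4 :=
      five_dvd_of_pow_three (k := 32768) (by norm_num) ⟨211 ^ 3 * D, by rw [e]; ring⟩
    refine ⟨hc, ?_⟩
    obtain ⟨k, rfl⟩ := hc
    have e' : 211 ^ 3 * D = 819200 * k ^ 3 := by
      have e2 : (5 : ℤ) * (211 ^ 3 * D) = 5 * (819200 * k ^ 3) := by
        rw [← mul_assoc, ← e]; ring
      exact mul_left_cancel₀ (by norm_num) e2
    have hp : Prime (5 : ℤ) := by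
      rw [Int.prime_iff_natAbs_prime]; norm_num
    have : (5 : ℤ) ∣ 211 ^ 3 * D := ⟨163840 * k ^ 3, by rw [e']; ring⟩
    rcases hp.dvd_or_dvd this with h1 | h1
    · exact absurd h1 (by norm_num)
    · exact h1

end Fermat.Agent.S51lib
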