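/-
S51 library, piece [P]: Hauptmodul parametrisations of rational 3- and 5-isogenies.
-/
import Mathlib

set_option autoImplicit false

namespace Fermat.Agent.S51lib

/-- Short Weierstrass form, rational root `X` of the 3-division polynomial: the `j`-invariant is
`(h+27)(h+3)^3/h` for a nonzero rational `h`. -/
theorem exists_h3_short (A B X : ℚ) (hΔ : 4 * A ^ 3 + 27 * B ^ 2 ≠ 0)
    (hψ : 3 * X ^ 4 + 6 * A * X ^ 2 + 12 * B * X - A ^ 2 = 0) :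
    ∃ h : ℚ, h ≠ 0 ∧
      (-48 * A) ^ 3 * h = (-16 * (4 * A ^ 3 + 27 * B ^ 2)) * ((h + 27) * (h + 3) ^ 3) := by
  by_cases hX : X = 0
  · subst hX
    have hA : A = 0 := by
      have : A ^ 2 = 0 := by linear_combination -hψ
      exact pow_eq_zero_iff (two_ne_zero) |>.mp this
    subst hA
    exact ⟨-27, by norm_num, by ring⟩
  · have hkey : (4 * A ^ 3 + 27 * B ^ 2) * (16 * X ^ 2) = (3 * A + X ^ 2) * (A + 3 * X ^ 2) ^ 3 := by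
      linear_combination 3 * (12 * B * X + A ^ 2 - 6 * A * X ^ 2 - 3 * X ^ 4) * hψ
    have hne : (3 * A + X ^ 2) * (A + 3 * X ^ 2) ^ 3 ≠ 0 := by
      rw [← hkey]
      exact mul_ne_zero hΔ (mul_ne_zero (by norm_num) (pow_ne_zero _ hX))
    have h1 : 3 * A + X ^ 2 ≠ 0 := left_ne_zero_of_mul hne
    have h2 : A + 3 * X ^ 2 ≠ 0 := fun h => by
      apply right_ne_zero_of_mul hne; rw [h]; ring
    refine ⟨-9 * (3 * A + X ^ 2) / (A + 3 * X ^ 2), ?_, ?_⟩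
    · exact div_ne_zero (mul_ne_zero (by norm_num) h1) h2
    · have e1 : -9 * (3 * A + X ^ 2) / (A + 3 * X ^ 2) + 27 = 72 * X ^ 2 / (A + 3 * X ^ 2) := by
        field_simp; ring
      have e2 : -9 * (3 * A + X ^ 2) / (A + 3 * X ^ 2) + 3 = -24 * A / (A + 3 * X ^ 2) := by
        field_simp; ring
      rw [e1, e2]
      field_simp
      linear_combination (-995328 * A ^ 3) * hkey

/-- Short Weierstrass form, kernel quadratic `T^2 - S1 T + S2` of a rational cyclic subgroup of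
order 5 (`S1 = x(P) + x(2P)`, `S2 = x(P) x(2P)`): the `j`-invariant is `(h^2+10h+5)^3/h` for a
nonzero rational `h`. -/
theorem exists_h5_short (A B S1 S2 : ℚ) (hΔ : 4 * A ^ 3 + 27 * B ^ 2 ≠ 0)
    (hD : S1 ^ 2 - 4 * S2 ≠ 0)
    (hE1 : 4 * B = S1 * (S1 ^ 2 - 6 * S2 - 2 * A))
    (hE2 : A ^ 2 + 2 * A * (S1 ^ 2 - S2) - S1 ^ 4 + 5 * S1 ^ 2 * S2 + 5 * S2 ^ 2 = 0) :
    ∃ h : ℚ, h ≠ 0 ∧
      (-48 * A) ^ 3 * h = (-16 * (4 * A ^ 3 + 27 * B ^ 2)) * (h ^ 2 + 10 * h + 5) ^ 3 := by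
  have hB : B = S1 * (S1 ^ 2 - 6 * S2 - 2 * A) / 4 := by
    field_simp; linear_combination hE1
  have hid : (-48 * A) ^ 3 * ((4 * A - 7 * S1 ^ 2 + 40 * S2) / (S1 ^ 2 - 4 * S2)) =
      (-16 * (4 * A ^ 3 + 27 * B ^ 2)) *
        (((4 * A - 7 * S1 ^ 2 + 40 * S2) / (S1 ^ 2 - 4 * S2)) ^ 2 +
          10 * ((4 * A - 7 * S1 ^ 2 + 40 * S2) / (S1 ^ 2 - 4 * S2)) + 5) ^ 3 := by
    rw [hB]
    field_simp
    linear_combination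
      (4194304 * A ^ 7 - 13893632 * A ^ 6 * S1 ^ 2 + 134217728 * A ^ 6 * S2 + 3670016 * A ^ 5 *
        S1 ^ 4 - 251133952 * A ^ 5 * S1 ^ 2 * S2 + 1568669696 * A ^ 5 * S2 ^ 2 + 22740992 * A ^ 4
        * S1 ^ 6 - 217841664 * A ^ 4 * S1 ^ 4 * S2 - 799801344 * A ^ 4 * S1 ^ 2 * S2 ^ 2 +
        7918845952 * A ^ 4 * S2 ^ 3 - 11730944 * A ^ 3 * S1 ^ 8 + 411041792 * A ^ 3 * S1 ^ 6 * S2
        - 3476029440 * A ^ 3 * S1 ^ 4 * S2 ^ 2 + 6126829568 * A ^ 3 * S1 ^ 2 * S2 ^ 3 +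
        14600372224 * A ^ 3 * S2 ^ 4 - 8847360 * A ^ 2 * S1 ^ 10 + 92012544 * A ^ 2 * S1 ^ 8 * S2
        + 725483520 * A ^ 2 * S1 ^ 6 * S2 ^ 2 - 10885791744 * A ^ 2 * S1 ^ 4 * S2 ^ 3 +
        30795890688 * A ^ 2 * S1 ^ 2 * S2 ^ 4 + 1769472 * A * S1 ^ 12 - 93782016 * A * S1 ^ 10 *
        S2 + 1236860928 * A * S1 ^ 8 * S2 ^ 2 - 5931270144 * A * S1 ^ 6 * S2 ^ 3 + 7148666880 * A
        * S1 ^ 4 * S2 ^ 4 + 11253841920 * A * S1 ^ 2 * S2 ^ 5 + 1769472 * S1 ^ 14 - 38928384 * S1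
        ^ 12 * S2 + 302579712 * S1 ^ 10 * S2 ^ 2 - 867041280 * S1 ^ 8 * S2 ^ 3 - 61931520 * S1 ^ 6
        * S2 ^ 4 + 2654208000 * S1 ^ 4 * S2 ^ 5 + 1592524800 * S1 ^ 2 * S2 ^ 6) * hE2
  refine ⟨(4 * A - 7 * S1 ^ 2 + 40 * S2) / (S1 ^ 2 - 4 * S2), ?_, hid⟩
  intro h0
  rw [h0] at hid
  have h3 : 4 * A ^ 3 + 27 * B ^ 2 = 0 := by linear_combination (1 / 2000) * hid
  exact hΔ h3


/-- General Weierstrass `b`-invariants: a rational root of the 3-division polynomial gives a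
rational point on `X₀(3)`. -/
theorem exists_h3 (b2 b4 b6 b8 x : ℚ) (hb : 4 * b8 = b2 * b6 - b4 ^ 2)
    (hΔ : -b2 ^ 2 * b8 - 8 * b4 ^ 3 - 27 * b6 ^ 2 + 9 * b2 * b4 * b6 ≠ 0)
    (hψ : 3 * x ^ 4 + b2 * x ^ 3 + 3 * b4 * x ^ 2 + 3 * b6 * x + b8 = 0) :
    ∃ h : ℚ, h ≠ 0 ∧
      (b2 ^ 2 - 24 * b4) ^ 3 * h =
        (-b2 ^ 2 * b8 - 8 * b4 ^ 3 - 27 * b6 ^ 2 + 9 * b2 * b4 * b6) * ((h + 27) * (h + 3) ^ 3) := by
  set A : ℚ := -(b2 ^ 2 - 24 * b4) / 48 with hA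
  set B : ℚ := -(-b2 ^ 3 + 36 * b2 * b4 - 216 * b6) / 864 with hB
  have hΔ' : -b2 ^ 2 * b8 - 8 * b4 ^ 3 - 27 * b6 ^ 2 + 9 * b2 * b4 * b6 =
      -16 * (4 * A ^ 3 + 27 * B ^ 2) := by
    rw [hA, hB]; linear_combination (-b2 ^ 2 / 4) * hb
  have hΔs : 4 * A ^ 3 + 27 * B ^ 2 ≠ 0 := by
    intro h0; apply hΔ; rw [hΔ', h0]; ring
  have hψs : 3 * (x + b2 / 12) ^ 4 + 6 * A * (x + b2 / 12) ^ 2 + 12 * B * (x + b2 / 12) - A ^ 2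
      = 0 := by
    rw [hA, hB]; linear_combination hψ - (1 / 4) * hb
  obtain ⟨h, h0, hh⟩ := exists_h3_short A B (x + b2 / 12) hΔs hψs
  refine ⟨h, h0, ?_⟩
  rw [hΔ', ← hh, hA]; ring

/-- General Weierstrass `b`-invariants: a rational kernel quadratic of a cyclic subgroup of order
`5` (given by the `x`-coordinates `x1 = x(P)`, `x2 = x(2P)` in an extension field, related by the
duplication formula) gives a rational point on `X₀(5)`. -/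
theorem exists_h5 {K : Type*} [Field K] [CharZero K] (b2 b4 b6 b8 s1 s2 : ℚ) (x1 x2 : K)
    (hb : 4 * b8 = b2 * b6 - b4 ^ 2)
    (hΔ : -b2 ^ 2 * b8 - 8 * b4 ^ 3 - 27 * b6 ^ 2 + 9 * b2 * b4 * b6 ≠ 0)
    (h1 : x1 + x2 = (s1 : K)) (h2 : x1 * x2 = (s2 : K)) (hne : x1 ≠ x2)
    (hd1 : x2 * (4 * x1 ^ 3 + (b2 : K) * x1 ^ 2 + 2 * (b4 : K) * x1 + (b6 : K)) =
      x1 ^ 4 - (b4 : K) * x1 ^ 2 - 2 * (b6 : K) * x1 - (b8 : K))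
    (hd2 : x1 * (4 * x2 ^ 3 + (b2 : K) * x2 ^ 2 + 2 * (b4 : K) * x2 + (b6 : K)) =
      x2 ^ 4 - (b4 : K) * x2 ^ 2 - 2 * (b6 : K) * x2 - (b8 : K)) :
    ∃ h : ℚ, h ≠ 0 ∧
      (b2 ^ 2 - 24 * b4) ^ 3 * h =
        (-b2 ^ 2 * b8 - 8 * b4 ^ 3 - 27 * b6 ^ 2 + 9 * b2 * b4 * b6) * (h ^ 2 + 10 * h + 5) ^ 3 := by
  set A : ℚ := -(b2 ^ 2 - 24 * b4) / 48 with hA
  set B : ℚ := -(-b2 ^ 3 + 36 * b2 * b4 - 216 * b6) / 864 with hB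
  set S1 : ℚ := s1 + b2 / 6 with hS1
  set S2 : ℚ := s2 + b2 / 12 * s1 + b2 ^ 2 / 144 with hS2
  have hΔ' : -b2 ^ 2 * b8 - 8 * b4 ^ 3 - 27 * b6 ^ 2 + 9 * b2 * b4 * b6 =
      -16 * (4 * A ^ 3 + 27 * B ^ 2) := by
    rw [hA, hB]; linear_combination (-b2 ^ 2 / 4) * hb
  have hΔs : 4 * A ^ 3 + 27 * B ^ 2 ≠ 0 := by
    intro h0; apply hΔ; rw [hΔ', h0]; ring
  have hbK : 4 * (b8 : K) = (b2 : K) * (b6 : K) - (b4 : K) ^ 2 := by exact_mod_cast hb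
  have hx : x1 - x2 ≠ 0 := sub_ne_zero.mpr hne
  -- the two rational relations, first in `K`
  have hE1K : ((4 * B - S1 * (S1 ^ 2 - 6 * S2 - 2 * A) : ℚ) : K) = 0 := by
    apply mul_left_cancel₀ hx
    rw [mul_zero, hS1, hS2, hA, hB]
    push_cast
    rw [← h1, ← h2]
    linear_combination hd1 - hd2
  have hE1 : 4 * B = S1 * (S1 ^ 2 - 6 * S2 - 2 * A) := by
    have := (Rat.cast_eq_zero (α := K)).mp hE1K
    linear_combination this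
  have hE2K : ((A ^ 2 + 2 * A * (S1 ^ 2 - S2) - S1 ^ 4 + 5 * S1 ^ 2 * S2 + 5 * S2 ^ 2 : ℚ) : K)
      = 0 := by
    have hE1K' := hE1K
    rw [hS1, hS2, hA, hB] at hE1K'
    rw [hS1, hS2, hA]
    push_cast at hE1K' ⊢
    rw [← h1, ← h2] at hE1K' ⊢
    linear_combination (-1 / 2 : K) * hd1 + (-1 / 2 : K) * hd2 +
      (3 / 2 : K) * (x1 + x2 + (b2 : K) / 6) * hE1K' + (1 / 4 : K) * hbK
  have hE2 : A ^ 2 + 2 * A * (S1 ^ 2 - S2) - S1 ^ 4 + 5 * S1 ^ 2 * S2 + 5 * S2 ^ 2 = 0 :=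
    (Rat.cast_eq_zero (α := K)).mp hE2K
  have hD : S1 ^ 2 - 4 * S2 ≠ 0 := by
    intro h0
    have h0K : ((S1 ^ 2 - 4 * S2 : ℚ) : K) = 0 := by rw [h0]; simp
    rw [hS1, hS2] at h0K
    push_cast at h0K
    rw [← h1, ← h2] at h0K
    have : (x1 - x2) ^ 2 = 0 := by linear_combination h0K
    exact hx (pow_eq_zero_iff (two_ne_zero) |>.mp this)
  obtain ⟨h, h0, hh⟩ := exists_h5_short A B S1 S2 hΔs hD hE1 hE2
  refine ⟨h, h0, ?_⟩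
  rw [hΔ', ← hh, hA]; ring

end Fermat.Agent.S51lib
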