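/-
S51 library: assembly of the pieces (torsion analysis, parametrisation, rational points of
`X₀(15)`, endgame) into the statement of S51.  The torsion analysis and the determination of the
rational points of `X₀(15)` enter as hypotheses.
-/
import Fermat.Agent.S51lib.Param
import Fermat.Agent.S51lib.Endgame
import Fermat.Prelude.Def_FLTPrelim_ModularRep
import Fermat.Prelude.Def_FLTPrelim_Modularity

set_option autoImplicit false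

namespace Fermat.Agent.S51lib

open WeierstrassCurve

/-- Interface of the 3-torsion analysis. -/
def RootPsi3Statement : Prop :=
  ∀ (E : WeierstrassCurve ℚ), E.Δ ≠ 0 →
    ¬ WeierstrassCurve.Affine.Point.GaloisRepIsIrreducible (K := AlgebraicClosure ℚ) ℚ E 3 →
    ∃ x : ℚ, 3 * x ^ 4 + E.b₂ * x ^ 3 + 3 * E.b₄ * x ^ 2 + 3 * E.b₆ * x + E.b₈ = 0

/-- Interface of the 5-torsion analysis. -/
def KernelQuadraticStatement : Prop :=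
  ∀ (E : WeierstrassCurve ℚ), E.Δ ≠ 0 →
    ¬ WeierstrassCurve.Affine.Point.GaloisRepIsIrreducible (K := AlgebraicClosure ℚ) ℚ E 5 →
    ∃ (s1 s2 : ℚ) (x1 x2 : AlgebraicClosure ℚ),
      x1 + x2 = algebraMap ℚ (AlgebraicClosure ℚ) s1 ∧
      x1 * x2 = algebraMap ℚ (AlgebraicClosure ℚ) s2 ∧ x1 ≠ x2 ∧
      x2 * (4 * x1 ^ 3 + algebraMap ℚ (AlgebraicClosure ℚ) E.b₂ * x1 ^ 2 +
          2 * algebraMap ℚ (AlgebraicClosure ℚ) E.b₄ * x1 + algebraMap ℚ (AlgebraicClosure ℚ) E.b₆) =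
        x1 ^ 4 - algebraMap ℚ (AlgebraicClosure ℚ) E.b₄ * x1 ^ 2 -
          2 * algebraMap ℚ (AlgebraicClosure ℚ) E.b₆ * x1 - algebraMap ℚ (AlgebraicClosure ℚ) E.b₈ ∧
      x1 * (4 * x2 ^ 3 + algebraMap ℚ (AlgebraicClosure ℚ) E.b₂ * x2 ^ 2 +
          2 * algebraMap ℚ (AlgebraicClosure ℚ) E.b₄ * x2 + algebraMap ℚ (AlgebraicClosure ℚ) E.b₆) =
        x2 ^ 4 - algebraMap ℚ (AlgebraicClosure ℚ) E.b₄ * x2 ^ 2 -
          2 * algebraMap ℚ (AlgebraicClosure ℚ) E.b₆ * x2 - algebraMap ℚ (AlgebraicClosure ℚ) E.b₈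

/-- Interface of the determination of the non-cuspidal rational points of `X₀(15)`. -/
def X015PointsStatement : Prop :=
  ∀ h3 h5 : ℚ, h3 ≠ 0 → h5 ≠ 0 →
    (h3 + 27) * (h3 + 3) ^ 3 * h5 = (h5 ^ 2 + 10 * h5 + 5) ^ 3 * h3 →
    h5 = -10 ∨ h5 = -40 ∨ h5 = -25 / 2 ∨ h5 = -25 / 8

theorem s51_of_pieces (T3 : RootPsi3Statement) (T5 : KernelQuadraticStatement)
    (M : X015PointsStatement)
    (W : WeierstrassCurve ℤ) (hΔ : W.Δ ≠ 0) (hW : W.IsSemistableModel) :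
    W.ModRepIsIrreducible 3 ∨ W.ModRepIsIrreducible 5 := by
  by_contra hcon
  rw [not_or] at hcon
  obtain ⟨hn3, hn5⟩ := hcon
  set E : WeierstrassCurve ℚ := W.map (Int.castRingHom ℚ) with hE
  have hb2 : E.b₂ = (W.b₂ : ℚ) := by simp [hE]
  have hb4 : E.b₄ = (W.b₄ : ℚ) := by simp [hE]
  have hc4 : E.c₄ = (W.c₄ : ℚ) := by simp [hE]
  have hΔE' : E.Δ = (W.Δ : ℚ) := by simp [hE]
  have hΔE : E.Δ ≠ 0 := by rw [hΔE']; exact_mod_cast hΔ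
  have hΔb : -E.b₂ ^ 2 * E.b₈ - 8 * E.b₄ ^ 3 - 27 * E.b₆ ^ 2 + 9 * E.b₂ * E.b₄ * E.b₆ = E.Δ := rfl
  have hc4b : E.b₂ ^ 2 - 24 * E.b₄ = E.c₄ := rfl
  obtain ⟨x, hx⟩ := T3 E hΔE hn3
  obtain ⟨s1, s2, x1, x2, h1, h2, hne, hd1, hd2⟩ := T5 E hΔE hn5
  simp only [eq_ratCast] at h1 h2 hd1 hd2
  obtain ⟨h3, h30, hh3⟩ := exists_h3 E.b₂ E.b₄ E.b₆ E.b₈ x E.b_relation (by rw [hΔb]; exact hΔE) hx
  obtain ⟨h5, h50, hh5⟩ := exists_h5 (K := AlgebraicClosure ℚ) E.b₂ E.b₄ E.b₆ E.b₈ s1 s2 x1 x2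
    E.b_relation (by rw [hΔb]; exact hΔE) h1 h2 hne hd1 hd2
  rw [hΔb, hc4b] at hh3 hh5
  have hF : (h3 + 27) * (h3 + 3) ^ 3 * h5 = (h5 ^ 2 + 10 * h5 + 5) ^ 3 * h3 := by
    apply mul_left_cancel₀ hΔE
    linear_combination h3 * hh5 - h5 * hh3
  have hlist := M h3 h5 h30 h50 hF
  rw [hc4, hΔE'] at hh5
  obtain ⟨hd4, hdΔ⟩ := five_dvd_c4_and_disc W.c₄ W.Δ h5 hlist hh5
  exact hW 5 (by norm_num) (by exact_mod_cast hdΔ) (by exact_mod_cast hd4)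

end Fermat.Agent.S51lib
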