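/-
S51 library, piece [M]: the non-cuspidal rational points of `X₀(15)`, realised as the fibre product
`(h3+27)(h3+3)^3 h5 = (h5^2+10h5+5)^3 h3` of `X₀(3)` and `X₀(5)` over the `j`-line.

Route: the modular unit `u = (η(τ)η(15τ)/(η(3τ)η(5τ)))^3` is a rational function of `(h3, h5)`
(found by `q`-expansions), and satisfies `u^3 h5^2 + (u^4+9u^3+9u-1) h5 + 125 u = 0`, whose
discriminant in `h5` is `(u^2+4u-1)^2 (u^2-u-1)(u^2+11u-1)`.  The quartic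
`w^2 = (u^2-u-1)(u^2+11u-1)` is birational to `y^2 = x(x+9)(x-16)` (Cremona `15a1`), whose
rational points enter as a hypothesis.
-/
import Mathlib

set_option autoImplicit false

namespace Fermat.Agent.S51lib

/-- Interface of the descent: the affine rational points of `y^2 = x(x+9)(x-16)`. -/
def Points15aStatement : Prop :=
  ∀ x y : ℚ, y ^ 2 = x * (x + 9) * (x - 16) → x = 0 ∨ x = -9 ∨ x = 16 ∨ x = 36 ∨ x = -4

theorem int_not_isSquare_five : ¬ IsSquare (5 : ℤ) := by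
  rintro ⟨k, hk⟩
  have h1 : k ≤ 2 := by nlinarith
  have h2 : -2 ≤ k := by nlinarith
  interval_cases k <;> omega

theorem int_not_isSquare_three : ¬ IsSquare (3 : ℤ) := by
  rintro ⟨k, hk⟩
  have h1 : k ≤ 2 := by nlinarith
  have h2 : -2 ≤ k := by nlinarith
  interval_cases k <;> omega

theorem rat_sq_ne_five (r : ℚ) : r ^ 2 ≠ 5 := by
  intro h
  have h5 : IsSquare (5 : ℚ) := ⟨r, by rw [← h]; ring⟩
  rw [Rat.isSquare_iff] at h5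
  exact int_not_isSquare_five (by simpa using h5.1)

theorem rat_sq_ne_three (r : ℚ) : r ^ 2 ≠ 3 := by
  intro h
  have h3 : IsSquare (3 : ℚ) := ⟨r, by rw [← h]; ring⟩
  rw [Rat.isSquare_iff] at h3
  exact int_not_isSquare_three (by simpa using h3.1)

/-- Rational points of the quartic model `w^2 = (u^2-u-1)(u^2+11u-1)` of `X₀(15)`. -/
theorem quartic_points (D : Points15aStatement) (u w : ℚ)
    (h : w ^ 2 = (u ^ 2 - u - 1) * (u ^ 2 + 11 * u - 1)) : u = 0 ∨ u = 2 ∨ u = -1 / 2 := by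
  obtain ⟨t, ht⟩ : ∃ t : ℚ, t = u ^ 2 + 5 * u - w := ⟨_, rfl⟩
  have hw : w = u ^ 2 + 5 * u - t := by rw [ht]; ring
  subst hw
  have hkey : (38 - 2 * t) * u ^ 2 + (10 - 10 * t) * u + (t ^ 2 - 1) = 0 := by
    linear_combination h
  have hxy : (2 * (38 - 2 * t) * u + 10 - 10 * t) ^ 2 =
      (2 * t - 2) * ((2 * t - 2) + 9) * ((2 * t - 2) - 16) := by
    linear_combination (4 * (38 - 2 * t)) * hkey
  rcases D _ _ hxy with hx | hx | hx | hx | hx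
  · have ht1 : t = 1 := by linarith
    subst ht1
    left
    have : u ^ 2 = 0 := by linarith
    exact pow_eq_zero_iff (two_ne_zero) |>.mp this
  · have ht1 : t = -7 / 2 := by linarith
    subst ht1
    right; right
    have : (u + 1 / 2) ^ 2 = 0 := by linear_combination (1 / 45 : ℚ) * hkey
    have := pow_eq_zero_iff (two_ne_zero) |>.mp this
    linarith
  · have ht1 : t = 9 := by linarith
    subst ht1
    right; left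
    have : (u - 2) ^ 2 = 0 := by linear_combination (1 / 20 : ℚ) * hkey
    have := pow_eq_zero_iff (two_ne_zero) |>.mp this
    linarith
  · have ht1 : t = 19 := by linarith
    subst ht1
    right; left
    linarith
  · have ht1 : t = -1 := by linarith
    subst ht1
    have : u * (u + 1 / 2) = 0 := by linear_combination (1 / 40 : ℚ) * hkey
    rcases mul_eq_zero.mp this with h0 | h0
    · left; exact h0
    · right; right; linarith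

/-- The non-cuspidal rational points of `X₀(15)`. -/
theorem x015_points_of_descent (D : Points15aStatement) (h3 h5 : ℚ) (_h30 : h3 ≠ 0) (h50 : h5 ≠ 0)
    (hF : (h3 + 27) * (h3 + 3) ^ 3 * h5 = (h5 ^ 2 + 10 * h5 + 5) ^ 3 * h3) :
    h5 = -10 ∨ h5 = -40 ∨ h5 = -25 / 2 ∨ h5 = -25 / 8 := by
  -- the case `h3 = -3` (`j = 0`) is impossible
  have h33 : h3 + 3 ≠ 0 := by
    intro h0
    have h3v : h3 = -3 := by linarith
    subst h3v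
    have h1 : (h5 ^ 2 + 10 * h5 + 5) ^ 3 = 0 := by linear_combination (1 / 3 : ℚ) * hF
    have h2 : h5 ^ 2 + 10 * h5 + 5 = 0 := pow_eq_zero_iff (three_ne_zero) |>.mp h1
    exact rat_sq_ne_five ((h5 + 5) / 2) (by linear_combination (1 / 4 : ℚ) * h2)
  have hd : 81 - 27 * h3 - 21 * h3 ^ 2 - h3 ^ 3 ≠ 0 := by
    intro h0
    have hfac : (h3 + 3) * (h3 ^ 2 + 18 * h3 - 27) = 0 := by linear_combination -h0
    rcases mul_eq_zero.mp hfac with h1 | h1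
    · exact h33 h1
    · exact rat_sq_ne_three ((h3 + 9) / 6) (by linear_combination (1 / 36 : ℚ) * h1)
  have hT : ∀ N d : ℚ, N = 14 * h3 + 297 * h3 ^ 2 + 36 * h3 ^ 3 + h3 ^ 4
      - (81 + 1733 * h3 - 3 * h3 ^ 2) * h5 - 1326 * h3 * h5 ^ 2 - 316 * h3 * h5 ^ 3
      - 30 * h3 * h5 ^ 4 - h3 * h5 ^ 5 → d = 81 - 27 * h3 - 21 * h3 ^ 2 - h3 ^ 3 →
      N ^ 3 * d * h5 ^ 2 + (N ^ 4 + 9 * N ^ 3 * d + 9 * N * d ^ 3 - d ^ 4) * h5
        + 125 * N * d ^ 3 = 0 := by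
    intro N d hN hd
    subst hN hd
    linear_combination
      (h3 ^ 12 - h3 ^ 11 * h5 + 99 * h3 ^ 11 - 81 * h3 ^ 10 * h5 + 3969 * h3 ^ 10 - 3 * h3 ^ 9 * h5
        ^ 5 - 90 * h3 ^ 9 * h5 ^ 4 - 949 * h3 ^ 9 * h5 ^ 3 - 4013 * h3 ^ 9 * h5 ^ 2 - 8030 * h3 ^ 9
        * h5 + 81689 * h3 ^ 9 + 2 * h3 ^ 8 * h5 ^ 6 - 138 * h3 ^ 8 * h5 ^ 5 - 5307 * h3 ^ 8 * h5 ^ 4
        - 59953 * h3 ^ 8 * h5 ^ 3 - 261021 * h3 ^ 8 * h5 ^ 2 - 399537 * h3 ^ 8 * h5 + 892692 * h3 ^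
        8 + 90 * h3 ^ 7 * h5 ^ 6 - 1998 * h3 ^ 7 * h5 ^ 5 - 112455 * h3 ^ 7 * h5 ^ 4 - 1365516 * h3
        ^ 7 * h5 ^ 3 - 6111693 * h3 ^ 7 * h5 ^ 2 - 8823546 * h3 ^ 7 * h5 + 4631310 * h3 ^ 7 + 3 * h3
        ^ 6 * h5 ^ 10 + 180 * h3 ^ 6 * h5 ^ 9 + 4598 * h3 ^ 6 * h5 ^ 8 + 64957 * h3 ^ 6 * h5 ^ 7 +
        552829 * h3 ^ 6 * h5 ^ 6 + 2853112 * h3 ^ 6 * h5 ^ 5 + 7794837 * h3 ^ 6 * h5 ^ 4 + 1484953 *
        h3 ^ 6 * h5 ^ 3 - 50004265 * h3 ^ 6 * h5 ^ 2 - 85456246 * h3 ^ 6 * h5 + 5488290 * h3 ^ 6 -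
        h3 ^ 5 * h5 ^ 11 + 39 * h3 ^ 5 * h5 ^ 10 + 4407 * h3 ^ 5 * h5 ^ 9 + 130063 * h3 ^ 5 * h5 ^ 8
        + 1959114 * h3 ^ 5 * h5 ^ 7 + 17241807 * h3 ^ 5 * h5 ^ 6 + 91405491 * h3 ^ 5 * h5 ^ 5 +
        281867574 * h3 ^ 5 * h5 ^ 4 + 433736451 * h3 ^ 5 * h5 ^ 3 + 131443957 * h3 ^ 5 * h5 ^ 2 -
        280709604 * h3 ^ 5 * h5 - 29963358 * h3 ^ 5 - 9 * h3 ^ 4 * h5 ^ 11 + 189 * h3 ^ 4 * h5 ^ 10
        + 29943 * h3 ^ 4 * h5 ^ 9 + 922275 * h3 ^ 4 * h5 ^ 8 + 14123619 * h3 ^ 4 * h5 ^ 7 +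
        125323497 * h3 ^ 4 * h5 ^ 6 + 667963179 * h3 ^ 4 * h5 ^ 5 + 2090520684 * h3 ^ 4 * h5 ^ 4 +
        3521181888 * h3 ^ 4 * h5 ^ 3 + 2527815177 * h3 ^ 4 * h5 ^ 2 + 146476242 * h3 ^ 4 * h5 -
        62156727 * h3 ^ 4 - h3 ^ 3 * h5 ^ 15 - 90 * h3 ^ 3 * h5 ^ 14 - 3649 * h3 ^ 3 * h5 ^ 13 -
        87944 * h3 ^ 3 * h5 ^ 12 - 1399925 * h3 ^ 3 * h5 ^ 11 - 15466095 * h3 ^ 3 * h5 ^ 10 -
        121259637 * h3 ^ 3 * h5 ^ 9 - 677873659 * h3 ^ 3 * h5 ^ 8 - 2674503728 * h3 ^ 3 * h5 ^ 7 -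
        7249763453 * h3 ^ 3 * h5 ^ 6 - 12821780988 * h3 ^ 3 * h5 ^ 5 - 13356332798 * h3 ^ 3 * h5 ^ 4
        - 6291447942 * h3 ^ 3 * h5 ^ 3 + 35039057 * h3 ^ 3 * h5 ^ 2 + 326215795 * h3 ^ 3 * h5 +
        85443903 * h3 ^ 3 - 243 * h3 ^ 2 * h5 ^ 11 - 14580 * h3 ^ 2 * h5 ^ 10 - 372519 * h3 ^ 2 * h5
        ^ 9 - 5266053 * h3 ^ 2 * h5 ^ 8 - 44792676 * h3 ^ 2 * h5 ^ 7 - 233574516 * h3 ^ 2 * h5 ^ 6 -
        729388557 * h3 ^ 2 * h5 ^ 5 - 1280131290 * h3 ^ 2 * h5 ^ 4 - 1150186311 * h3 ^ 2 * h5 ^ 3 -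
        539277507 * h3 ^ 2 * h5 ^ 2 - 199980009 * h3 ^ 2 * h5 + 142012845 * h3 ^ 2 - 19683 * h3 * h5
        ^ 7 - 590490 * h3 * h5 ^ 6 - 6239511 * h3 * h5 ^ 5 - 26788563 * h3 * h5 ^ 4 - 42908940 * h3
        * h5 ^ 3 - 51726924 * h3 * h5 ^ 2 - 147740598 * h3 * h5 - 150397803 * h3 - 531441 * h5 ^ 3 -
        531441 * h5 - 7440174) * hF
  obtain ⟨N, hN⟩ : ∃ N : ℚ, N = 14 * h3 + 297 * h3 ^ 2 + 36 * h3 ^ 3 + h3 ^ 4
      - (81 + 1733 * h3 - 3 * h3 ^ 2) * h5 - 1326 * h3 * h5 ^ 2 - 316 * h3 * h5 ^ 3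
      - 30 * h3 * h5 ^ 4 - h3 * h5 ^ 5 := ⟨_, rfl⟩
  obtain ⟨d, hdd⟩ : ∃ d : ℚ, d = 81 - 27 * h3 - 21 * h3 ^ 2 - h3 ^ 3 := ⟨_, rfl⟩
  have hT' := hT N d hN hdd
  have hd0 : d ≠ 0 := by rw [hdd]; exact hd
  obtain ⟨u, hu⟩ : ∃ u : ℚ, u = N / d := ⟨_, rfl⟩
  have hG : u ^ 3 * h5 ^ 2 + (u ^ 4 + 9 * u ^ 3 + 9 * u - 1) * h5 + 125 * u = 0 := by
    have e : u ^ 3 * h5 ^ 2 + (u ^ 4 + 9 * u ^ 3 + 9 * u - 1) * h5 + 125 * u =
        (N ^ 3 * d * h5 ^ 2 + (N ^ 4 + 9 * N ^ 3 * d + 9 * N * d ^ 3 - d ^ 4) * h5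
          + 125 * N * d ^ 3) / d ^ 4 := by
      rw [hu]; field_simp
    rw [e, hT', zero_div]
  have he : u ^ 2 + 4 * u - 1 ≠ 0 := by
    intro h0
    exact rat_sq_ne_five (u + 2) (by linear_combination h0)
  have hw : ((2 * u ^ 3 * h5 + (u ^ 4 + 9 * u ^ 3 + 9 * u - 1)) / (u ^ 2 + 4 * u - 1)) ^ 2 =
      (u ^ 2 - u - 1) * (u ^ 2 + 11 * u - 1) := by
    rw [div_pow, div_eq_iff (pow_ne_zero _ he)]
    linear_combination (4 * u ^ 3) * hG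
  rcases quartic_points D u _ hw with h0 | h0 | h0
  · subst h0
    exact absurd (by linear_combination -hG) h50
  · subst h0
    have : (8 * h5 + 25) * (h5 + 10) = 0 := by linear_combination hG
    rcases mul_eq_zero.mp this with h1 | h1
    · right; right; right; linarith
    · left; linarith
  · subst h0
    have : (2 * h5 + 25) * (h5 + 40) = 0 := by linear_combination (-16 : ℚ) * hG
    rcases mul_eq_zero.mp this with h1 | h1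
    · right; right; left; linarith
    · right; left; linarith

end Fermat.Agent.S51lib
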