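import Fermat.Agent.S51lib.TorsionGalois
import Fermat.Agent.S51lib.Assembly

/-!
# The torsion interfaces `RootPsi3Statement` and `KernelQuadraticStatement` (S51 support)
-/

set_option autoImplicit false

namespace Fermat.Agent.S51lib

open WeierstrassCurve

/-- The 3-torsion interface of `Assembly.lean`. -/
theorem rootPsi3Statement : RootPsi3Statement := by
  intro E hΔ h
  obtain ⟨x, hx⟩ := Tor.exists_rat_root_psi3 E hΔ h
  exact ⟨x, hx⟩

/-- The 5-torsion interface of `Assembly.lean`. -/
theorem kernelQuadraticStatement : KernelQuadraticStatement := by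
  intro E hΔ h
  obtain ⟨s1, s2, u, v, hs1, hs2, huv, h1, h2, -, -⟩ := Tor.exists_five_data E hΔ h
  refine ⟨s1, s2, u, v, hs1, hs2, huv, ?_, ?_⟩
  · simpa only [Tor.gX, Tor.phi2, Tor.EK, WeierstrassCurve.baseChange,
      WeierstrassCurve.map_b₂, WeierstrassCurve.map_b₄, WeierstrassCurve.map_b₆,
      WeierstrassCurve.map_b₈] using h1
  · simpa only [Tor.gX, Tor.phi2, Tor.EK, WeierstrassCurve.baseChange,
      WeierstrassCurve.map_b₂, WeierstrassCurve.map_b₄, WeierstrassCurve.map_b₆,
      WeierstrassCurve.map_b₈] using h2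

end Fermat.Agent.S51lib
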