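/-
Rational points on the modular curve `X₀(15)` (elliptic curve 15a): an explicit complete
2-descent.  Main results:
* `rational_points_legendre81` : the only rational points on `Y² = X (X - 1) (X - 81)` have
  `X ∈ {0, 1, 81}`;
* `rational_points_15a` : the only rational points on `y² = x (x + 9) (x - 16)` have
  `x ∈ {0, -9, 16, 36, -4}`.
-/
import Mathlib

set_option autoImplicit false

namespace Fermat.Agent.S51lib.X015

/-- Two-factor lemma: if `a * b` is a nonzero square then `a` and `b` are, up to a common sign,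
`gcd a b` times squares. -/
theorem two_factor {a b n : ℤ} (hn : n ≠ 0) (h : a * b = n ^ 2) :
    ∃ (s t : ℤ), s ≠ 0 ∧ t ≠ 0 ∧
      ((a = (Int.gcd a b : ℤ) * s ^ 2 ∧ b = (Int.gcd a b : ℤ) * t ^ 2) ∨
        (a = -((Int.gcd a b : ℤ) * s ^ 2) ∧ b = -((Int.gcd a b : ℤ) * t ^ 2))) := by
  have hab : a * b ≠ 0 := by rw [h]; exact pow_ne_zero 2 hn
  have ha : a ≠ 0 := left_ne_zero_of_mul hab
  have hb : b ≠ 0 := right_ne_zero_of_mul hab
  set g : ℕ := Int.gcd a b with hg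
  have hgpos : 0 < g := Int.gcd_pos_of_ne_zero_left b ha
  have hg0 : (g : ℤ) ≠ 0 := by exact_mod_cast hgpos.ne'
  obtain ⟨a', ha'⟩ : (g : ℤ) ∣ a := Int.gcd_dvd_left a b
  obtain ⟨b', hb'⟩ : (g : ℤ) ∣ b := Int.gcd_dvd_right a b
  have hcop : Int.gcd a' b' = 1 := by
    have h1 : Int.gcd a b = g * Int.gcd a' b' := by
      conv_lhs => rw [ha', hb']
      rw [Int.gcd_mul_left]
      simp
    have h2 : g * 1 = g * Int.gcd a' b' := by rw [mul_one]; exact h1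
    exact (Nat.eq_of_mul_eq_mul_left hgpos h2).symm
  have hgn : (g : ℤ) ∣ n := by
    have : (g : ℤ) ^ 2 ∣ n ^ 2 := by
      rw [← h, ha', hb']
      exact ⟨a' * b', by ring⟩
    exact (Int.pow_dvd_pow_iff two_ne_zero).mp this
  obtain ⟨n', hn'⟩ := hgn
  have hn'0 : n' ≠ 0 := by
    rintro rfl
    apply hn; rw [hn']; ring
  have hprod : a' * b' = n' ^ 2 := by
    have : (g : ℤ) ^ 2 * (a' * b') = (g : ℤ) ^ 2 * n' ^ 2 := by
      have := h
      rw [ha', hb', hn'] at this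
      linear_combination this
    exact mul_left_cancel₀ (pow_ne_zero 2 hg0) this
  have hprodpos : 0 < a' * b' := by rw [hprod]; positivity
  have ha'0 : a' ≠ 0 := by rintro rfl; simp at hprodpos
  have hb'0 : b' ≠ 0 := by rintro rfl; simp at hprodpos
  obtain ⟨s, hs⟩ := Int.sq_of_gcd_eq_one hcop hprod
  obtain ⟨t, ht⟩ := Int.sq_of_gcd_eq_one (by rwa [Int.gcd_comm]) (by rw [mul_comm]; exact hprod)
  have hs0 : s ≠ 0 := by
    rintro rfl
    rcases hs with hs | hs <;> simp at hs <;> exact ha'0 hs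
  have ht0 : t ≠ 0 := by
    rintro rfl
    rcases ht with ht | ht <;> simp at ht <;> exact hb'0 ht
  have hs2 : 0 < s ^ 2 := by positivity
  have ht2 : 0 < t ^ 2 := by positivity
  refine ⟨s, t, hs0, ht0, ?_⟩
  rcases hs with hs | hs <;> rcases ht with ht | ht
  · left; exact ⟨by rw [ha', hs], by rw [hb', ht]⟩
  · exfalso
    rw [hs, ht] at hprodpos
    nlinarith
  · exfalso
    rw [hs, ht] at hprodpos
    nlinarith
  · right; exact ⟨by rw [ha', hs]; ring, by rw [hb', ht]; ring⟩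


/-! ### Small congruence lemmas -/

theorem three_dvd_of_sq_add_sq {a b : ℤ} (h : (3 : ℤ) ∣ a ^ 2 + b ^ 2) : (3 : ℤ) ∣ a ∧ (3 : ℤ) ∣ b := by
  have key : ∀ x y : ZMod 3, x ^ 2 + y ^ 2 = 0 → x = 0 ∧ y = 0 := by decide
  have h1 : ((a ^ 2 + b ^ 2 : ℤ) : ZMod 3) = 0 := (ZMod.intCast_zmod_eq_zero_iff_dvd _ 3).mpr h
  push_cast at h1
  obtain ⟨ha, hb⟩ := key _ _ h1
  exact ⟨(ZMod.intCast_zmod_eq_zero_iff_dvd a 3).mp ha, (ZMod.intCast_zmod_eq_zero_iff_dvd b 3).mp hb⟩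

/-- The class `d₁ = 3` has no points (3-adic obstruction). -/
theorem no_class_three {M e N : ℤ} (he : ¬ (3 : ℤ) ∣ e)
    (h : N ^ 2 = 3 * M ^ 4 - 82 * M ^ 2 * e ^ 2 + 27 * e ^ 4) : False := by
  have p3 : Prime (3 : ℤ) := Int.prime_three
  -- first step
  have h1 : (3 : ℤ) ∣ N ^ 2 + (M * e) ^ 2 := ⟨M ^ 4 - 27 * M ^ 2 * e ^ 2 + 9 * e ^ 4, by rw [h]; ring⟩
  obtain ⟨hN, hMe⟩ := three_dvd_of_sq_add_sq h1
  have hM : (3 : ℤ) ∣ M := (p3.dvd_or_dvd hMe).resolve_right he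
  obtain ⟨M₁, rfl⟩ := hM
  obtain ⟨N₁, rfl⟩ := hN
  have h' : N₁ ^ 2 = 27 * M₁ ^ 4 - 82 * M₁ ^ 2 * e ^ 2 + 3 * e ^ 4 := by
    have : (9 : ℤ) * N₁ ^ 2 = 9 * (27 * M₁ ^ 4 - 82 * M₁ ^ 2 * e ^ 2 + 3 * e ^ 4) := by
      linear_combination h
    linarith
  -- second step
  have h2 : (3 : ℤ) ∣ N₁ ^ 2 + (M₁ * e) ^ 2 :=
    ⟨9 * M₁ ^ 4 - 27 * M₁ ^ 2 * e ^ 2 + e ^ 4, by rw [h']; ring⟩
  obtain ⟨hN₁, hMe₁⟩ := three_dvd_of_sq_add_sq h2
  have hM₁ : (3 : ℤ) ∣ M₁ := (p3.dvd_or_dvd hMe₁).resolve_right he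
  obtain ⟨M₂, rfl⟩ := hM₁
  obtain ⟨N₂, rfl⟩ := hN₁
  have h3 : (3 : ℤ) ∣ e ^ 4 :=
    ⟨N₂ ^ 2 - 243 * M₂ ^ 4 + 82 * M₂ ^ 2 * e ^ 2, by linarith [h']⟩
  exact he (p3.dvd_of_dvd_pow h3)


/-- The classes `d ∈ {±2, ±10}` have no points (2-adic obstruction). -/
theorem no_class_even {s e v w c : ℤ} (hc : c = 2 ∨ c = -2 ∨ c = 10 ∨ c = -10)
    (hcop : IsCoprime s e) (h1 : s ^ 2 - e ^ 2 = c * v ^ 2)
    (h2 : s ^ 2 - 81 * e ^ 2 = c * w ^ 2) : False := by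
  -- `s` and `e` are odd
  have hceven : Even c := by
    rcases hc with rfl | rfl | rfl | rfl <;> decide
  have hpar : Even s ↔ Even e := by
    have : Even (s ^ 2 - e ^ 2) := by rw [h1]; exact hceven.mul_right _
    rw [Int.even_sub, Int.even_pow' two_ne_zero, Int.even_pow' two_ne_zero] at this
    exact this
  have hs : ¬ Even s := by
    intro hs
    have he := hpar.mp hs
    have h2s : (2 : ℤ) ∣ s := hs.two_dvd
    have h2e : (2 : ℤ) ∣ e := he.two_dvd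
    have := hcop.isUnit_of_dvd' h2s h2e
    exact absurd this (by decide)
  have he : ¬ Even e := fun he => hs (hpar.mpr he)
  -- cast to `ZMod 8`
  have key8 : ∀ s e v c : ZMod 8, 4 * s ≠ 0 → 4 * e ≠ 0 →
      (c = 2 ∨ c = -2 ∨ c = 10 ∨ c = -10) → s ^ 2 - e ^ 2 = c * v ^ 2 → 4 * v = 0 := by decide
  have hs8 : (4 * (s : ZMod 8)) ≠ 0 := by
    intro h
    have : ((4 * s : ℤ) : ZMod 8) = 0 := by push_cast; exact h
    rw [ZMod.intCast_zmod_eq_zero_iff_dvd] at this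
    apply hs
    rw [Int.even_iff]
    omega
  have he8 : (4 * (e : ZMod 8)) ≠ 0 := by
    intro h
    have : ((4 * e : ℤ) : ZMod 8) = 0 := by push_cast; exact h
    rw [ZMod.intCast_zmod_eq_zero_iff_dvd] at this
    apply he
    rw [Int.even_iff]
    omega
  have hc8 : ((c : ZMod 8) = 2 ∨ (c : ZMod 8) = -2 ∨ (c : ZMod 8) = 10 ∨ (c : ZMod 8) = -10) := by
    rcases hc with rfl | rfl | rfl | rfl
    · left; norm_num
    · right; left; norm_num
    · right; right; left; norm_num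
    · right; right; right; norm_num
  have even_of : ∀ x : ℤ, 4 * (x : ZMod 8) = 0 → (2 : ℤ) ∣ x := by
    intro x h
    have : ((4 * x : ℤ) : ZMod 8) = 0 := by push_cast; exact h
    rw [ZMod.intCast_zmod_eq_zero_iff_dvd] at this
    omega
  have hv : (2 : ℤ) ∣ v := by
    apply even_of
    apply key8 (s : ZMod 8) (e : ZMod 8) (v : ZMod 8) (c : ZMod 8) hs8 he8 hc8
    have := congrArg (Int.cast : ℤ → ZMod 8) h1
    push_cast at this
    exact this
  have hw : (2 : ℤ) ∣ w := by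
    apply even_of
    apply key8 (s : ZMod 8) (e : ZMod 8) (w : ZMod 8) (c : ZMod 8) hs8 he8 hc8
    have := congrArg (Int.cast : ℤ → ZMod 8) h2
    push_cast at this
    rw [this.symm]
    have h81 : (81 : ZMod 8) = 1 := by decide
    rw [h81, one_mul]
  obtain ⟨v', rfl⟩ := hv
  obtain ⟨w', rfl⟩ := hw
  -- second stage: mod 4
  have h3 : 20 * e ^ 2 = c * (v' ^ 2 - w' ^ 2) := by linarith
  have key8' : ∀ e v w c : ZMod 8, 4 * e ≠ 0 →
      (c = 2 ∨ c = -2 ∨ c = 10 ∨ c = -10) → 20 * e ^ 2 = c * (v ^ 2 - w ^ 2) → False := by decide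
  apply key8' (e : ZMod 8) (v' : ZMod 8) (w' : ZMod 8) (c : ZMod 8) he8 hc8
  have := congrArg (Int.cast : ℤ → ZMod 8) h3
  push_cast at this
  exact this


theorem dvd_81_cases {g : ℕ} (h : g ∣ 81) : g = 1 ∨ g = 3 ∨ g = 9 ∨ g = 27 ∨ g = 81 := by
  have hle : g ≤ 81 := Nat.le_of_dvd (by norm_num) h
  interval_cases g <;> omega

theorem dvd_80_cases {g : ℕ} (h : g ∣ 80) :
    ∃ d k : ℕ, g = d * k ^ 2 ∧ 0 < k ∧ (d = 1 ∨ d = 2 ∨ d = 5 ∨ d = 10) := by
  have hle : g ≤ 80 := Nat.le_of_dvd (by norm_num) h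
  interval_cases g <;> first
    | (exfalso; revert h; decide)
    | exact ⟨1, 1, by decide, by decide, by decide⟩
    | exact ⟨2, 1, by decide, by decide, by decide⟩
    | exact ⟨1, 2, by decide, by decide, by decide⟩
    | exact ⟨5, 1, by decide, by decide, by decide⟩
    | exact ⟨2, 2, by decide, by decide, by decide⟩
    | exact ⟨10, 1, by decide, by decide, by decide⟩
    | exact ⟨1, 4, by decide, by decide, by decide⟩
    | exact ⟨5, 2, by decide, by decide, by decide⟩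
    | exact ⟨10, 2, by decide, by decide, by decide⟩
    | exact ⟨5, 4, by decide, by decide, by decide⟩

/-! ### From rational points to integers -/

/-- A rational point with `Y ≠ 0` on `Y² = X (X - 1) (X - 81)` has `X = m / e²` in lowest terms. -/
theorem exists_int_rep {X Y : ℚ} (hY : Y ≠ 0) (h : Y ^ 2 = X * (X - 1) * (X - 81)) :
    ∃ m e n : ℤ, 0 < e ∧ IsCoprime m e ∧ n ≠ 0 ∧ X = m / e ^ 2 ∧
      n ^ 2 = m * (m - e ^ 2) * (m - 81 * e ^ 2) := by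
  set a : ℤ := X.num with ha
  set b : ℤ := (X.den : ℤ) with hb
  have hbpos : 0 < b := by rw [hb]; exact_mod_cast X.pos
  have hb0 : (b : ℚ) ≠ 0 := by exact_mod_cast hbpos.ne'
  have hX : X = a / b := by rw [ha, hb]; exact (Rat.num_div_den X).symm
  have hcop : IsCoprime a b := by
    rw [Int.isCoprime_iff_gcd_eq_one, ha, hb]
    exact X.reduced
  -- `b * (a (a - b) (a - 81 b))` is a square
  set N : ℤ := a * (a - b) * (a - 81 * b) with hN
  have hsq : ((b * N : ℤ) : ℚ) = (Y * b ^ 2) ^ 2 := by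
    rw [mul_pow, h, hX, hN]
    push_cast
    field_simp
  have hsq' : IsSquare (b * N : ℤ) := by
    rw [← Rat.isSquare_intCast_iff, hsq]
    exact ⟨Y * b ^ 2, by ring⟩
  obtain ⟨k, hk⟩ := hsq'
  have hk0 : k ≠ 0 := by
    rintro rfl
    have h0 : ((b * N : ℤ) : ℚ) = 0 := by rw [hk]; simp
    rw [hsq] at h0
    have := pow_eq_zero_iff (two_ne_zero) |>.mp h0
    rcases mul_eq_zero.mp this with h1 | h1
    · exact hY h1
    · exact hb0 (pow_eq_zero_iff (two_ne_zero) |>.mp h1)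
  have hcopN : IsCoprime b N := by
    have h1 : IsCoprime b a := hcop.symm
    have h2 : IsCoprime b (a - b) := by
      have := h1.add_mul_left_right (-1)
      simpa [sub_eq_add_neg] using this
    have h3 : IsCoprime b (a - 81 * b) := by
      have := h1.add_mul_left_right (-81)
      rwa [show a + b * (-81) = a - 81 * b by ring] at this
    exact (h1.mul_right h2).mul_right h3
  obtain ⟨e₀, he₀⟩ := Int.sq_of_isCoprime hcopN (show b * N = k ^ 2 by rw [hk]; ring)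
  have hbe : b = e₀ ^ 2 := by
    rcases he₀ with h1 | h1
    · exact h1
    · exfalso
      have : 0 ≤ e₀ ^ 2 := by positivity
      linarith
  have he₀0 : e₀ ≠ 0 := by
    rintro rfl
    rw [hbe] at hbpos
    simp at hbpos
  set e : ℤ := |e₀| with he
  have hepos : 0 < e := abs_pos.mpr he₀0
  have hbe' : b = e ^ 2 := by rw [hbe, he, sq_abs]
  -- `N = (k / e) ^ 2`
  have hek : e ∣ k := by
    have : e ^ 2 ∣ k ^ 2 := ⟨N, by rw [← hbe']; rw [pow_two k, ← hk]⟩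
    exact (Int.pow_dvd_pow_iff two_ne_zero).mp this
  obtain ⟨n, hn⟩ := hek
  have hn0 : n ≠ 0 := by
    rintro rfl
    apply hk0; rw [hn]; ring
  have hNn : N = n ^ 2 := by
    have : e ^ 2 * N = e ^ 2 * n ^ 2 := by
      calc e ^ 2 * N = b * N := by rw [hbe']
        _ = k * k := hk
        _ = e ^ 2 * n ^ 2 := by rw [hn]; ring
    exact mul_left_cancel₀ (pow_ne_zero 2 hepos.ne') this
  refine ⟨a, e, n, hepos, ?_, hn0, ?_, ?_⟩
  · have : IsCoprime a (e ^ 2) := by rw [← hbe']; exact hcop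
    exact IsCoprime.of_mul_right_left (by rw [← pow_two]; exact this)
  · rw [hX, hbe']; push_cast; ring
  · rw [← hNn, hN, hbe']


theorem isSquare_of_rat_sq {A B : ℚ} {u E : ℤ} (hE : E ≠ 0) (hA : A = u / E) (c : ℤ)
    (hB : A ^ 2 - c = B ^ 2) : IsSquare (u ^ 2 - c * E ^ 2) := by
  have hE0 : (E : ℚ) ≠ 0 := by exact_mod_cast hE
  have h1 : ((u ^ 2 - c * E ^ 2 : ℤ) : ℚ) = (B * E) ^ 2 := by
    rw [mul_pow, ← hB, hA]
    push_cast
    field_simp
  rw [← Rat.isSquare_intCast_iff, h1]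
  exact ⟨B * E, by ring⟩

/-- A rational triple `A² - 1 = B²`, `A² - 81 = C²` gives an integer quadruple. -/
theorem exists_int_quad {A B C : ℚ} (hB : A ^ 2 - 1 = B ^ 2) (hC : A ^ 2 - 81 = C ^ 2) :
    ∃ v w : ℤ, A.num ^ 2 - (A.den : ℤ) ^ 2 = v ^ 2 ∧ A.num ^ 2 - 81 * (A.den : ℤ) ^ 2 = w ^ 2 := by
  have hE0 : (A.den : ℤ) ≠ 0 := by exact_mod_cast A.den_ne_zero
  have hA : A = ((A.num : ℤ) : ℚ) / (((A.den : ℤ) : ℤ) : ℚ) := by
    push_cast; exact (Rat.num_div_den A).symm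
  obtain ⟨v, hv⟩ := isSquare_of_rat_sq hE0 hA 1 (by push_cast; exact hB)
  obtain ⟨w, hw⟩ := isSquare_of_rat_sq hE0 hA 81 (by push_cast; exact hC)
  exact ⟨v, w, by rw [← pow_two] at hv; rw [← hv]; ring, by rw [← pow_two] at hw; rw [← hw]⟩

/-! ### Halving -/

/-- Halving a point of class `(1,1,1)`. -/
theorem halving {A B C : ℚ} (hB : A ^ 2 - 1 = B ^ 2) (hC : A ^ 2 - 81 = C ^ 2) :
    ∃ X₁ Y₁ : ℚ, Y₁ ≠ 0 ∧ Y₁ ^ 2 = X₁ * (X₁ - 1) * (X₁ - 81) ∧
      (X₁ ^ 2 - 81) ^ 2 = 4 * A ^ 2 * Y₁ ^ 2 := by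
  have hAB : A + B ≠ 0 := by
    intro h
    have : A = -B := by linarith
    rw [this] at hB
    nlinarith
  have hAC : A + C ≠ 0 := by
    intro h
    have : A = -C := by linarith
    rw [this] at hC
    nlinarith
  have hBC : B + C ≠ 0 := by
    intro h
    have : B = -C := by linarith
    rw [this] at hB
    nlinarith
  refine ⟨(A + B) * (A + C), (A + B) * (B + C) * (A + C), ?_, ?_, ?_⟩
  · exact mul_ne_zero (mul_ne_zero hAB hBC) hAC
  · have e1 : (A + B) * (A + C) - 1 = (B + A) * (B + C) := by linear_combination hB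
    have e2 : (A + B) * (A + C) - 81 = (C + A) * (C + B) := by linear_combination hC
    rw [e1, e2]; ring
  · have e3 : ((A + B) * (A + C)) ^ 2 - 81 = 2 * A * ((A + B) * (B + C) * (A + C)) := by
      linear_combination (A ^ 2 - C ^ 2) * hB + hC
    rw [e3]; ring


/-! ### Classification of rational points (2-descent) -/

theorem stage1 {m e n : ℤ} (he : 0 < e) (hcop : IsCoprime m e) (hn : n ≠ 0)
    (hmn : n ^ 2 = m * (m - e ^ 2) * (m - 81 * e ^ 2)) :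
    ∃ s t : ℤ, s ≠ 0 ∧ t ≠ 0 ∧ m = s ^ 2 ∧ (s ^ 2 - e ^ 2) * (s ^ 2 - 81 * e ^ 2) = t ^ 2 := by
  have he2 : 0 < e ^ 2 := by positivity
  have hn2 : 0 < n ^ 2 := by positivity
  -- `m > 0`
  have hm : 0 < m := by
    by_contra hm
    rw [not_lt] at hm
    rcases hm.lt_or_eq with hm | hm
    · have h1 : m - e ^ 2 < 0 := by linarith
      have h2 : m - 81 * e ^ 2 < 0 := by linarith
      have : m * (m - e ^ 2) * (m - 81 * e ^ 2) < 0 :=
        mul_neg_of_pos_of_neg (mul_pos_of_neg_of_neg hm h1) h2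
      linarith
    · rw [hm] at hmn
      simp at hmn
      exact hn hmn
  set Q : ℤ := (m - e ^ 2) * (m - 81 * e ^ 2) with hQ
  have hprod : m * Q = n ^ 2 := by rw [hmn, hQ]; ring
  obtain ⟨s, t, hs0, ht0, hst⟩ := two_factor hn hprod
  set g : ℕ := Int.gcd m Q with hg
  have hgm : (g : ℤ) ∣ m := Int.gcd_dvd_left m Q
  have hgQ : (g : ℤ) ∣ Q := Int.gcd_dvd_right m Q
  have hgpos : 0 < g := Int.gcd_pos_of_ne_zero_left Q hm.ne'
  -- `g ∣ 81`
  have hg81 : g ∣ 81 := by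
    have h1 : (g : ℤ) ∣ 81 * e ^ 4 := by
      have : (81 : ℤ) * e ^ 4 = Q - m * (m - 82 * e ^ 2) := by rw [hQ]; ring
      rw [this]
      exact dvd_sub hgQ (Dvd.dvd.mul_right hgm _)
    have h2 : IsCoprime (g : ℤ) (e ^ 4) := (hcop.of_isCoprime_of_dvd_left hgm).pow_right
    have h3 : (g : ℤ) ∣ 81 := h2.dvd_of_dvd_mul_right h1
    exact_mod_cast h3
  -- sign is `+`
  have hst' : m = (g : ℤ) * s ^ 2 ∧ Q = (g : ℤ) * t ^ 2 := by
    rcases hst with h1 | h1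
    · exact h1
    · exfalso
      have : 0 < (g : ℤ) * s ^ 2 := by positivity
      linarith [h1.1]
  obtain ⟨hms, hQt⟩ := hst'
  have h3e : (3 : ℤ) ∣ m → ¬ (3 : ℤ) ∣ e := by
    intro h3m h3e
    have := hcop.isUnit_of_dvd' h3m h3e
    exact absurd this (by decide)
  have hQ' : Q = m ^ 2 - 82 * m * e ^ 2 + 81 * e ^ 4 := by rw [hQ]; ring
  rcases dvd_81_cases hg81 with h1 | h1 | h1 | h1 | h1
  · refine ⟨s, t, hs0, ht0, ?_, ?_⟩
    · rw [hms, h1]; simp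
    · have : m = s ^ 2 := by rw [hms, h1]; simp
      rw [← this, ← hQ, hQt, h1]; simp
  · exfalso
    have hm3 : m = 3 * s ^ 2 := by rw [hms, h1]; norm_num
    have hQ3 : Q = 3 * t ^ 2 := by rw [hQt, h1]; norm_num
    refine no_class_three (M := s) (e := e) (N := t) (h3e ⟨s ^ 2, hm3⟩) ?_
    have : (3 : ℤ) * t ^ 2 = 3 * (3 * s ^ 4 - 82 * s ^ 2 * e ^ 2 + 27 * e ^ 4) := by
      rw [← hQ3, hQ', hm3]; ring
    linarith
  · refine ⟨3 * s, 3 * t, by simpa using hs0, by simpa using ht0, ?_, ?_⟩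
    · rw [hms, h1]; push_cast; ring
    · have : m = (3 * s) ^ 2 := by rw [hms, h1]; push_cast; ring
      rw [← this, ← hQ, hQt, h1]; push_cast; ring
  · exfalso
    have hm3 : m = 3 * (3 * s) ^ 2 := by rw [hms, h1]; push_cast; ring
    have hQ3 : Q = 3 * (3 * t) ^ 2 := by rw [hQt, h1]; push_cast; ring
    refine no_class_three (M := 3 * s) (e := e) (N := 3 * t) (h3e ⟨(3 * s) ^ 2, hm3⟩) ?_
    have : (3 : ℤ) * (3 * t) ^ 2 =
        3 * (3 * (3 * s) ^ 4 - 82 * (3 * s) ^ 2 * e ^ 2 + 27 * e ^ 4) := by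
      rw [← hQ3, hQ', hm3]; ring
    linarith
  · refine ⟨9 * s, 9 * t, by simpa using hs0, by simpa using ht0, ?_, ?_⟩
    · rw [hms, h1]; push_cast; ring
    · have : m = (9 * s) ^ 2 := by rw [hms, h1]; push_cast; ring
      rw [← this, ← hQ, hQt, h1]; push_cast; ring

theorem stage2 {s e t : ℤ} (hcop : IsCoprime s e) (ht : t ≠ 0)
    (h : (s ^ 2 - e ^ 2) * (s ^ 2 - 81 * e ^ 2) = t ^ 2) :
    ∃ c v w : ℤ, (c = 1 ∨ c = -1 ∨ c = 5 ∨ c = -5) ∧ v ≠ 0 ∧ w ≠ 0 ∧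
      s ^ 2 - e ^ 2 = c * v ^ 2 ∧ s ^ 2 - 81 * e ^ 2 = c * w ^ 2 := by
  obtain ⟨s₂, t₂, hs0, ht0, hst⟩ := two_factor ht h
  set g : ℕ := Int.gcd (s ^ 2 - e ^ 2) (s ^ 2 - 81 * e ^ 2) with hg
  have hg1 : (g : ℤ) ∣ s ^ 2 - e ^ 2 := Int.gcd_dvd_left _ _
  have hg2 : (g : ℤ) ∣ s ^ 2 - 81 * e ^ 2 := Int.gcd_dvd_right _ _
  have hg80 : g ∣ 80 := by
    have h1 : (g : ℤ) ∣ 80 * e ^ 2 := by
      have : (80 : ℤ) * e ^ 2 = (s ^ 2 - e ^ 2) - (s ^ 2 - 81 * e ^ 2) := by ring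
      rw [this]
      exact dvd_sub hg1 hg2
    have hc1 : IsCoprime (s ^ 2 - e ^ 2) e := by
      have h0 : IsCoprime (s ^ 2) e := hcop.pow_left
      have := h0.add_mul_left_left (-e)
      rwa [show s ^ 2 + e * -e = s ^ 2 - e ^ 2 by ring] at this
    have h2 : IsCoprime (g : ℤ) (e ^ 2) := (hc1.of_isCoprime_of_dvd_left hg1).pow_right
    have h3 : (g : ℤ) ∣ 80 := h2.dvd_of_dvd_mul_right h1
    exact_mod_cast h3
  obtain ⟨d, k, hgdk, hk, hd⟩ := dvd_80_cases hg80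
  have hk0 : (k : ℤ) ≠ 0 := by exact_mod_cast hk.ne'
  have hgdk' : (g : ℤ) = (d : ℤ) * (k : ℤ) ^ 2 := by exact_mod_cast hgdk
  -- the common class `c = ± d`
  have key : ∃ c : ℤ, (c = d ∨ c = -d) ∧ s ^ 2 - e ^ 2 = c * ((k : ℤ) * s₂) ^ 2 ∧
      s ^ 2 - 81 * e ^ 2 = c * ((k : ℤ) * t₂) ^ 2 := by
    rcases hst with ⟨h1, h2⟩ | ⟨h1, h2⟩
    · exact ⟨d, Or.inl rfl, by rw [h1, hgdk']; ring, by rw [h2, hgdk']; ring⟩
    · exact ⟨-d, Or.inr rfl, by rw [h1, hgdk']; ring, by rw [h2, hgdk']; ring⟩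
  obtain ⟨c, hc, hc1, hc2⟩ := key
  have hv0 : (k : ℤ) * s₂ ≠ 0 := mul_ne_zero hk0 hs0
  have hw0 : (k : ℤ) * t₂ ≠ 0 := mul_ne_zero hk0 ht0
  rcases hd with rfl | rfl | rfl | rfl
  · refine ⟨c, _, _, ?_, hv0, hw0, hc1, hc2⟩
    rcases hc with rfl | rfl
    · left; norm_num
    · right; left; norm_num
  · exfalso
    refine no_class_even (c := c) ?_ hcop hc1 hc2
    rcases hc with rfl | rfl
    · left; norm_num
    · right; left; norm_num
  · refine ⟨c, _, _, ?_, hv0, hw0, hc1, hc2⟩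
    rcases hc with rfl | rfl
    · right; right; left; norm_num
    · right; right; right; norm_num
  · exfalso
    refine no_class_even (c := c) ?_ hcop hc1 hc2
    rcases hc with rfl | rfl
    · right; right; left; norm_num
    · right; right; right; norm_num


/-! ### Translation by 2-torsion points does not change the double -/

theorem f_transl0 {X : ℚ} (hX : X ≠ 0) :
    ((81 / X) ^ 2 - 81) ^ 2 * (X * (X - 1) * (X - 81)) =
      (X ^ 2 - 81) ^ 2 * ((81 / X) * (81 / X - 1) * (81 / X - 81)) := by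
  field_simp
  ring

theorem f_transl81 {X : ℚ} (hX : X - 81 ≠ 0) :
    ((81 * (X - 1) / (X - 81)) ^ 2 - 81) ^ 2 * (X * (X - 1) * (X - 81)) =
      (X ^ 2 - 81) ^ 2 * ((81 * (X - 1) / (X - 81)) * (81 * (X - 1) / (X - 81) - 1) *
        (81 * (X - 1) / (X - 81) - 81)) := by
  field_simp
  ring

theorem f_transl1 {X : ℚ} (hX : X - 1 ≠ 0) :
    (((X - 81) / (X - 1)) ^ 2 - 81) ^ 2 * (X * (X - 1) * (X - 81)) =
      (X ^ 2 - 81) ^ 2 * (((X - 81) / (X - 1)) * ((X - 81) / (X - 1) - 1) *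
        ((X - 81) / (X - 1) - 81)) := by
  field_simp
  ring

theorem div_sq_sub {a b d c : ℚ} (hd : d ≠ 0) (h : a ^ 2 - c * d ^ 2 = b ^ 2) :
    (a / d) ^ 2 - c = (b / d) ^ 2 := by
  rw [div_pow, div_pow, ← h]
  field_simp

/-- Every rational point with `Y ≠ 0` has a 2-torsion translate of class `(1,1,1)`, with the same
double. -/
theorem exists_translate {X Y : ℚ} (hY : Y ≠ 0) (h : Y ^ 2 = X * (X - 1) * (X - 81)) :
    ∃ A B C : ℚ, A ^ 2 - 1 = B ^ 2 ∧ A ^ 2 - 81 = C ^ 2 ∧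
      ((A ^ 2) ^ 2 - 81) ^ 2 * (X * (X - 1) * (X - 81)) =
        (X ^ 2 - 81) ^ 2 * (A ^ 2 * (A ^ 2 - 1) * (A ^ 2 - 81)) := by
  obtain ⟨m, e, n, he, hcop, hn, hX, hmn⟩ := exists_int_rep hY h
  obtain ⟨s, t, hs0, ht0, hms, hst⟩ := stage1 he hcop hn hmn
  have hcop' : IsCoprime s e := by
    rw [hms] at hcop
    exact IsCoprime.of_mul_left_left (by rw [← pow_two]; exact hcop)
  obtain ⟨c, v, w, hc, hv0, hw0, h1, h2⟩ := stage2 hcop' ht0 hst
  have heq : (e : ℚ) ≠ 0 := by exact_mod_cast he.ne'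
  have hsq : (s : ℚ) ≠ 0 := by exact_mod_cast hs0
  have hvq : (v : ℚ) ≠ 0 := by exact_mod_cast hv0
  have hwq : (w : ℚ) ≠ 0 := by exact_mod_cast hw0
  have hX' : X = (s : ℚ) ^ 2 / (e : ℚ) ^ 2 := by rw [hX, hms]; push_cast; ring
  have hX0 : X ≠ 0 := by rw [hX']; positivity
  have hv2 : (0 : ℚ) < (v : ℚ) ^ 2 / (e : ℚ) ^ 2 := by positivity
  have hw2 : (0 : ℚ) < (w : ℚ) ^ 2 / (e : ℚ) ^ 2 := by positivity
  rcases hc with rfl | rfl | rfl | rfl
  · -- class (1, 1, 1)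
    have h1q : (s : ℚ) ^ 2 - (e : ℚ) ^ 2 = 1 * (v : ℚ) ^ 2 := by exact_mod_cast h1
    have h2q : (s : ℚ) ^ 2 - 81 * (e : ℚ) ^ 2 = 1 * (w : ℚ) ^ 2 := by exact_mod_cast h2
    refine ⟨s / e, v / e, w / e, ?_, ?_, ?_⟩
    · exact div_sq_sub heq (by linear_combination h1q)
    · exact div_sq_sub heq (by linear_combination h2q)
    · have : ((s : ℚ) / e) ^ 2 = X := by rw [hX', div_pow]
      rw [this]
  · -- class (1, -1, -1): translate by `(0, 0)`
    have h1q : (s : ℚ) ^ 2 - (e : ℚ) ^ 2 = -1 * (v : ℚ) ^ 2 := by exact_mod_cast h1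
    have h2q : (s : ℚ) ^ 2 - 81 * (e : ℚ) ^ 2 = -1 * (w : ℚ) ^ 2 := by exact_mod_cast h2
    have hA : (9 * (e : ℚ) / s) ^ 2 = 81 / X := by
      rw [hX']; field_simp; ring
    refine ⟨9 * e / s, w / s, 9 * v / s, ?_, ?_, ?_⟩
    · exact div_sq_sub hsq (by linear_combination -h2q)
    · exact div_sq_sub hsq (by linear_combination -81 * h1q)
    · rw [hA]
      exact f_transl0 hX0
  · -- class (1, 5, 5): translate by `(81, 0)`
    have h1q : (s : ℚ) ^ 2 - (e : ℚ) ^ 2 = 5 * (v : ℚ) ^ 2 := by exact_mod_cast h1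
    have h2q : (s : ℚ) ^ 2 - 81 * (e : ℚ) ^ 2 = 5 * (w : ℚ) ^ 2 := by exact_mod_cast h2
    have hX1 : X - 1 = 5 * ((v : ℚ) ^ 2 / (e : ℚ) ^ 2) := by
      rw [hX', ← mul_div_assoc, ← h1q]; field_simp
    have hX81 : X - 81 = 5 * ((w : ℚ) ^ 2 / (e : ℚ) ^ 2) := by
      rw [hX', ← mul_div_assoc, ← h2q]; field_simp
    have hX81' : X - 81 ≠ 0 := by rw [hX81]; positivity
    have hA : (9 * (v : ℚ) / w) ^ 2 = 81 * (X - 1) / (X - 81) := by
      rw [hX1, hX81]; field_simp; norm_num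
    refine ⟨9 * v / w, 4 * s / w, 36 * e / w, ?_, ?_, ?_⟩
    · exact div_sq_sub hwq (by linear_combination (-81 / 5 : ℚ) * h1q + (1 / 5 : ℚ) * h2q)
    · exact div_sq_sub hwq (by linear_combination (-81 / 5 : ℚ) * h1q + (81 / 5 : ℚ) * h2q)
    · rw [hA]
      exact f_transl81 hX81'
  · -- class (1, -5, -5): translate by `(1, 0)`
    have h1q : (s : ℚ) ^ 2 - (e : ℚ) ^ 2 = -5 * (v : ℚ) ^ 2 := by exact_mod_cast h1
    have h2q : (s : ℚ) ^ 2 - 81 * (e : ℚ) ^ 2 = -5 * (w : ℚ) ^ 2 := by exact_mod_cast h2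
    have hX1 : X - 1 = -5 * ((v : ℚ) ^ 2 / (e : ℚ) ^ 2) := by
      rw [hX', ← mul_div_assoc, ← h1q]; field_simp
    have hX81 : X - 81 = -5 * ((w : ℚ) ^ 2 / (e : ℚ) ^ 2) := by
      rw [hX', ← mul_div_assoc, ← h2q]; field_simp
    have hX1' : X - 1 ≠ 0 := by rw [hX1]; intro h0; linarith
    have hA : ((w : ℚ) / v) ^ 2 = (X - 81) / (X - 1) := by
      rw [hX1, hX81]; field_simp
    refine ⟨w / v, 4 * e / v, 4 * s / v, ?_, ?_, ?_⟩
    · exact div_sq_sub hvq (by linear_combination (-1 / 5 : ℚ) * h1q + (1 / 5 : ℚ) * h2q)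
    · exact div_sq_sub hvq (by linear_combination (-81 / 5 : ℚ) * h1q + (1 / 5 : ℚ) * h2q)
    · rw [hA]
      exact f_transl1 hX1'


/-! ### The infinite descent -/

/-- Descent step: from a point of class `(1,1,1)` we get another one with a strictly smaller
denominator. -/
theorem descent_step {A B C : ℚ} (hB : A ^ 2 - 1 = B ^ 2) (hC : A ^ 2 - 81 = C ^ 2) :
    ∃ A' B' C' : ℚ, A' ^ 2 - 1 = B' ^ 2 ∧ A' ^ 2 - 81 = C' ^ 2 ∧ A'.den < A.den := by
  obtain ⟨X₁, Y₁, hY₁, hcurve, hdbl⟩ := halving hB hC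
  obtain ⟨A', B', C', hB', hC', hid⟩ := exists_translate hY₁ hcurve
  refine ⟨A', B', C', hB', hC', ?_⟩
  have hY₁2 : Y₁ ^ 2 ≠ 0 := pow_ne_zero 2 hY₁
  -- the key rational identity
  have key : ((A' ^ 2) ^ 2 - 81) ^ 2 = 4 * A ^ 2 * (A' ^ 2 * B' ^ 2 * C' ^ 2) := by
    rw [← hcurve, hdbl, hB', hC'] at hid
    have : ((A' ^ 2) ^ 2 - 81) ^ 2 * Y₁ ^ 2 = (4 * A ^ 2 * (A' ^ 2 * B' ^ 2 * C' ^ 2)) * Y₁ ^ 2 := by
      linear_combination hid
    exact mul_right_cancel₀ hY₁2 this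
  -- integer data
  obtain ⟨v, w, hv, hw⟩ := exists_int_quad hB' hC'
  set U : ℤ := A.num with hU
  set F : ℕ := A.den with hF
  set u : ℤ := A'.num with hu
  set E : ℕ := A'.den with hE
  have hFpos : 0 < F := A.pos
  have hEpos : 0 < E := A'.pos
  have hFq : (F : ℚ) ≠ 0 := by exact_mod_cast hFpos.ne'
  have hEq : (E : ℚ) ≠ 0 := by exact_mod_cast hEpos.ne'
  have hAq : A = (U : ℚ) / (F : ℚ) := (Rat.num_div_den A).symm
  have hA'q : A' = (u : ℚ) / (E : ℚ) := (Rat.num_div_den A').symm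
  have hvq : (v : ℚ) ^ 2 = (u : ℚ) ^ 2 - (E : ℚ) ^ 2 := by exact_mod_cast hv.symm
  have hwq : (w : ℚ) ^ 2 = (u : ℚ) ^ 2 - 81 * (E : ℚ) ^ 2 := by exact_mod_cast hw.symm
  have e1 : ((A' ^ 2) ^ 2 - 81) * (E : ℚ) ^ 4 = (u : ℚ) ^ 4 - 81 * (E : ℚ) ^ 4 := by
    rw [hA'q]; field_simp
  have e2 : A * (F : ℚ) = U := by rw [hAq]; field_simp
  have e3 : A' ^ 2 * (E : ℚ) ^ 2 = (u : ℚ) ^ 2 := by rw [hA'q]; field_simp
  have e4 : B' ^ 2 * (E : ℚ) ^ 2 = (v : ℚ) ^ 2 := by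
    rw [← hB', hvq, sub_mul, e3, one_mul]
  have e5 : C' ^ 2 * (E : ℚ) ^ 2 = (w : ℚ) ^ 2 := by
    rw [← hC', hwq, sub_mul, e3]
  have hrat : (((u : ℚ) ^ 4 - 81 * (E : ℚ) ^ 4) * (F : ℚ)) ^ 2 =
      (2 * (U : ℚ) * u * v * w * (E : ℚ)) ^ 2 := by
    calc (((u : ℚ) ^ 4 - 81 * (E : ℚ) ^ 4) * (F : ℚ)) ^ 2
        = (((A' ^ 2) ^ 2 - 81) * (E : ℚ) ^ 4 * (F : ℚ)) ^ 2 := by rw [e1]
      _ = ((A' ^ 2) ^ 2 - 81) ^ 2 * (E : ℚ) ^ 8 * (F : ℚ) ^ 2 := by ring
      _ = 4 * A ^ 2 * (A' ^ 2 * B' ^ 2 * C' ^ 2) * (E : ℚ) ^ 8 * (F : ℚ) ^ 2 := by rw [key]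
      _ = 4 * (A * (F : ℚ)) ^ 2 * (A' ^ 2 * (E : ℚ) ^ 2) * (B' ^ 2 * (E : ℚ) ^ 2) *
            (C' ^ 2 * (E : ℚ) ^ 2) * (E : ℚ) ^ 2 := by ring
      _ = 4 * (U : ℚ) ^ 2 * (u : ℚ) ^ 2 * (v : ℚ) ^ 2 * (w : ℚ) ^ 2 * (E : ℚ) ^ 2 := by
          rw [e2, e3, e4, e5]
      _ = (2 * (U : ℚ) * u * v * w * (E : ℚ)) ^ 2 := by ring
  have hint : ((u ^ 4 - 81 * (E : ℤ) ^ 4) * (F : ℤ)) ^ 2 = (2 * U * u * v * w * (E : ℤ)) ^ 2 := by
    exact_mod_cast hrat
  -- coprimality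
  have hcop : IsCoprime u (E : ℤ) := by
    rw [Int.isCoprime_iff_gcd_eq_one]
    exact A'.reduced
  have hcopD : IsCoprime (u ^ 4 - 81 * (E : ℤ) ^ 4) (E : ℤ) := by
    have h0 : IsCoprime (u ^ 4) (E : ℤ) := hcop.pow_left
    have := h0.add_mul_left_left (-81 * (E : ℤ) ^ 3)
    rwa [show u ^ 4 + (E : ℤ) * (-81 * (E : ℤ) ^ 3) = u ^ 4 - 81 * (E : ℤ) ^ 4 by ring] at this
  -- `E ∣ F`
  have hEF : (E : ℤ) ∣ (F : ℤ) := by
    have h1 : (E : ℤ) ∣ (u ^ 4 - 81 * (E : ℤ) ^ 4) * (F : ℤ) := by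
      rcases sq_eq_sq_iff_eq_or_eq_neg.mp hint with h1 | h1
      · rw [h1]; exact Dvd.intro_left _ rfl
      · rw [h1]; exact (Dvd.intro_left _ rfl).neg_right
    exact hcopD.symm.dvd_of_dvd_mul_left h1
  have hEF' : E ∣ F := by exact_mod_cast hEF
  have hle : E ≤ F := Nat.le_of_dvd hFpos hEF'
  rcases hle.lt_or_eq with hlt | heq
  · exact hlt
  · exfalso
    have hEZ : (E : ℤ) ≠ 0 := by exact_mod_cast hEpos.ne'
    -- `u ∣ u ^ 4 - 81 * E ^ 4`
    have hu_dvd : u ∣ u ^ 4 - 81 * (E : ℤ) ^ 4 := by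
      rw [← heq] at hint
      rcases sq_eq_sq_iff_eq_or_eq_neg.mp hint with h1 | h1
      · have : u ^ 4 - 81 * (E : ℤ) ^ 4 = 2 * U * u * v * w :=
          mul_right_cancel₀ hEZ h1
        rw [this]; exact ⟨2 * U * v * w, by ring⟩
      · have : u ^ 4 - 81 * (E : ℤ) ^ 4 = -(2 * U * u * v * w) :=
          mul_right_cancel₀ hEZ (by rw [h1]; ring)
        rw [this]; exact ⟨-(2 * U * v * w), by ring⟩
    have hu81E : u ∣ 81 * (E : ℤ) ^ 4 := by
      have : 81 * (E : ℤ) ^ 4 = u ^ 4 - (u ^ 4 - 81 * (E : ℤ) ^ 4) := by ring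
      rw [this]
      exact dvd_sub (Dvd.intro_left (u ^ 3) (by ring)) hu_dvd
    have hu81 : u ∣ 81 := (hcop.pow_right (n := 4)).dvd_of_dvd_mul_right hu81E
    -- `3 ∤ u`
    have h3u : ¬ (3 : ℤ) ∣ u := by
      intro h3
      have h3' : (3 : ℤ) ∣ v ^ 2 + (E : ℤ) ^ 2 := by
        have : v ^ 2 + (E : ℤ) ^ 2 = u ^ 2 := by rw [← hv]; ring
        rw [this]
        exact Dvd.dvd.pow h3 two_ne_zero
      have h3E := (three_dvd_of_sq_add_sq h3').2
      have := hcop.isUnit_of_dvd' h3 h3E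
      exact absurd this (by decide)
    have hcop3 : IsCoprime u 3 := by
      have p3 : Prime (3 : ℤ) := Int.prime_three
      exact ((p3.coprime_iff_not_dvd).mpr h3u).symm
    have hu1 : u ∣ 1 := by
      have : IsCoprime u (3 ^ 4) := hcop3.pow_right
      have h81 : u ∣ 1 * 3 ^ 4 := by simpa using hu81
      exact this.dvd_of_dvd_mul_right h81
    have hu2 : u ^ 2 = 1 := by
      rcases Int.isUnit_iff.mp (isUnit_of_dvd_one hu1) with h | h <;> rw [h] <;> norm_num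
    have hE1 : (1 : ℤ) ≤ (E : ℤ) := by exact_mod_cast hEpos
    nlinarith [sq_nonneg w, hw]

/-- There is no rational point of class `(1,1,1)`. -/
theorem no_class_one : ∀ (n : ℕ) (A B C : ℚ), A.den = n → A ^ 2 - 1 = B ^ 2 → A ^ 2 - 81 = C ^ 2 →
    False := by
  intro n
  induction n using Nat.strong_induction_on with
  | _ n ih =>
    intro A B C hn hB hC
    obtain ⟨A', B', C', hB', hC', hlt⟩ := descent_step hB hC
    exact ih A'.den (hn ▸ hlt) A' B' C' rfl hB' hC'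

/-- The rational points of the Legendre curve `Y² = X (X - 1) (X - 81)` (the elliptic curve
`15a2`): only the three affine 2-torsion points. -/
theorem rational_points_legendre81 (X Y : ℚ) (h : Y ^ 2 = X * (X - 1) * (X - 81)) :
    X = 0 ∨ X = 1 ∨ X = 81 := by
  by_cases hY : Y = 0
  · rw [hY] at h
    have h0 : X * (X - 1) * (X - 81) = 0 := by rw [← h]; ring
    rcases mul_eq_zero.mp h0 with h1 | h1
    · rcases mul_eq_zero.mp h1 with h2 | h2
      · left; exact h2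
      · right; left; linarith
    · right; right; linarith
  · exfalso
    obtain ⟨A, B, C, hB, hC, -⟩ := exists_translate hY h
    exact no_class_one A.den A B C rfl hB hC

/-- The rational points of `y² = x (x + 9) (x - 16)` (the elliptic curve `15a1`, a model of the
modular curve `X₀(15)`): the eight points `O, (0,0), (-9,0), (16,0), (36,±180), (-4,±20)`. -/
theorem rational_points_15a (x y : ℚ) (h : y ^ 2 = x * (x + 9) * (x - 16)) :
    x = 0 ∨ x = -9 ∨ x = 16 ∨ x = 36 ∨ x = -4 := by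
  by_cases h16 : x = 16
  · right; right; left; exact h16
  have ht : x - 16 ≠ 0 := sub_ne_zero.mpr h16
  have hE3 : (y * (400 - (x - 16) ^ 2) / (x - 16) ^ 2) ^ 2 =
      (x * (x + 9) / (x - 16)) * (x * (x + 9) / (x - 16) - 1) * (x * (x + 9) / (x - 16) - 81) := by
    rw [div_pow, mul_pow, h]
    field_simp
    ring
  rcases rational_points_legendre81 _ _ hE3 with h0 | h1 | h81
  · have : x * (x + 9) = 0 := by
      field_simp at h0
      simpa using h0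
    rcases mul_eq_zero.mp this with h2 | h2
    · left; exact h2
    · right; left; linarith
  · have : (x + 4) ^ 2 = 0 := by
      field_simp at h1
      linear_combination h1
    right; right; right; right
    have := pow_eq_zero_iff (two_ne_zero) |>.mp this
    linarith
  · have : (x - 36) ^ 2 = 0 := by
      field_simp at h81
      linear_combination h81
    right; right; right; left
    have := pow_eq_zero_iff (two_ne_zero) |>.mp this
    linarith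

end Fermat.Agent.S51lib.X015
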