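/-
S51 library: second assembly, with the torsion analysis stated for short Weierstrass curves
`y^2 = x^3 + A x + B` over `ℚ` (transfer along `Transfer.modRepIsIrreducible_iff_short`).
-/
import Fermat.Agent.S51lib.Param
import Fermat.Agent.S51lib.Endgame
import Fermat.Agent.S51lib.Model
import Fermat.Agent.S51lib.Transfer

set_option autoImplicit false

namespace Fermat.Agent.S51lib

open WeierstrassCurve WeierstrassCurve.Affine.Point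

/-- Interface of the 3-torsion analysis, short form. -/
def RootPsi3ShortStatement : Prop :=
  ∀ A B : ℚ, 4 * A ^ 3 + 27 * B ^ 2 ≠ 0 →
    ¬ GaloisRepIsIrreducible (K := AlgebraicClosure ℚ) ℚ (shortW A B) 3 →
    ∃ X : ℚ, 3 * X ^ 4 + 6 * A * X ^ 2 + 12 * B * X - A ^ 2 = 0

/-- Interface of the 5-torsion analysis, short form, rational relations
(`S1 = x(P) + x(2P)`, `S2 = x(P) x(2P)`). -/
def KernelQuadraticShortStatement : Prop :=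
  ∀ A B : ℚ, 4 * A ^ 3 + 27 * B ^ 2 ≠ 0 →
    ¬ GaloisRepIsIrreducible (K := AlgebraicClosure ℚ) ℚ (shortW A B) 5 →
    ∃ S1 S2 : ℚ, S1 ^ 2 - 4 * S2 ≠ 0 ∧ 4 * B = S1 * (S1 ^ 2 - 6 * S2 - 2 * A) ∧
      A ^ 2 + 2 * A * (S1 ^ 2 - S2) - S1 ^ 4 + 5 * S1 ^ 2 * S2 + 5 * S2 ^ 2 = 0

/-- Interface of the 5-torsion analysis, short form, with the `x`-coordinates `x1 = x(P)`,
`x2 = x(2P)` in `AlgebraicClosure ℚ` related by the duplication formula. -/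
def KernelQuadraticShortStatement' : Prop :=
  ∀ A B : ℚ, 4 * A ^ 3 + 27 * B ^ 2 ≠ 0 →
    ¬ GaloisRepIsIrreducible (K := AlgebraicClosure ℚ) ℚ (shortW A B) 5 →
    ∃ (s1 s2 : ℚ) (x1 x2 : AlgebraicClosure ℚ),
      x1 + x2 = (s1 : AlgebraicClosure ℚ) ∧ x1 * x2 = (s2 : AlgebraicClosure ℚ) ∧ x1 ≠ x2 ∧
      x2 * (4 * (x1 ^ 3 + (A : AlgebraicClosure ℚ) * x1 + (B : AlgebraicClosure ℚ))) =
        x1 ^ 4 - 2 * (A : AlgebraicClosure ℚ) * x1 ^ 2 - 8 * (B : AlgebraicClosure ℚ) * x1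
          + (A : AlgebraicClosure ℚ) ^ 2 ∧
      x1 * (4 * (x2 ^ 3 + (A : AlgebraicClosure ℚ) * x2 + (B : AlgebraicClosure ℚ))) =
        x2 ^ 4 - 2 * (A : AlgebraicClosure ℚ) * x2 ^ 2 - 8 * (B : AlgebraicClosure ℚ) * x2
          + (A : AlgebraicClosure ℚ) ^ 2

/-- The rational relations follow from the duplication relations. -/
theorem kernelQuadraticShort_of_coords {K : Type*} [Field K] [CharZero K] (A B s1 s2 : ℚ)
    (x1 x2 : K) (h1 : x1 + x2 = (s1 : K)) (h2 : x1 * x2 = (s2 : K)) (hne : x1 ≠ x2)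
    (hd1 : x2 * (4 * (x1 ^ 3 + (A : K) * x1 + (B : K))) =
      x1 ^ 4 - 2 * (A : K) * x1 ^ 2 - 8 * (B : K) * x1 + (A : K) ^ 2)
    (hd2 : x1 * (4 * (x2 ^ 3 + (A : K) * x2 + (B : K))) =
      x2 ^ 4 - 2 * (A : K) * x2 ^ 2 - 8 * (B : K) * x2 + (A : K) ^ 2) :
    s1 ^ 2 - 4 * s2 ≠ 0 ∧ 4 * B = s1 * (s1 ^ 2 - 6 * s2 - 2 * A) ∧
      A ^ 2 + 2 * A * (s1 ^ 2 - s2) - s1 ^ 4 + 5 * s1 ^ 2 * s2 + 5 * s2 ^ 2 = 0 := by
  have hx : x1 - x2 ≠ 0 := sub_ne_zero.mpr hne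
  have hE1K : ((4 * B - s1 * (s1 ^ 2 - 6 * s2 - 2 * A) : ℚ) : K) = 0 := by
    apply mul_left_cancel₀ hx
    rw [mul_zero]
    push_cast
    rw [← h1, ← h2]
    linear_combination hd1 - hd2
  have hE2K : ((A ^ 2 + 2 * A * (s1 ^ 2 - s2) - s1 ^ 4 + 5 * s1 ^ 2 * s2 + 5 * s2 ^ 2 : ℚ) : K)
      = 0 := by
    have hE1K' := hE1K
    push_cast at hE1K' ⊢
    rw [← h1, ← h2] at hE1K' ⊢
    linear_combination (-1 / 2 : K) * hd1 + (-1 / 2 : K) * hd2 +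
      (3 / 2 : K) * (x1 + x2) * hE1K'
  refine ⟨?_, ?_, (Rat.cast_eq_zero (α := K)).mp hE2K⟩
  · intro h0
    have h0K : ((s1 ^ 2 - 4 * s2 : ℚ) : K) = 0 := by rw [h0]; simp
    push_cast at h0K
    rw [← h1, ← h2] at h0K
    have : (x1 - x2) ^ 2 = 0 := by linear_combination h0K
    exact hx (pow_eq_zero_iff (two_ne_zero) |>.mp this)
  · have := (Rat.cast_eq_zero (α := K)).mp hE1K
    linear_combination this

theorem kernelQuadraticShort_of_coords_statement (h : KernelQuadraticShortStatement') :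
    KernelQuadraticShortStatement := by
  intro A B hΔ hn
  obtain ⟨s1, s2, x1, x2, h1, h2, hne, hd1, hd2⟩ := h A B hΔ hn
  exact ⟨s1, s2, kernelQuadraticShort_of_coords A B s1 s2 x1 x2 h1 h2 hne hd1 hd2⟩

theorem s51_of_short_pieces (T3 : RootPsi3ShortStatement) (T5 : KernelQuadraticShortStatement)
    (D : Points15aStatement)
    (W : WeierstrassCurve ℤ) (hΔ : W.Δ ≠ 0) (hW : W.IsSemistableModel) :
    W.ModRepIsIrreducible 3 ∨ W.ModRepIsIrreducible 5 := by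
  by_contra hcon
  rw [not_or] at hcon
  obtain ⟨hn3, hn5⟩ := hcon
  rw [modRepIsIrreducible_iff_short] at hn3 hn5
  have hΔs := short_disc_ne_zero W hΔ
  have hΔeq := short_disc_eq W
  have hΔQ : (W.Δ : ℚ) ≠ 0 := by exact_mod_cast hΔ
  obtain ⟨A, hA⟩ : ∃ A : ℚ, A = -(W.c₄ : ℚ) / 48 := ⟨_, rfl⟩
  obtain ⟨B, hB⟩ : ∃ B : ℚ, B = -(W.c₆ : ℚ) / 864 := ⟨_, rfl⟩
  rw [← hA, ← hB] at hn3 hn5 hΔs hΔeq
  obtain ⟨X, hX⟩ := T3 A B hΔs hn3
  obtain ⟨S1, S2, hD, hE1, hE2⟩ := T5 A B hΔs hn5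
  obtain ⟨h3, h30, hh3⟩ := exists_h3_short A B X hΔs hX
  obtain ⟨h5, h50, hh5⟩ := exists_h5_short A B S1 S2 hΔs hD hE1 hE2
  have hc : -48 * A = (W.c₄ : ℚ) := by rw [hA]; ring
  have hd : -16 * (4 * A ^ 3 + 27 * B ^ 2) = (W.Δ : ℚ) := by rw [hΔeq]; ring
  rw [hc, hd] at hh3 hh5
  have hF : (h3 + 27) * (h3 + 3) ^ 3 * h5 = (h5 ^ 2 + 10 * h5 + 5) ^ 3 * h3 := by
    apply mul_left_cancel₀ hΔQ
    linear_combination h3 * hh5 - h5 * hh3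
  have hlist := x015_points_of_descent D h3 h5 h30 h50 hF
  obtain ⟨hd4, hdΔ⟩ := five_dvd_c4_and_disc W.c₄ W.Δ h5 hlist hh5
  exact hW 5 (by norm_num) (by exact_mod_cast hdΔ) (by exact_mod_cast hd4)

end Fermat.Agent.S51lib
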