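/-
S51 library: endgame.  The four non-cuspidal rational points of `X₀(15)` have `X₀(5)`-coordinate
`h ∈ {-10, -40, -25/2, -25/8}`; a curve with `j * h = (h ^ 2 + 10 * h + 5) ^ 3` for such an `h`
cannot have a semistable integral model (the `5`-adic valuation of `j` is `1` or `2`).
-/
import Mathlib
import Fermat.Prelude.Def_FLTPrelim_Modularity

set_option autoImplicit false

namespace Fermat.Agent.S51lib

/-- The `5`-adic core of the endgame. -/
theorem five_dvd_of_mul_cube_eq {c Δ α β : ℤ} (h : α * c ^ 3 = β * Δ) (hα : ¬ (5 : ℤ) ∣ α)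
    (hβ : (5 : ℤ) ∣ β) (hβ' : ¬ (125 : ℤ) ∣ β) : (5 : ℤ) ∣ c ∧ (5 : ℤ) ∣ Δ := by
  have h5 : Prime (5 : ℤ) := by norm_num
  have hc : (5 : ℤ) ∣ c := by
    have h1 : (5 : ℤ) ∣ α * c ^ 3 := by rw [h]; exact hβ.mul_right _
    exact h5.dvd_of_dvd_pow ((h5.dvd_or_dvd h1).resolve_left hα)
  refine ⟨hc, ?_⟩
  by_contra hΔ
  apply hβ'
  have hcop : IsCoprime ((5 : ℤ) ^ 3) Δ := (h5.coprime_iff_not_dvd.mpr hΔ).pow_left
  have h125 : ((5 : ℤ) ^ 3) ∣ β * Δ := by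
    rw [← h]
    exact (pow_dvd_pow_of_dvd hc 3).mul_left _
  have := hcop.dvd_of_dvd_mul_right h125
  norm_num at this
  exact this

/-- Endgame of S51: the `j`-invariants of the four non-cuspidal rational points of `X₀(15)` are
not `j`-invariants of semistable integral models. -/
theorem endgame5 (W : WeierstrassCurve ℤ) (hW : W.IsSemistableModel) (h : ℚ)
    (hh : h = -10 ∨ h = -40 ∨ h = -25 / 2 ∨ h = -25 / 8)
    (hj : (W.c₄ : ℚ) ^ 3 * h = (W.Δ : ℚ) * (h ^ 2 + 10 * h + 5) ^ 3) : False := by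
  have key : ∀ α β : ℤ, α * W.c₄ ^ 3 = β * W.Δ → ¬ (5 : ℤ) ∣ α → (5 : ℤ) ∣ β → ¬ (125 : ℤ) ∣ β →
      False := by
    intro α β e hα hβ hβ'
    obtain ⟨h1, h2⟩ := five_dvd_of_mul_cube_eq e hα hβ hβ'
    exact hW 5 (by norm_num) (by exact_mod_cast h2) (by exact_mod_cast h1)
  rcases hh with rfl | rfl | rfl | rfl
  · refine key (-2) 25 ?_ (by norm_num) (by norm_num) (by norm_num)
    have : ((-2 : ℤ) : ℚ) * (W.c₄ : ℚ) ^ 3 = ((25 : ℤ) : ℚ) * (W.Δ : ℚ) := by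
      push_cast; linear_combination (1 / 5 : ℚ) * hj
    exact_mod_cast this
  · refine key (-8) (25 * 241 ^ 3) ?_ (by norm_num) (by norm_num) (by norm_num)
    have : ((-8 : ℤ) : ℚ) * (W.c₄ : ℚ) ^ 3 = ((25 * 241 ^ 3 : ℤ) : ℚ) * (W.Δ : ℚ) := by
      push_cast; linear_combination (1 / 5 : ℚ) * hj
    exact_mod_cast this
  · refine key (-32) (5 * 29 ^ 3) ?_ (by norm_num) (by norm_num) (by norm_num)
    have : ((-32 : ℤ) : ℚ) * (W.c₄ : ℚ) ^ 3 = ((5 * 29 ^ 3 : ℤ) : ℚ) * (W.Δ : ℚ) := by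
      push_cast; linear_combination (64 / 25 : ℚ) * hj
    exact_mod_cast this
  · refine key 32768 (5 * 211 ^ 3) ?_ (by norm_num) (by norm_num) (by norm_num)
    have : ((32768 : ℤ) : ℚ) * (W.c₄ : ℚ) ^ 3 = ((5 * 211 ^ 3 : ℤ) : ℚ) * (W.Δ : ℚ) := by
      push_cast; linear_combination (-262144 / 25 : ℚ) * hj
    exact_mod_cast this

end Fermat.Agent.S51lib
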