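/-
S51 library, piece [M]: explicit model of X₀(15), certificates.

Input: rational Hauptmodul values `h3` (for X₀(3)) and `h5` (for X₀(5)) with
`J₃(h3) = J₅(h5)`, i.e. `(h3+27)(h3+3)^3 h5 = (h5^2+10 h5+5)^3 h3`.
We exhibit rational functions `u = modU/modD`, `v = modV/modD` of `(h3,h5)` (the eta quotients
`u = (η₁η₁₅/(η₃η₅))^3`, `v = (η₁η₅/(η₃η₁₅))^2`) satisfying, modulo the correspondence relation,
  `u^2 v + u v^2 + 5 u v + 9 u - v = 0`                      (the (2,2)-model of X₀(15)),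
  `h5 u^3 = 9u^2 - 9u + 1 + (u^3+4u^2-u) v`,   `h3 u^2 v^3 = 729`.
All identities are certified by explicit cofactors (found with a small computer algebra script).
-/
import Mathlib

set_option autoImplicit false
set_option maxRecDepth 100000

namespace Fermat.Agent.S51lib.UV

/-- the correspondence polynomial `J₃(h3) = J₅(h5)` cleared of denominators -/
def corrF (h3 h5 : ℚ) : ℚ := (h3+27)*(h3+3)^3*h5 - (h5^2+10*h5+5)^3*h3

/-- common denominator -/
def modD (h5 : ℚ) : ℚ := h5 * ((h5^2+4*h5-1) * (h5^2+10*h5+5)^2)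

/-- coefficient of `h3^0` in `modU` -/
def modUc0 (h5 : ℚ) : ℚ :=
  (((((((((-1) * h5 + (-33)) * h5 + (-405)) * h5 + (-2230)) * h5 + (-5175)) * h5 + (-3582)) * h5 + (-146)) * h5 + 0) * h5 + 0)

/-- coefficient of `h3^1` in `modU` -/
def modUc1 (h5 : ℚ) : ℚ :=
  (((((1 * h5 + 20) * h5 + 281) * h5 + 613) * h5 + 25) * h5 + 0)

/-- coefficient of `h3^2` in `modU` -/
def modUc2 (h5 : ℚ) : ℚ :=
  (((33 * h5 + 99) * h5 + 0) * h5 + 0)

/-- coefficient of `h3^3` in `modU` -/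
def modUc3 (h5 : ℚ) : ℚ :=
  (((1 * h5 + 3) * h5 + 0) * h5 + 0)

/-- numerator of `u` -/
def modU (h3 h5 : ℚ) : ℚ :=
  modUc0 h5 + modUc1 h5 * h3 + modUc2 h5 * h3^2 + modUc3 h5 * h3^3

/-- coefficient of `h3^0` in `modV` -/
def modVc0 (h5 : ℚ) : ℚ :=
  ((((((((1 * h5 + 28) * h5 + 275) * h5 + 1090) * h5 + 1450) * h5 + 272) * h5 + 11) * h5 + (-100)) * h5 + (-3125))

/-- coefficient of `h3^1` in `modV` -/
def modVc1 (h5 : ℚ) : ℚ :=
  (((((9 * h5 + 180) * h5 + 1269) * h5 + 5742) * h5 + 6750) * h5 + 0)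

/-- coefficient of `h3^2` in `modV` -/
def modVc2 (h5 : ℚ) : ℚ :=
  ((((-18) * h5 + 216) * h5 + 900) * h5 + 0)

/-- coefficient of `h3^3` in `modV` -/
def modVc3 (h5 : ℚ) : ℚ :=
  ((((-1) * h5 + 2) * h5 + 25) * h5 + 0)

/-- numerator of `v` -/
def modV (h3 h5 : ℚ) : ℚ :=
  modVc0 h5 + modVc1 h5 * h3 + modVc2 h5 * h3^2 + modVc3 h5 * h3^3

/-- coefficient of `h3^0` in `modQ1` -/
def modQ1c0 (h5 : ℚ) : ℚ :=
  (((((((((((((((10 * h5 + 510) * h5 + 11260) * h5 + 141755) * h5 + 1122135) * h5 + 5722070) * h5 + 17989760) * h5 + 29647890) * h5 + 11275895) * h5 + (-27590450)) * h5 + (-33411135)) * h5 + (-40156475)) * h5 + (-74465000)) * h5 + (-48187500)) * h5 + (-1953125)) * h5 + 0)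

/-- coefficient of `h3^1` in `modQ1` -/
def modQ1c1 (h5 : ℚ) : ℚ :=
  (((((((((((((15 * h5 + 860) * h5 + 19735) * h5 + 240265) * h5 + 1771450) * h5 + 8946630) * h5 + 35156620) * h5 + 109729095) * h5 + 228791455) * h5 + 250001150) * h5 + 102983125) * h5 + (-3500000)) * h5 + 0) * h5 + 0)

/-- coefficient of `h3^2` in `modQ1` -/
def modQ1c2 (h5 : ℚ) : ℚ :=
  ((((((((((((5 * h5 + 190) * h5 + 2745) * h5 + 23445) * h5 + 183175) * h5 + 1438140) * h5 + 8657000) * h5 + 30120005) * h5 + 50702550) * h5 + 30687500) * h5 + 328125) * h5 + 0) * h5 + 0)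

/-- coefficient of `h3^3` in `modQ1` -/
def modQ1c3 (h5 : ℚ) : ℚ :=
  (((((((((((-10) * h5 + (-170)) * h5 + (-520)) * h5 + 10565) * h5 + 203815) * h5 + 1304960) * h5 + 3416050) * h5 + 3123125) * h5 + 15625) * h5 + 0) * h5 + 0)

/-- coefficient of `h3^4` in `modQ1` -/
def modQ1c4 (h5 : ℚ) : ℚ :=
  (((((((((-15) * h5 + (-405)) * h5 + (-300)) * h5 + 21390) * h5 + 100275) * h5 + 129375) * h5 + 0) * h5 + 0) * h5 + 0)

/-- coefficient of `h3^5` in `modQ1` -/
def modQ1c5 (h5 : ℚ) : ℚ :=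
  ((((((((-5) * h5 + (-30)) * h5 + 130) * h5 + 1150) * h5 + 1875) * h5 + 0) * h5 + 0) * h5 + 0)

/-- cofactor for the curve relation -/
def modQ1 (h3 h5 : ℚ) : ℚ :=
  modQ1c0 h5 + modQ1c1 h5 * h3 + modQ1c2 h5 * h3^2 + modQ1c3 h5 * h3^3 + modQ1c4 h5 * h3^4 + modQ1c5 h5 * h3^5

/-- coefficient of `h3^0` in `modQ2` -/
def modQ2c0 (h5 : ℚ) : ℚ :=
  ((((((((((((((((((((((((-9) * h5 + (-761)) * h5 + (-29362)) * h5 + (-686163)) * h5 + (-10875987)) * h5 + (-124094028)) * h5 + (-1055019594)) * h5 + (-6812730474)) * h5 + (-33650871504)) * h5 + (-126599904351)) * h5 + (-357196447574)) * h5 + (-735819686272)) * h5 + (-1064239724985)) * h5 + (-1023258224631)) * h5 + (-605526131739)) * h5 + (-199146381993)) * h5 + (-36898101126)) * h5 + (-7289598375)) * h5 + (-457130625)) * h5 + 500000) * h5 + 390625) * h5 + 0) * h5 + 0) * h5 + 0)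

/-- coefficient of `h3^1` in `modQ2` -/
def modQ2c1 (h5 : ℚ) : ℚ :=
  (((((((((((((((((((((18 * h5 + 1113) * h5 + 28459) * h5 + 370370) * h5 + 2112371) * h5 + (-6231093)) * h5 + (-194640670)) * h5 + (-1453904075)) * h5 + (-5338031786)) * h5 + (-7041833730)) * h5 + 19835948992) * h5 + 103855516563) * h5 + 192532115779) * h5 + 173110026143) * h5 + 69018577601) * h5 + 8499317700) * h5 + 1299560000) * h5 + 82890625) * h5 + 1562500) * h5 + 0) * h5 + 0) * h5 + 0)

/-- coefficient of `h3^2` in `modQ2` -/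
def modQ2c2 (h5 : ℚ) : ℚ :=
  (((((((((((((((((((((1 * h5 + 67) * h5 + 1944) * h5 + 32199) * h5 + 341119) * h5 + 2534176) * h5 + 15495942) * h5 + 98311224) * h5 + 653688830) * h5 + 3611442202) * h5 + 14007178793) * h5 + 35000024141) * h5 + 51809233332) * h5 + 38263231599) * h5 + 6235158088) * h5 + (-4859981250)) * h5 + (-384010000)) * h5 + (-16343750)) * h5 + (-390625)) * h5 + 0) * h5 + 0) * h5 + 0)

/-- coefficient of `h3^3` in `modQ2` -/
def modQ2c3 (h5 : ℚ) : ℚ :=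
  ((((((((((((((((((15 * h5 + 860) * h5 + 20616) * h5 + 292575) * h5 + 3052072) * h5 + 26080401) * h5 + 172235655) * h5 + 777917485) * h5 + 2135648748) * h5 + 2927779392) * h5 + 367501964) * h5 + (-3593192682)) * h5 + (-2915939925)) * h5 + (-194809375)) * h5 + (-4265625)) * h5 + 0) * h5 + 0) * h5 + 0) * h5 + 0)

/-- coefficient of `h3^4` in `modQ2` -/
def modQ2c4 (h5 : ℚ) : ℚ :=
  (((((((((((((((((-99) * h5 + (-3387)) * h5 + (-39600)) * h5 + (-114207)) * h5 + 1328310) * h5 + 12780732) * h5 + 35071302) * h5 + (-37763985)) * h5 + (-408676200)) * h5 + (-816637575)) * h5 + (-553558800)) * h5 + (-23846250)) * h5 + (-140625)) * h5 + 0) * h5 + 0) * h5 + 0) * h5 + 0)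

/-- coefficient of `h3^5` in `modQ2` -/
def modQ2c5 (h5 : ℚ) : ℚ :=
  (((((((((((((((((-2) * h5 + (-74)) * h5 + (-1028)) * h5 + (-6348)) * h5 + (-14090)) * h5 + 13399) * h5 + (-668903)) * h5 + (-8669128)) * h5 + (-37726126)) * h5 + (-72238967)) * h5 + (-52380075)) * h5 + (-1091250)) * h5 + 0) * h5 + 0) * h5 + 0) * h5 + 0) * h5 + 0)

/-- coefficient of `h3^6` in `modQ2` -/
def modQ2c6 (h5 : ℚ) : ℚ :=
  ((((((((((((((-6) * h5 + (-189)) * h5 + (-270)) * h5 + (-17538)) * h5 + (-284697)) * h5 + (-1487169)) * h5 + (-3267768)) * h5 + (-2631600)) * h5 + (-16875)) * h5 + 0) * h5 + 0) * h5 + 0) * h5 + 0) * h5 + 0)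

/-- coefficient of `h3^7` in `modQ2` -/
def modQ2c7 (h5 : ℚ) : ℚ :=
  (((((((((((81 * h5 + 387) * h5 + (-3366)) * h5 + (-29322)) * h5 + (-76059)) * h5 + (-66825)) * h5 + 0) * h5 + 0) * h5 + 0) * h5 + 0) * h5 + 0) * h5 + 0)

/-- coefficient of `h3^8` in `modQ2` -/
def modQ2c8 (h5 : ℚ) : ℚ :=
  (((((((((((1 * h5 + 7) * h5 + (-16)) * h5 + (-252)) * h5 + (-729)) * h5 + (-675)) * h5 + 0) * h5 + 0) * h5 + 0) * h5 + 0) * h5 + 0) * h5 + 0)

/-- cofactor for the `h5` relation -/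
def modQ2 (h3 h5 : ℚ) : ℚ :=
  modQ2c0 h5 + modQ2c1 h5 * h3 + modQ2c2 h5 * h3^2 + modQ2c3 h5 * h3^3 + modQ2c4 h5 * h3^4 + modQ2c5 h5 * h3^5 + modQ2c6 h5 * h3^6 + modQ2c7 h5 * h3^7 + modQ2c8 h5 * h3^8

/-- coefficient of `h3^0` in `modQ3` -/
def modQ3c0 (h5 : ℚ) : ℚ :=
  (((((((((((((((((((((((((((((((((((-1) * h5 + (-120)) * h5 + (-6705)) * h5 + (-231560)) * h5 + (-5533185)) * h5 + (-97038864)) * h5 + (-1292930465)) * h5 + (-13365875760)) * h5 + (-108547255845)) * h5 + (-696924004520)) * h5 + (-3542642821749)) * h5 + (-14216920133400)) * h5 + (-44724938642325)) * h5 + (-109018464348000)) * h5 + (-202374700975125)) * h5 + (-278905537460000)) * h5 + (-273882747631875)) * h5 + (-176279003325000)) * h5 + (-56142982321875)) * h5 + 11020342125000) * h5 + 18656807428125) * h5 + 6043723750000) * h5 + (-708398671875)) * h5 + (-934368750000)) * h5 + (-134496484375)) * h5 + 51140625000) * h5 + 15134765625) * h5 + (-1015625000)) * h5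 + (-615234375)) * h5 + 0) * h5 + 9765625) * h5 + 0) * h5 + 0) * h5 + 0) * h5 + 0)

/-- coefficient of `h3^1` in `modQ3` -/
def modQ3c1 (h5 : ℚ) : ℚ :=
  ((((((((((((((((((((((((((((((((-25) * h5 + (-2810)) * h5 + (-146915)) * h5 + (-4749740)) * h5 + (-106479195)) * h5 + (-1759085300)) * h5 + (-22211166030)) * h5 + (-219278488844)) * h5 + (-1715892452935)) * h5 + (-10714321940010)) * h5 + (-53425449841315)) * h5 + (-211727356495280)) * h5 + (-660140309385260)) * h5 + (-1593704310326430)) * h5 + (-2910745137647405)) * h5 + (-3877110257499120)) * h5 + (-3475030432096490)) * h5 + (-1425315159038602)) * h5 + 1477139275611710) * h5 + 3980211975281670) * h5 + 4754654722672670) * h5 + 3268336961004710) * h5 + 824483975514699) * h5 + (-1028688115280200)) * h5 + (-1929219663873750)) * h5 + (-1636322689468750)) * h5 + (-604577796875000)) * h5 + (-43871230468750)) * h5 + (-892333984375)) * h5 + 0) * h5 + 0) * h5 + 0)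

/-- coefficient of `h3^2` in `modQ3` -/
def modQ3c2 (h5 : ℚ) : ℚ :=
  (((((((((((((((((((((((((((((84 * h5 + 6830) * h5 + 236480) * h5 + 4263205) * h5 + 31413650) * h5 + (-349760104)) * h5 + (-13067275280)) * h5 + (-193711940870)) * h5 + (-1889911946780)) * h5 + (-13584191250985)) * h5 + (-75654772436008)) * h5 + (-335882234783740)) * h5 + (-1205205884999330)) * h5 + (-3489638610679960)) * h5 + (-8008238413052620)) * h5 + (-14085969734789051)) * h5 + (-18060727527822170)) * h5 + (-15436118320283840)) * h5 + (-6228900396258460)) * h5 + 4672388069602450) * h5 + 12614197813086304) * h5 + 14297550554973500) * h5 + 9095025193937500) * h5 + 2720497050953125) * h5 + 290651344531250) * h5 + 100092880859375) * h5 + 7504882812500) * h5 + 152587890625) * h5 + 0) * h5 + 0)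

/-- coefficient of `h3^3` in `modQ3` -/
def modQ3c3 (h5 : ℚ) : ℚ :=
  (((((((((((((((((((((((((((((4 * h5 + 360) * h5 + 14625) * h5 + 354670) * h5 + 5720175) * h5 + 64553280) * h5 + 516719255) * h5 + 2770729110) * h5 + 5870683935) * h5 + (-71164787990)) * h5 + (-1133815666347)) * h5 + (-9849898889820)) * h5 + (-61952742944390)) * h5 + (-296787455328960)) * h5 + (-1101310970789370)) * h5 + (-3220349839060480)) * h5 + (-7603908369418755)) * h5 + (-14775779610986220)) * h5 + (-23264013112321150)) * h5 + (-27766575984806280)) * h5 + (-22522899402805671)) * h5 + (-10613621626511650)) * h5 + (-2362378463994375)) * h5 + (-604703254875000)) * h5 + (-379325766406250)) * h5 + (-2235585937500)) * h5 + 549316406250) * h5 + 0) * h5 + 0) * h5 + 0)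

/-- coefficient of `h3^4` in `modQ3` -/
def modQ3c4 (h5 : ℚ) : ℚ :=
  ((((((((((((((((((((((((((75 * h5 + 6180) * h5 + 226959) * h5 + 4969530) * h5 + 73351800) * h5 + 779814660) * h5 + 6119052255) * h5 + 34050886758) * h5 + 105820672410) * h5 + (-178323287100)) * h5 + (-4550257569630)) * h5 + (-31837869201990)) * h5 + (-149815425603456)) * h5 + (-547786120057200)) * h5 + (-1590793647204975)) * h5 + (-3482473350942900)) * h5 + (-5235583649732235)) * h5 + (-4713747820061472)) * h5 + (-1838804409973425)) * h5 + 202294376872500) * h5 + 107109073593750) * h5 + (-151687195312500)) * h5 + (-5527265625000)) * h5 + (-51269531250)) * h5 + 0) * h5 + 0) * h5 + 0)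

/-- coefficient of `h3^5` in `modQ3` -/
def modQ3c5 (h5 : ℚ) : ℚ :=
  (((((((((((((((((((((((((-252) * h5 + (-13120)) * h5 + (-247570)) * h5 + (-1190915)) * h5 + 30563880) * h5 + 663377541) * h5 + 6553383690) * h5 + 40348817550) * h5 + 169875910710) * h5 + 489384794700) * h5 + 497249103068) * h5 + (-5327492643235)) * h5 + (-40224530545790)) * h5 + (-136240292573325)) * h5 + (-220178121633270)) * h5 + (-38426439473244)) * h5 + 416073303270150) * h5 + 566009040243750) * h5 + 217703388281250) * h5 + (-18315242187500)) * h5 + (-639628906250)) * h5 + (-2441406250)) * h5 + 0) * h5 + 0) * h5 + 0)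

/-- coefficient of `h3^6` in `modQ3` -/
def modQ3c6 (h5 : ℚ) : ℚ :=
  (((((((((((((((((((((((((-6) * h5 + (-360)) * h5 + (-9045)) * h5 + (-122520)) * h5 + (-939525)) * h5 + (-3259392)) * h5 + 13903425) * h5 + 330762630) * h5 + 3567932745) * h5 + 29218023540) * h5 + 173880258822) * h5 + 677898513420) * h5 + 1621367114130) * h5 + 3316144675200) * h5 + 14200143294585) * h5 + 58611348992982) * h5 + 131751428225175) * h5 + 145570719382500) * h5 + 62175752203125) * h5 + (-456937500000)) * h5 + (-20302734375)) * h5 + 0) * h5 + 0) * h5 + 0) * h5 + 0)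

/-- coefficient of `h3^7` in `modQ3` -/
def modQ3c7 (h5 : ℚ) : ℚ :=
  ((((((((((((((((((((((-75) * h5 + (-3930)) * h5 + (-80673)) * h5 + (-920100)) * h5 + (-7284780)) * h5 + (-37674180)) * h5 + 40077000) * h5 + 2605491984) * h5 + 21101106675) * h5 + 92945655750) * h5 + 347060433375) * h5 + 1572026328720) * h5 + 6109207390134) * h5 + 14427808097100) * h5 + 17741604266250) * h5 + 8747427562500) * h5 + 76286718750) * h5 + 117187500) * h5 + 0) * h5 + 0) * h5 + 0) * h5 + 0)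

/-- coefficient of `h3^8` in `modQ3` -/
def modQ3c8 (h5 : ℚ) : ℚ :=
  (((((((((((((((((((252 * h5 + 5750) * h5 + 1100) * h5 + (-956810)) * h5 + (-9278030)) * h5 + (-25482893)) * h5 + 107031260) * h5 + 951013165) * h5 + 5537190400) * h5 + 48469606040) * h5 + 279727648268) * h5 + 839857291700) * h5 + 1243336431250) * h5 + 725103359375) * h5 + 6767187500) * h5 + 9765625) * h5 + 0) * h5 + 0) * h5 + 0) * h5 + 0)

/-- coefficient of `h3^9` in `modQ3` -/
def modQ3c9 (h5 : ℚ) : ℚ :=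
  (((((((((((((((((((4 * h5 + 120) * h5 + 1035) * h5 + (-730)) * h5 + (-54705)) * h5 + (-407796)) * h5 + (-1361890)) * h5 + (-14173860)) * h5 + (-119036850)) * h5 + 201641080) * h5 + 6240914571) * h5 + 28295838150) * h5 + 53065489375) * h5 + 36972187500) * h5 + 210937500) * h5 + 0) * h5 + 0) * h5 + 0) * h5 + 0) * h5 + 0)

/-- coefficient of `h3^10` in `modQ3` -/
def modQ3c10 (h5 : ℚ) : ℚ :=
  ((((((((((((((((25 * h5 + 560) * h5 + 629) * h5 + 25310) * h5 + 42990) * h5 + (-3856600)) * h5 + (-19875990)) * h5 + 46137932) * h5 + 547940425) * h5 + 1373705000) * h5 + 1138390625) * h5 + 2343750) * h5 + 0) * h5 + 0) * h5 + 0) * h5 + 0) * h5 + 0)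

/-- coefficient of `h3^11` in `modQ3` -/
def modQ3c11 (h5 : ℚ) : ℚ :=
  (((((((((((((((-84) * h5 + 540) * h5 + 9990) * h5 + (-18480)) * h5 + (-428670)) * h5 + (-547812)) * h5 + 5617650) * h5 + 20025000) * h5 + 19406250) * h5 + 0) * h5 + 0) * h5 + 0) * h5 + 0) * h5 + 0) * h5 + 0)

/-- coefficient of `h3^12` in `modQ3` -/
def modQ3c12 (h5 : ℚ) : ℚ :=
  (((((((((((((((-1) * h5 + 0) * h5 + 90) * h5 + 140) * h5 + (-2760)) * h5 + (-8328)) * h5 + 23950) * h5 + 127500) * h5 + 140625) * h5 + 0) * h5 + 0) * h5 + 0) * h5 + 0) * h5 + 0) * h5 + 0)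

/-- cofactor for the `h3` relation -/
def modQ3 (h3 h5 : ℚ) : ℚ :=
  modQ3c0 h5 + modQ3c1 h5 * h3 + modQ3c2 h5 * h3^2 + modQ3c3 h5 * h3^3 + modQ3c4 h5 * h3^4 + modQ3c5 h5 * h3^5 + modQ3c6 h5 * h3^6 + modQ3c7 h5 * h3^7 + modQ3c8 h5 * h3^8 + modQ3c9 h5 * h3^9 + modQ3c10 h5 * h3^10 + modQ3c11 h5 * h3^11 + modQ3c12 h5 * h3^12


theorem mod_rel1 (h3 h5 : ℚ) :
    (modU h3 h5)^2 * modV h3 h5 + modU h3 h5 * (modV h3 h5)^2
      + 5 * modU h3 h5 * modV h3 h5 * modD h5 + 9 * modU h3 h5 * (modD h5)^2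
      - modV h3 h5 * (modD h5)^2 = modQ1 h3 h5 * corrF h3 h5 := by
  unfold modU modUc0 modUc1 modUc2 modUc3 modV modVc0 modVc1 modVc2 modVc3 modD modQ1 modQ1c0 modQ1c1 modQ1c2 modQ1c3 modQ1c4 modQ1c5 corrF
  ring

theorem mod_rel2 (h3 h5 : ℚ) :
    h5 * (modU h3 h5)^3 * modD h5
      - (9 * (modU h3 h5)^2 * (modD h5)^2 - 9 * modU h3 h5 * (modD h5)^3 + (modD h5)^4)
      - ((modU h3 h5)^3 + 4 * (modU h3 h5)^2 * modD h5 - modU h3 h5 * (modD h5)^2) * modV h3 h5
      = modQ2 h3 h5 * corrF h3 h5 := by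
  unfold modU modUc0 modUc1 modUc2 modUc3 modV modVc0 modVc1 modVc2 modVc3 modD modQ2 modQ2c0 modQ2c1 modQ2c2 modQ2c3 modQ2c4 modQ2c5 modQ2c6 modQ2c7 modQ2c8 corrF
  ring

theorem mod_rel3 (h3 h5 : ℚ) :
    h3 * (modU h3 h5)^2 * (modV h3 h5)^3 - 729 * (modD h5)^5 = modQ3 h3 h5 * corrF h3 h5 := by
  unfold modU modUc0 modUc1 modUc2 modUc3 modV modVc0 modVc1 modVc2 modVc3 modD modQ3 modQ3c0 modQ3c1 modQ3c2 modQ3c3 modQ3c4 modQ3c5 modQ3c6 modQ3c7 modQ3c8 modQ3c9 modQ3c10 modQ3c11 modQ3c12 corrF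
  ring

end Fermat.Agent.S51lib.UV
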