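/-
S51 library, piece [M] (ALTERNATIVE version by helper3; the version used by the assembly is
lead's `Model.lean`): rational points of the `(h3,h5)`-correspondence model of X₀(15).

Main results (namespace `Fermat.Agent.S51lib`):
* `exists_model_point`: a rational solution of `J₃(h3) = J₅(h5)` with `h5 ≠ 0` gives a rational
  point `(u,v)` of `u^2 v + u v^2 + 5uv + 9u - v = 0` with `h5`, `h3` recovered from `(u,v)`.
* `model_points`: the rational points of `u^2 v + u v^2 + 5uv + 9u - v = 0`, given the rational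
  points of `y^2 = x(x+9)(x-16)` (hypothesis `H15a`, proved in `X015.lean`).
* `x015_points`: `(h3,h5) ∈ {(-2,-10), (-32,-25/2), (-729/2,-40), (-729/32,-25/8)}`.
-/
import Mathlib
import Fermat.Agent.S51lib.ModelUVCert

set_option autoImplicit false

namespace Fermat.Agent.S51lib.UV

theorem rat_sq_ne_five (r : ℚ) : r^2 ≠ 5 := by
  intro h
  have h5 : IsSquare (5 : ℚ) := ⟨r, by rw [← h]; ring⟩
  rw [Rat.isSquare_iff] at h5
  obtain ⟨k, hk⟩ := h5.1
  have hk' : k * k = 5 := by simpa using hk.symm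
  have h1 : k ≤ 2 := by nlinarith
  have h2 : -2 ≤ k := by nlinarith
  interval_cases k <;> omega

theorem rat_sq_ne_twenty (r : ℚ) : r^2 ≠ 20 := by
  intro h
  have h5 : IsSquare (20 : ℚ) := ⟨r, by rw [← h]; ring⟩
  rw [Rat.isSquare_iff] at h5
  obtain ⟨k, hk⟩ := h5.1
  have hk' : k * k = 20 := by simpa using hk.symm
  have h1 : k ≤ 4 := by nlinarith
  have h2 : -4 ≤ k := by nlinarith
  interval_cases k <;> omega

theorem modD_ne_zero {h5 : ℚ} (h : h5 ≠ 0) : modD h5 ≠ 0 := by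
  unfold modD
  have h1 : h5^2 + 4*h5 - 1 ≠ 0 := by
    intro h0
    exact rat_sq_ne_five (h5 + 2) (by linear_combination h0)
  have h2 : h5^2 + 10*h5 + 5 ≠ 0 := by
    intro h0
    exact rat_sq_ne_twenty (h5 + 5) (by linear_combination h0)
  exact mul_ne_zero h (mul_ne_zero h1 (pow_ne_zero 2 h2))

private theorem frac_rel1 (U V D : ℚ) (hD : D ≠ 0) :
    (U/D)^2*(V/D) + (U/D)*(V/D)^2 + 5*(U/D)*(V/D) + 9*(U/D) - V/D
      = (U^2*V + U*V^2 + 5*U*V*D + 9*U*D^2 - V*D^2)/D^3 := by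
  field_simp

private theorem frac_rel2 (U V D h5 : ℚ) (hD : D ≠ 0) :
    h5*(U/D)^3 - (9*(U/D)^2 - 9*(U/D) + 1 + ((U/D)^3 + 4*(U/D)^2 - U/D)*(V/D))
      = (h5*U^3*D - (9*U^2*D^2 - 9*U*D^3 + D^4) - (U^3 + 4*U^2*D - U*D^2)*V)/D^4 := by
  field_simp
  ring

private theorem frac_rel3 (U V D h3 : ℚ) (hD : D ≠ 0) :
    h3*(U/D)^2*(V/D)^3 - 729 = (h3*U^2*V^3 - 729*D^5)/D^5 := by
  field_simp

/-- A rational solution of `J₃(h3) = J₅(h5)` with `h5 ≠ 0` gives a rational point of the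
`(2,2)`-model of `X₀(15)`, from which `h5` and `h3` can be recovered. -/
theorem exists_model_point (h3 h5 : ℚ) (hh5 : h5 ≠ 0)
    (hF : (h3+27)*(h3+3)^3*h5 = (h5^2+10*h5+5)^3*h3) :
    ∃ u v : ℚ, u^2*v + u*v^2 + 5*u*v + 9*u - v = 0 ∧
      h5*u^3 = 9*u^2 - 9*u + 1 + (u^3 + 4*u^2 - u)*v ∧ h3*u^2*v^3 = 729 := by
  have hD := modD_ne_zero hh5
  have hF0 : corrF h3 h5 = 0 := by unfold corrF; linear_combination hF
  refine ⟨modU h3 h5 / modD h5, modV h3 h5 / modD h5, ?_, ?_, ?_⟩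
  · rw [frac_rel1 _ _ _ hD, mod_rel1, hF0, mul_zero, zero_div]
  · have := frac_rel2 (modU h3 h5) (modV h3 h5) (modD h5) h5 hD
    rw [mod_rel2, hF0, mul_zero, zero_div] at this
    linear_combination this
  · have := frac_rel3 (modU h3 h5) (modV h3 h5) (modD h5) h3 hD
    rw [mod_rel3, hF0, mul_zero, zero_div] at this
    linear_combination this

/-- The rational points of the `(2,2)`-model of `X₀(15)`, given those of `y^2 = x(x+9)(x-16)`. -/
theorem model_points
    (H15a : ∀ x y : ℚ, y^2 = x*(x+9)*(x-16) → x = 0 ∨ x = -9 ∨ x = 16 ∨ x = 36 ∨ x = -4)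
    (u v : ℚ) (h : u^2*v + u*v^2 + 5*u*v + 9*u - v = 0) :
    (u = 0 ∧ v = 0) ∨ (u = 2 ∧ v = -2) ∨ (u = 2 ∧ v = -9/2) ∨ (u = -1/2 ∧ v = -2) ∨
      (u = -1/2 ∧ v = -9/2) := by
  have hW : (4*u*(2*u*v + 5*v + 18))^2 = (-4*u*v)*((-4*u*v)+9)*((-4*u*v)-16) := by
    linear_combination (64*u^2*v + 576*u) * h
  rcases H15a _ _ hW with hx | hx | hx | hx | hx
  · -- u v = 0
    have huv : u * v = 0 := by linear_combination (-1/4 : ℚ) * hx
    rcases mul_eq_zero.mp huv with hu | hv
    · left; refine ⟨hu, ?_⟩; subst hu; linarith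
    · left; refine ⟨?_, hv⟩; subst hv; linarith
  · -- u v = 9/4
    have huv : u * v = 9/4 := by linear_combination (-1/4 : ℚ) * hx
    have hlin : v = -9 - 9*u := by
      linear_combination (4/5 : ℚ) * h - ((4/5 : ℚ) * (u + v + 5)) * huv
    have hu : (2*u + 1)^2 = 0 := by
      rw [hlin] at huv; linear_combination (-4/9 : ℚ) * huv
    have hu' : u = -1/2 := by
      have := pow_eq_zero_iff (two_ne_zero) |>.mp hu
      linarith
    right; right; right; right
    exact ⟨hu', by rw [hlin, hu']; norm_num⟩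
  · -- u v = -4
    have huv : u * v = -4 := by linear_combination (-1/4 : ℚ) * hx
    have hlin : v = u - 4 := by
      linear_combination (-1/5 : ℚ) * h + ((1/5 : ℚ) * (u + v + 5)) * huv
    have hu : (u - 2)^2 = 0 := by
      rw [hlin] at huv; linear_combination huv
    have hu' : u = 2 := by
      have := pow_eq_zero_iff (two_ne_zero) |>.mp hu
      linarith
    right; left
    exact ⟨hu', by rw [hlin, hu']; norm_num⟩
  · -- u v = -9
    have huv : u * v = -9 := by linear_combination (-1/4 : ℚ) * hx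
    have hv : v = -9/2 := by
      linear_combination (-1/10 : ℚ) * h + ((1/10 : ℚ) * (u + v + 5)) * huv
    have hu' : u = 2 := by
      rw [hv] at huv; linarith
    right; right; left
    exact ⟨hu', hv⟩
  · -- u v = 1
    have huv : u * v = 1 := by linear_combination (-1/4 : ℚ) * hx
    have hu' : u = -1/2 := by
      linear_combination (1/10 : ℚ) * h - ((1/10 : ℚ) * (u + v + 5)) * huv
    have hv : v = -2 := by
      rw [hu'] at huv; linarith
    right; right; right; left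
    exact ⟨hu', hv⟩

/-- Rational points of the correspondence model `J₃(h3) = J₅(h5)` of `X₀(15)`, away from the cusps,
given the rational points of `y^2 = x(x+9)(x-16)`. -/
theorem x015_points
    (H15a : ∀ x y : ℚ, y^2 = x*(x+9)*(x-16) → x = 0 ∨ x = -9 ∨ x = 16 ∨ x = 36 ∨ x = -4)
    (h3 h5 : ℚ) (hh5 : h5 ≠ 0)
    (hF : (h3+27)*(h3+3)^3*h5 = (h5^2+10*h5+5)^3*h3) :
    (h3 = -2 ∧ h5 = -10) ∨ (h3 = -32 ∧ h5 = -25/2) ∨ (h3 = -729/2 ∧ h5 = -40) ∨
      (h3 = -729/32 ∧ h5 = -25/8) := by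
  obtain ⟨u, v, h1, h2, h3'⟩ := exists_model_point h3 h5 hh5 hF
  rcases model_points H15a u v h1 with ⟨hu, hv⟩ | ⟨hu, hv⟩ | ⟨hu, hv⟩ | ⟨hu, hv⟩ | ⟨hu, hv⟩
  · subst hu hv; norm_num at h2
  · subst hu hv; right; right; right
    constructor <;> [linarith; linarith]
  · subst hu hv; left
    constructor <;> [linarith; linarith]
  · subst hu hv; right; right; left
    constructor <;> [linarith; linarith]
  · subst hu hv; right; left
    constructor <;> [linarith; linarith]

end Fermat.Agent.S51lib.UV
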