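/-
S51 library: the `X₀(5)` parametrisation.  From the `x`-coordinates `x1 = x(P)`, `x2 = x(2P)` of a
point `P` of order `5` generating a Galois-stable subgroup (so that `x1 + x2`, `x1 * x2` are
rational) we produce a rational `h ≠ 0` with `j * h = (h ^ 2 + 10 * h + 5) ^ 3`.
-/
import Mathlib

set_option autoImplicit false

namespace Fermat.Agent.S51lib

/-- Pure rational algebra behind the `X₀(5)` parametrisation: the two symmetric relations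
satisfied by the kernel quadratic of a `5`-isogeny give a Hauptmodul `h` with
`j * h = (h ^ 2 + 10 * h + 5) ^ 3`. -/
theorem param5_rat (A B s1 s2 : ℚ) (hD : s1 ^ 2 - 4 * s2 ≠ 0)
    (R1 : 4 * B = s1 ^ 3 - 6 * s1 * s2 - 2 * A * s1)
    (R2 : (A + s1 ^ 2 - s2) ^ 2 = (2 * s1 ^ 2 + s2) * (s1 ^ 2 - 4 * s2))
    (hΔ : 4 * A ^ 3 + 27 * B ^ 2 ≠ 0) :
    ∃ h : ℚ, h ≠ 0 ∧ 6912 * A ^ 3 * h = (4 * A ^ 3 + 27 * B ^ 2) * (h ^ 2 + 10 * h + 5) ^ 3 := by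
  set D := s1 ^ 2 - 4 * s2 with hDdef
  set t := (A + s1 ^ 2 - s2) / D with ht
  have htD : t * D = A + s1 ^ 2 - s2 := by rw [ht]; field_simp
  have ht2 : t ^ 2 * D = 2 * s1 ^ 2 + s2 := by
    have : (t * D) ^ 2 = (2 * s1 ^ 2 + s2) * D := by rw [htD]; exact R2
    have h3 : D * (t ^ 2 * D) = D * (2 * s1 ^ 2 + s2) := by linear_combination this
    exact mul_left_cancel₀ hD h3
  have hc : 4 * t ^ 2 + 1 ≠ 0 := by positivity
  have hs2 : s2 = s1 ^ 2 * (t ^ 2 - 2) / (4 * t ^ 2 + 1) := by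
    rw [eq_div_iff hc]
    linear_combination -ht2
  have hA : A = -3 * s1 ^ 2 * (t ^ 2 - 3 * t + 1) / (4 * t ^ 2 + 1) := by
    rw [eq_div_iff hc]
    have : A = t * D - s1 ^ 2 + s2 := by linear_combination -htD
    rw [this, hDdef, hs2]
    field_simp
    ring
  have hB : B = s1 ^ 3 * (4 * t ^ 2 - 18 * t + 19) / (4 * (4 * t ^ 2 + 1)) := by
    have : B = (s1 ^ 3 - 6 * s1 * s2 - 2 * A * s1) / 4 := by linear_combination R1 / 4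
    rw [this, hA, hs2]
    field_simp
    ring
  have hdisc : 4 * A ^ 3 + 27 * B ^ 2 =
      -729 * s1 ^ 6 * (4 * t - 11) / (16 * (4 * t ^ 2 + 1) ^ 3) := by
    rw [hA, hB]
    field_simp
    ring
  refine ⟨4 * t - 11, ?_, ?_⟩
  · intro h0
    apply hΔ
    rw [hdisc, h0]
    simp
  · rw [hdisc, hA]
    field_simp
    ring

/-- Short Weierstrass form: from the `x`-coordinates `x1 = x(P)`, `x2 = x(2P)` of a point of
order `5` whose symmetric functions are rational, we get a rational point on `X₀(5)`. -/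
theorem param5_short {K : Type*} [Field K] [CharZero K] (A B s1 s2 : ℚ) (x1 x2 : K)
    (h1 : x1 + x2 = (s1 : K)) (h2 : x1 * x2 = (s2 : K)) (hne : x1 ≠ x2)
    (e1 : x2 * (4 * (x1 ^ 3 + A * x1 + B)) = x1 ^ 4 - 2 * A * x1 ^ 2 - 8 * B * x1 + A ^ 2)
    (e2 : x1 * (4 * (x2 ^ 3 + A * x2 + B)) = x2 ^ 4 - 2 * A * x2 ^ 2 - 8 * B * x2 + A ^ 2)
    (hΔ : 4 * A ^ 3 + 27 * B ^ 2 ≠ 0) :
    ∃ h : ℚ, h ≠ 0 ∧ 6912 * A ^ 3 * h = (4 * A ^ 3 + 27 * B ^ 2) * (h ^ 2 + 10 * h + 5) ^ 3 := by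
  have hsub : x1 - x2 ≠ 0 := sub_ne_zero.mpr hne
  -- relation R1 in `K`
  have R1K : (4 * B : K) = (s1 : K) ^ 3 - 6 * s1 * s2 - 2 * A * s1 := by
    have : (x1 - x2) * ((4 * B : K) - ((s1 : K) ^ 3 - 6 * s1 * s2 - 2 * A * s1)) = 0 := by
      rw [← h1, ← h2]
      linear_combination e1 - e2
    rcases mul_eq_zero.mp this with h | h
    · exact absurd h hsub
    · exact sub_eq_zero.mp h
  have R2K : ((A : K) + s1 ^ 2 - s2) ^ 2 = (2 * (s1 : K) ^ 2 + s2) * ((s1 : K) ^ 2 - 4 * s2) := by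
    have hB : (B : K) = ((s1 : K) ^ 3 - 6 * s1 * s2 - 2 * A * s1) / 4 := by
      linear_combination R1K / 4
    rw [hB] at e1 e2
    rw [← h1, ← h2] at e1 e2 ⊢
    linear_combination (-1 / 2 : K) * e1 + (-1 / 2 : K) * e2
  have hD : s1 ^ 2 - 4 * s2 ≠ 0 := by
    intro h
    apply hsub
    have : (x1 - x2) ^ 2 = ((s1 ^ 2 - 4 * s2 : ℚ) : K) := by
      push_cast
      rw [← h1, ← h2]; ring
    rw [h] at this
    simpa using this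
  have R1 : 4 * B = s1 ^ 3 - 6 * s1 * s2 - 2 * A * s1 := by exact_mod_cast R1K
  have R2 : (A + s1 ^ 2 - s2) ^ 2 = (2 * s1 ^ 2 + s2) * (s1 ^ 2 - 4 * s2) := by exact_mod_cast R2K
  exact param5_rat A B s1 s2 hD R1 R2 hΔ

/-- General Weierstrass form over `ℚ`: the kernel quadratic of a rational `5`-isogeny gives a
rational point on `X₀(5)`, i.e. `h` with `j * h = (h ^ 2 + 10 * h + 5) ^ 3`. Here
`x2 * (4 x1³ + b₂ x1² + 2 b₄ x1 + b₆) = x1⁴ - b₄ x1² - 2 b₆ x1 - b₈` is the duplication formula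
`x(2P) = x2` for `x(P) = x1`. -/
theorem param5 {K : Type*} [Field K] [CharZero K] (E : WeierstrassCurve ℚ) (hΔ : E.Δ ≠ 0)
    (s1 s2 : ℚ) (x1 x2 : K)
    (h1 : x1 + x2 = (s1 : K)) (h2 : x1 * x2 = (s2 : K)) (hne : x1 ≠ x2)
    (e1 : x2 * (4 * x1 ^ 3 + (E.b₂ : K) * x1 ^ 2 + 2 * (E.b₄ : K) * x1 + (E.b₆ : K)) =
      x1 ^ 4 - (E.b₄ : K) * x1 ^ 2 - 2 * (E.b₆ : K) * x1 - (E.b₈ : K))
    (e2 : x1 * (4 * x2 ^ 3 + (E.b₂ : K) * x2 ^ 2 + 2 * (E.b₄ : K) * x2 + (E.b₆ : K)) =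
      x2 ^ 4 - (E.b₄ : K) * x2 ^ 2 - 2 * (E.b₆ : K) * x2 - (E.b₈ : K)) :
    ∃ h : ℚ, h ≠ 0 ∧ E.c₄ ^ 3 * h = E.Δ * (h ^ 2 + 10 * h + 5) ^ 3 := by
  have hb8 : (E.b₈ : K) = ((E.b₂ : K) * E.b₆ - (E.b₄ : K) ^ 2) / 4 := by
    have := E.b_relation
    have h' : ((4 * E.b₈ : ℚ) : K) = ((E.b₂ * E.b₆ - E.b₄ ^ 2 : ℚ) : K) := by rw [this]
    push_cast at h'
    linear_combination h' / 4
  have hc4 : E.c₄ = E.b₂ ^ 2 - 24 * E.b₄ := rfl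
  have hc6 : E.c₆ = -E.b₂ ^ 3 + 36 * E.b₂ * E.b₄ - 216 * E.b₆ := rfl
  have hrel : 1728 * E.Δ = E.c₄ ^ 3 - E.c₆ ^ 2 := E.c_relation
  obtain ⟨h, hh0, hh⟩ := param5_short (K := K) (-E.c₄ / 48) (-E.c₆ / 864)
    (s1 + E.b₂ / 6) (s2 + E.b₂ / 12 * s1 + (E.b₂ / 12) ^ 2) (x1 + (E.b₂ : K) / 12)
    (x2 + (E.b₂ : K) / 12)
    (by push_cast; linear_combination h1)
    (by push_cast; linear_combination h2 + ((E.b₂ : K) / 12) * h1)
    (fun h => hne (by linear_combination h))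
    (by
      rw [hc4, hc6]; push_cast
      rw [hb8] at e1
      linear_combination e1)
    (by
      rw [hc4, hc6]; push_cast
      rw [hb8] at e2
      linear_combination e2)
    (by
      have : 4 * (-E.c₄ / 48) ^ 3 + 27 * (-E.c₆ / 864) ^ 2 = -E.Δ / 16 := by
        linear_combination (1 / 27648 : ℚ) * hrel
      rw [this]
      exact div_ne_zero (neg_ne_zero.mpr hΔ) (by norm_num))
  refine ⟨h, hh0, ?_⟩
  have h2' : 4 * (-E.c₄ / 48) ^ 3 + 27 * (-E.c₆ / 864) ^ 2 = -E.Δ / 16 := by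
    linear_combination (1 / 27648 : ℚ) * hrel
  rw [h2'] at hh
  linear_combination (-16 : ℚ) * hh

/-- Variant of `param5_rat` with the relations in the (unsimplified) form produced by adding and
subtracting the two duplication relations. -/
theorem param5_of_rel (A B s1 s2 : ℚ) (hD : s1 ^ 2 - 4 * s2 ≠ 0)
    (R1 : s1 * (6 * s2 - s1 ^ 2 + 2 * A) + 4 * B = 0)
    (R2 : 4 * s2 * (s1 ^ 2 - 2 * s2) + 8 * A * s2 + 12 * B * s1 - (s1 ^ 2 - 2 * s2) ^ 2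
      + 2 * s2 ^ 2 + 2 * A * (s1 ^ 2 - 2 * s2) - 2 * A ^ 2 = 0)
    (hΔ : 4 * A ^ 3 + 27 * B ^ 2 ≠ 0) :
    ∃ h : ℚ, h ≠ 0 ∧ 6912 * A ^ 3 * h = (4 * A ^ 3 + 27 * B ^ 2) * (h ^ 2 + 10 * h + 5) ^ 3 := by
  have R1' : 4 * B = s1 ^ 3 - 6 * s1 * s2 - 2 * A * s1 := by linear_combination R1
  have hB : B = (s1 ^ 3 - 6 * s1 * s2 - 2 * A * s1) / 4 := by linear_combination R1 / 4
  refine param5_rat A B s1 s2 hD R1' ?_ hΔ
  rw [hB] at R2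
  linear_combination (-1 / 2 : ℚ) * R2

/-- The `X₀(5)` parametrisation for an integral model `W`, in the short form
`y² = x³ - 27 c₄ x - 54 c₆`. -/
theorem param5_model (W : WeierstrassCurve ℤ) (hΔ : W.Δ ≠ 0) (s1 s2 : ℚ)
    (hD : s1 ^ 2 - 4 * s2 ≠ 0)
    (R1 : s1 * (6 * s2 - s1 ^ 2 + 2 * (-27 * (W.c₄ : ℚ))) + 4 * (-54 * (W.c₆ : ℚ)) = 0)
    (R2 : 4 * s2 * (s1 ^ 2 - 2 * s2) + 8 * (-27 * (W.c₄ : ℚ)) * s2
      + 12 * (-54 * (W.c₆ : ℚ)) * s1 - (s1 ^ 2 - 2 * s2) ^ 2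
      + 2 * s2 ^ 2 + 2 * (-27 * (W.c₄ : ℚ)) * (s1 ^ 2 - 2 * s2)
      - 2 * (-27 * (W.c₄ : ℚ)) ^ 2 = 0) :
    ∃ h : ℚ, h ≠ 0 ∧ (W.c₄ : ℚ) ^ 3 * h = (W.Δ : ℚ) * (h ^ 2 + 10 * h + 5) ^ 3 := by
  have hrel : (1728 : ℚ) * (W.Δ : ℚ) = (W.c₄ : ℚ) ^ 3 - (W.c₆ : ℚ) ^ 2 := by
    exact_mod_cast W.c_relation
  have hdisc : 4 * (-27 * (W.c₄ : ℚ)) ^ 3 + 27 * (-54 * (W.c₆ : ℚ)) ^ 2 =
      -136048896 * (W.Δ : ℚ) := by
    linear_combination (78732 : ℚ) * hrel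
  obtain ⟨h, hh0, hh⟩ := param5_of_rel _ _ s1 s2 hD R1 R2 (by
    rw [hdisc]
    exact mul_ne_zero (by norm_num) (by exact_mod_cast hΔ))
  refine ⟨h, hh0, ?_⟩
  rw [hdisc] at hh
  linear_combination (-1 / 136048896 : ℚ) * hh

end Fermat.Agent.S51lib
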