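import Fermat.Agent.S51lib.XDup

/-!
# 3- and 5-torsion points via the `x`-duplication formula (S51 support)
-/

set_option autoImplicit false
set_option linter.unusedSectionVars false

namespace Fermat.Agent.S51lib.Tor

open WeierstrassCurve Polynomial

variable {F : Type*} [Field F] [DecidableEq F] (W : WeierstrassCurve.Affine F)

/-- The symmetric relation between `u = x(P)` and `v = x(2P)` for a point of order `5`. -/
def relR (u v : F) : F :=
  6 * (u + v) * (u * v) - (u + v) ^ 3 + W.b₂ * (u * v) + W.b₄ * (u + v) + W.b₆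

theorem sub_mul_relR (u v : F) :
    (u - v) * relR W u v = v * gX W u - u * gX W v - phi2 W u + phi2 W v := by
  simp only [relR, gX, phi2]; ring

theorem relR_self (u : F) : relR W u u = gX W u := by
  simp only [relR, gX]; ring

/-- The degree 12 polynomial function whose roots are the `x`-coordinates of points of order 5. -/
def p12 (u : F) : F :=
  6 * (u * gX W u + phi2 W u) * (u * phi2 W u) * gX W u - (u * gX W u + phi2 W u) ^ 3 +
    W.b₂ * (u * phi2 W u) * gX W u ^ 2 + W.b₄ * (u * gX W u + phi2 W u) * gX W u ^ 2 +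
    W.b₆ * gX W u ^ 3

theorem p12_eq {u v : F} (h : v * gX W u = phi2 W u) : p12 W u = gX W u ^ 3 * relR W u v := by
  simp only [p12, relR, ← h]; ring

theorem p12_of_gX_eq_zero {u : F} (h : gX W u = 0) : p12 W u = -phi2 W u ^ 3 := by
  simp only [p12, h]; ring

variable {W}

/-! ### Points of order 3 -/

theorem psi3_eq_zero_of_three_nsmul {P : W.Point} (hP : P ≠ 0) (h3 : 3 • P = 0) {x : F}
    (hx : HasX W P x) : psi3 W x = 0 := by
  have h2 : P + P = -P := by
    rw [eq_neg_iff_add_eq_zero, ← h3]; abel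
  have h2' : P + P ≠ 0 := by
    rw [h2]; exact neg_ne_zero.mpr hP
  obtain ⟨x', hx', hdup, hg⟩ := hx.dup h2'
  rw [h2] at hx'
  have : x' = x := hx'.unique hx.neg
  rw [this, phi2_eq] at hdup
  linear_combination hdup

/-! ### Points of order 5 -/

theorem five_torsion_data {P : W.Point} (hP : P ≠ 0) (h5 : 5 • P = 0) :
    ∃ u v, HasX W P u ∧ HasX W (2 • P) v ∧ u ≠ v ∧ v * gX W u = phi2 W u ∧
      u * gX W v = phi2 W v ∧ gX W u ≠ 0 ∧ gX W v ≠ 0 := by
  have h2 : P + P ≠ 0 := by
    intro h
    apply hP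
    have : P = 5 • P - 2 • (P + P) := by abel
    rw [this, h5, h]; simp
  have h4 : (P + P) + (P + P) = -P := by
    rw [eq_neg_iff_add_eq_zero, ← h5]; abel
  have h4' : (P + P) + (P + P) ≠ 0 := by
    rw [h4]; exact neg_ne_zero.mpr hP
  obtain ⟨u, hu⟩ := exists_hasX_of_ne_zero hP
  obtain ⟨v, hv, hdup1, hgu⟩ := hu.dup h2
  obtain ⟨u', hu', hdup2, hgv⟩ := hv.dup h4'
  rw [h4] at hu'
  have huu : u' = u := hu'.unique hu.neg
  rw [huu] at hdup2
  refine ⟨u, v, hu, by rwa [two_nsmul], ?_, hdup1, hdup2, hgu, hgv⟩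
  rintro rfl
  rcases hv.eq_or_eq_neg hu with h | h
  · apply hP
    have : P = (P + P) - P := by abel
    rw [this, h]; simp
  · apply hP
    have h3 : 3 • P = 0 := by
      have : 3 • P = (P + P) + P := by abel
      rw [this, h]; simp
    have : P = 2 • (3 • P) - 5 • P := by abel
    rw [this, h3, h5]; simp

theorem p12_eq_zero_of_five_nsmul {P : W.Point} (hP : P ≠ 0) (h5 : 5 • P = 0) {x : F}
    (hx : HasX W P x) : p12 W x = 0 := by
  obtain ⟨u, v, hu, hv, huv, h1, h2, hgu, hgv⟩ := five_torsion_data hP h5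
  have : x = u := hx.unique hu
  subst this
  rw [p12_eq W h1]
  have h3 := sub_mul_relR W x v
  rw [h1, h2] at h3
  have h4 : (x - v) * relR W x v = 0 := by rw [h3]; ring
  rcases mul_eq_zero.mp h4 with h | h
  · exact absurd (sub_eq_zero.mp h) huv
  · rw [h, mul_zero]

/-! ### Polynomial versions -/

variable (W)

/-- `g` as a polynomial. -/
noncomputable def gPoly : F[X] := C 4 * X ^ 3 + C W.b₂ * X ^ 2 + C (2 * W.b₄) * X + C W.b₆

/-- `Φ₂` as a polynomial. -/
noncomputable def phi2Poly : F[X] := X ^ 4 - C W.b₄ * X ^ 2 - C (2 * W.b₆) * X - C W.b₈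

/-- `Ψ₃` as a polynomial. -/
noncomputable def psi3Poly : F[X] :=
  C 3 * X ^ 4 + C W.b₂ * X ^ 3 + C (3 * W.b₄) * X ^ 2 + C (3 * W.b₆) * X + C W.b₈

/-- `p12` as a polynomial. -/
noncomputable def p12Poly : F[X] :=
  C 6 * (X * gPoly W + phi2Poly W) * (X * phi2Poly W) * gPoly W - (X * gPoly W + phi2Poly W) ^ 3 +
    C W.b₂ * (X * phi2Poly W) * gPoly W ^ 2 + C W.b₄ * (X * gPoly W + phi2Poly W) * gPoly W ^ 2 +
    C W.b₆ * gPoly W ^ 3

@[simp] theorem eval_gPoly (x : F) : (gPoly W).eval x = gX W x := by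
  simp [gPoly, gX]

@[simp] theorem eval_phi2Poly (x : F) : (phi2Poly W).eval x = phi2 W x := by
  simp [phi2Poly, phi2]

@[simp] theorem eval_psi3Poly (x : F) : (psi3Poly W).eval x = psi3 W x := by
  simp [psi3Poly, psi3]

@[simp] theorem eval_p12Poly (x : F) : (p12Poly W).eval x = p12 W x := by
  simp [p12Poly, p12]

theorem natDegree_psi3Poly [CharZero F] : (psi3Poly W).natDegree = 4 := by
  simp only [psi3Poly]; compute_degree!

theorem natDegree_p12Poly [CharZero F] : (p12Poly W).natDegree = 12 := by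
  simp only [p12Poly, gPoly, phi2Poly]; compute_degree!

theorem psi3Poly_ne_zero [CharZero F] : psi3Poly W ≠ 0 := by
  intro h
  have := natDegree_psi3Poly W
  rw [h] at this; simp at this

theorem p12Poly_ne_zero [CharZero F] : p12Poly W ≠ 0 := by
  intro h
  have := natDegree_p12Poly W
  rw [h] at this; simp at this

variable {W}

/-! ### Existence of torsion points over an algebraically closed field -/

theorem exists_equation [IsAlgClosed F] (x : F) : ∃ y, W.Equation x y := by
  let q : F[X] := X ^ 2 + C (W.a₁ * x + W.a₃) * X - C (x ^ 3 + W.a₂ * x ^ 2 + W.a₄ * x + W.a₆)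
  have hq : q.degree ≠ 0 := by
    have h2 : q.degree = 2 := by simp only [q]; compute_degree!
    rw [h2]; norm_num
  obtain ⟨y, hy⟩ := IsAlgClosed.exists_root q hq
  refine ⟨y, ?_⟩
  rw [Affine.equation_iff]
  simp only [q, IsRoot.def, eval_sub, eval_add, eval_pow, eval_X, eval_mul, eval_C] at hy
  linear_combination hy

/-- Over an algebraically closed field, every `x` is the `x`-coordinate of a point. -/
theorem exists_hasX [IsAlgClosed F] (hns : ∀ x y, W.Equation x y → W.Nonsingular x y) (x : F) :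
    ∃ P : W.Point, HasX W P x := by
  obtain ⟨y, hy⟩ := exists_equation (W := W) x
  exact ⟨_, hasX_some (hns x y hy)⟩

/-- `g` and `Φ₂` have no common root (on a nonsingular curve). -/
theorem not_gX_phi2 [IsAlgClosed F] [CharZero F] (hns : ∀ x y, W.Equation x y → W.Nonsingular x y)
    {x : F} (hg : gX W x = 0) (hphi : phi2 W x = 0) : False := by
  obtain ⟨P, hP⟩ := exists_hasX hns x
  have h1 := hP.gX'_ne_zero hg
  have h2 := sixteen_phi2_eq W x
  rw [hg, hphi] at h2
  apply h1
  have : gX' W x ^ 2 = 0 := by linear_combination -h2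
  exact pow_eq_zero_iff (two_ne_zero) |>.mp this

theorem exists_three_torsion [IsAlgClosed F] [CharZero F]
    (hns : ∀ x y, W.Equation x y → W.Nonsingular x y) : ∃ P : W.Point, P ≠ 0 ∧ 3 • P = 0 := by
  obtain ⟨x, hx⟩ := IsAlgClosed.exists_root (psi3Poly W) (by
    rw [degree_eq_natDegree (psi3Poly_ne_zero W), natDegree_psi3Poly]; norm_num)
  rw [IsRoot.def, eval_psi3Poly] at hx
  obtain ⟨P, hP⟩ := exists_hasX hns x
  have hphi : phi2 W x = x * gX W x := by rw [phi2_eq, hx, sub_zero]
  have h2 : P + P ≠ 0 := by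
    intro h
    have hg := hP.gX_eq_zero h
    exact not_gX_phi2 hns hg (by rw [hphi, hg, mul_zero])
  obtain ⟨x', hx', hdup, hg⟩ := hP.dup h2
  have hxx : x' = x := by
    rw [hphi] at hdup
    exact mul_right_cancel₀ hg hdup
  rw [hxx] at hx'
  refine ⟨P, hP.ne_zero, ?_⟩
  rcases hx'.eq_or_eq_neg hP with h | h
  · exfalso
    apply hP.ne_zero
    have : P = (P + P) - P := by abel
    rw [this, h]; simp
  · have : 3 • P = (P + P) + P := by abel
    rw [this, h]; simp

theorem exists_five_torsion [IsAlgClosed F] [CharZero F]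
    (hns : ∀ x y, W.Equation x y → W.Nonsingular x y) : ∃ P : W.Point, P ≠ 0 ∧ 5 • P = 0 := by
  obtain ⟨u, hu⟩ := IsAlgClosed.exists_root (p12Poly W) (by
    rw [degree_eq_natDegree (p12Poly_ne_zero W), natDegree_p12Poly]; norm_num)
  rw [IsRoot.def, eval_p12Poly] at hu
  -- `g u ≠ 0`
  have hgu : gX W u ≠ 0 := by
    intro hg
    rw [p12_of_gX_eq_zero W hg] at hu
    have : phi2 W u = 0 := by
      have : phi2 W u ^ 3 = 0 := by linear_combination -hu
      exact pow_eq_zero_iff (three_ne_zero) |>.mp this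
    exact not_gX_phi2 hns hg this
  set v := phi2 W u / gX W u with hv
  have h1 : v * gX W u = phi2 W u := by rw [hv]; field_simp
  have hR : relR W u v = 0 := by
    have := p12_eq W h1
    rw [hu] at this
    rcases mul_eq_zero.mp this.symm with h | h
    · exact absurd (pow_eq_zero_iff (three_ne_zero) |>.mp h) hgu
    · exact h
  have h2 : u * gX W v = phi2 W v := by
    have := sub_mul_relR W u v
    rw [hR, h1] at this
    linear_combination this
  have hgv : gX W v ≠ 0 := by
    intro hg
    exact not_gX_phi2 hns hg (by rw [← h2, hg, mul_zero])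
  have huv : u ≠ v := by
    intro h
    rw [← h, relR_self] at hR
    exact hgu hR
  obtain ⟨P, hP⟩ := exists_hasX hns u
  have hP2 : P + P ≠ 0 := fun h => hgu (hP.gX_eq_zero h)
  obtain ⟨v', hv', hdup1, -⟩ := hP.dup hP2
  have hvv : v' = v := mul_right_cancel₀ hgu (hdup1.trans h1.symm)
  rw [hvv] at hv'
  have hP4 : (P + P) + (P + P) ≠ 0 := fun h => hgv (hv'.gX_eq_zero h)
  obtain ⟨u', hu', hdup2, -⟩ := hv'.dup hP4
  have huu : u' = u := mul_right_cancel₀ hgv (hdup2.trans h2.symm)
  rw [huu] at hu'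
  refine ⟨P, hP.ne_zero, ?_⟩
  rcases hu'.eq_or_eq_neg hP with h | h
  · exfalso
    -- `4P = P` gives `2P = -P`, so `v = u`.
    have h3 : P + P = -P := by
      have : P + P = ((P + P) + (P + P)) - P - P := by abel
      rw [this, h]; abel
    rw [h3] at hv'
    exact huv (hP.neg.unique hv')
  · have : 5 • P = ((P + P) + (P + P)) + P := by abel
    rw [this, h]; simp

/-! ### Counting points with prescribed `x`-coordinates -/

theorem finite_and_ncard_le (S : Set W.Point) (Z : Finset F)
    (h : ∀ P ∈ S, P ≠ 0 → ∃ x ∈ Z, HasX W P x) : S.Finite ∧ S.ncard ≤ 2 * Z.card + 1 := by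
  classical
  let pt : F → W.Point := fun x => if h : ∃ P, HasX W P x then h.choose else 0
  have hpt : ∀ x, (∃ P, HasX W P x) → HasX W (pt x) x := by
    intro x hx
    simp only [pt, dif_pos hx]
    exact hx.choose_spec
  let ψ : Option (Z × Bool) → W.Point := fun o =>
    match o with
    | none => 0
    | some (x, true) => pt x
    | some (x, false) => -pt x
  let T : Finset W.Point := Finset.univ.image ψ
  have hsub : S ⊆ (T : Set W.Point) := by
    intro P hP
    simp only [T, Finset.coe_image, Finset.coe_univ, Set.image_univ, Set.mem_range]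
    by_cases hP0 : P = 0
    · exact ⟨none, hP0.symm⟩
    · obtain ⟨x, hxZ, hx⟩ := h P hP hP0
      rcases hx.eq_or_eq_neg (hpt x ⟨P, hx⟩) with h1 | h1
      · exact ⟨some (⟨x, hxZ⟩, true), h1.symm⟩
      · exact ⟨some (⟨x, hxZ⟩, false), h1.symm⟩
  have hT : T.card ≤ 2 * Z.card + 1 := by
    refine (Finset.card_image_le).trans ?_
    rw [Finset.card_univ, Fintype.card_option, Fintype.card_prod, Fintype.card_bool,
      Fintype.card_coe]
    omega
  refine ⟨(Finset.finite_toSet T).subset hsub, ?_⟩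
  calc S.ncard ≤ (T : Set W.Point).ncard := Set.ncard_le_ncard hsub (Finset.finite_toSet T)
    _ = T.card := Set.ncard_coe_finset T
    _ ≤ _ := hT

/-- The `3`-torsion has at most `9` elements. -/
theorem three_torsion_finite_and_ncard_le [CharZero F] :
    {P : W.Point | 3 • P = 0}.Finite ∧ {P : W.Point | 3 • P = 0}.ncard ≤ 9 := by
  classical
  have h := finite_and_ncard_le {P : W.Point | 3 • P = 0} (psi3Poly W).roots.toFinset (by
    intro P hP hP0
    obtain ⟨x, hx⟩ := exists_hasX_of_ne_zero hP0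
    refine ⟨x, ?_, hx⟩
    rw [Multiset.mem_toFinset, mem_roots (psi3Poly_ne_zero W), IsRoot.def, eval_psi3Poly]
    exact psi3_eq_zero_of_three_nsmul hP0 hP hx)
  refine ⟨h.1, h.2.trans ?_⟩
  have : (psi3Poly W).roots.toFinset.card ≤ 4 :=
    ((psi3Poly W).roots.toFinset_card_le).trans
      (((psi3Poly W).card_roots').trans (natDegree_psi3Poly W).le)
  omega

/-- The `5`-torsion has at most `25` elements. -/
theorem five_torsion_finite_and_ncard_le [CharZero F] :
    {P : W.Point | 5 • P = 0}.Finite ∧ {P : W.Point | 5 • P = 0}.ncard ≤ 25 := by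
  classical
  have h := finite_and_ncard_le {P : W.Point | 5 • P = 0} (p12Poly W).roots.toFinset (by
    intro P hP hP0
    obtain ⟨x, hx⟩ := exists_hasX_of_ne_zero hP0
    refine ⟨x, ?_, hx⟩
    rw [Multiset.mem_toFinset, mem_roots (p12Poly_ne_zero W), IsRoot.def, eval_p12Poly]
    exact p12_eq_zero_of_five_nsmul hP0 hP hx)
  refine ⟨h.1, h.2.trans ?_⟩
  have : (p12Poly W).roots.toFinset.card ≤ 12 :=
    ((p12Poly W).roots.toFinset_card_le).trans
      (((p12Poly W).card_roots').trans (natDegree_p12Poly W).le)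
  omega

end Fermat.Agent.S51lib.Tor
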