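import Fermat.Agent.S51lib.Torsion
import Fermat.Prelude.Def_FLTPrelim_GaloisRep
import Fermat.Prelude.Def_FLTPrelim_ModularRep

/-!
# Galois-stable lines in `E[3]` and `E[5]` give rational data (S51 support)
-/

set_option autoImplicit false
set_option linter.unusedSectionVars false

namespace Fermat.Agent.S51lib.Tor

open WeierstrassCurve Polynomial

/-- `ℚ̄`. -/
abbrev Qbar : Type := AlgebraicClosure ℚ

theorem isGalois_Qbar : IsGalois ℚ Qbar := by
  have h : (AlgebraicClosure.instAlgebra ℚ : Algebra ℚ Qbar) = DivisionRing.toRatAlgebra :=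
    Subsingleton.elim _ _
  rw [← h]
  exact IsAlgClosure.isGalois ℚ _

/-- Elements of `ℚ̄` fixed by all automorphisms are rational. -/
theorem exists_rat_of_fixed {x : Qbar} (h : ∀ σ : Qbar ≃ₐ[ℚ] Qbar, σ x = x) :
    ∃ q : ℚ, algebraMap ℚ Qbar q = x := by
  have := isGalois_Qbar
  exact (InfiniteGalois.mem_range_algebraMap_iff_fixed x).mpr h

variable (E : WeierstrassCurve.Affine ℚ)

/-- The curve over `ℚ̄`. -/
noncomputable abbrev EK : WeierstrassCurve.Affine Qbar := E⁄Qbar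

theorem EK_Δ_ne_zero (hΔ : E.Δ ≠ 0) : (EK E).Δ ≠ 0 := by
  show (E.map (algebraMap ℚ Qbar)).Δ ≠ 0
  rw [WeierstrassCurve.map_Δ]
  simp [hΔ]

theorem EK_nonsingular (hΔ : E.Δ ≠ 0) (x y : Qbar) (h : (EK E).Equation x y) :
    (EK E).Nonsingular x y :=
  (Affine.equation_iff_nonsingular_of_Δ_ne_zero (EK_Δ_ne_zero E hΔ)).mp h

theorem hasX_smul (σ : Qbar ≃ₐ[ℚ] Qbar) {P : (EK E).Point} {x : Qbar} (h : HasX (EK E) P x) :
    HasX (EK E) (σ • P) (σ x) := by
  obtain ⟨y, hns, rfl⟩ := h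
  exact ⟨σ y, _, rfl⟩

/-! ### Lines in a `ZMod p`-module with at most `p ^ 2` elements -/

theorem exists_nsmul_of_card_le {p : ℕ} [Fact p.Prime] {V : Type*} [AddCommGroup V]
    [Module (ZMod p) V] [Finite V] (hcard : Nat.card V ≤ p ^ 2) (N : Submodule (ZMod p) V)
    (hbot : N ≠ ⊥) (htop : N ≠ ⊤) {P : V} (hP : P ∈ N) (hP0 : P ≠ 0) {Q : V} (hQ : Q ∈ N) :
    ∃ k : ℕ, k < p ∧ Q = k • P := by
  have hp : p.Prime := Fact.out
  have : Module.Finite (ZMod p) V := Module.Finite.of_finite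
  have h1 : Nat.card V = p ^ Module.finrank (ZMod p) V := by
    rw [Module.natCard_eq_pow_finrank (K := ZMod p) (V := V), Nat.card_zmod]
  have h2 : Module.finrank (ZMod p) V ≤ 2 := by
    rw [h1] at hcard
    exact (Nat.pow_le_pow_iff_right hp.one_lt).mp hcard
  have h3 : Module.finrank (ZMod p) N < Module.finrank (ZMod p) V := Submodule.finrank_lt htop
  have h4 : Module.finrank (ZMod p) N ≠ 0 := by
    intro h
    exact hbot (Submodule.finrank_eq_zero.mp h)
  have h5 : Module.finrank (ZMod p) N = 1 := by omega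
  have hv0 : (⟨P, hP⟩ : N) ≠ 0 := by
    intro h
    exact hP0 (congrArg Subtype.val h)
  obtain ⟨c, hc⟩ := (finrank_eq_one_iff_of_nonzero' (⟨P, hP⟩ : N) hv0).mp h5 ⟨Q, hQ⟩
  refine ⟨c.val, ZMod.val_lt c, ?_⟩
  have h6 : c • P = Q := congrArg Subtype.val hc
  rw [← h6, ← Nat.cast_smul_eq_nsmul (ZMod p) c.val P, ZMod.natCast_zmod_val]

/-! ### The torsion modules of the prelude -/

/-- The `n`-torsion module of the prelude. -/
noncomputable abbrev Tors (n : ℕ) : Submodule ℤ (EK E).Point :=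
  Submodule.torsionBy ℤ (EK E).Point n

theorem mem_Tors_iff (n : ℕ) (P : (EK E).Point) : P ∈ Tors E n ↔ n • P = 0 := by
  rw [Submodule.mem_torsionBy_iff, natCast_zsmul]

theorem coe_Tors (n : ℕ) : ((Tors E n : Submodule ℤ (EK E).Point) : Set (EK E).Point) =
    {P | n • P = 0} := by
  ext P
  exact mem_Tors_iff E n P

theorem finite_Tors_of (n : ℕ) (h : {P : (EK E).Point | n • P = 0}.Finite) :
    Finite (Tors E n) := by
  have : (↑(Tors E n) : Set (EK E).Point).Finite := by rw [coe_Tors]; exact h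
  exact this.to_subtype

theorem card_Tors (n : ℕ) : Nat.card (Tors E n) = {P : (EK E).Point | n • P = 0}.ncard := by
  rw [← coe_Tors]
  exact Nat.card_coe_set_eq _

theorem coe_smul_Tors (n : ℕ) (σ : Qbar ≃ₐ[ℚ] Qbar) (P : Tors E n) :
    ((σ • P : Tors E n) : (EK E).Point) = σ • (P : (EK E).Point) := rfl

theorem smul_nsmul_point (σ : Qbar ≃ₐ[ℚ] Qbar) (k : ℕ) (P : (EK E).Point) :
    σ • (k • P) = k • (σ • P) :=
  (DistribSMul.toAddMonoidHom (EK E).Point σ).map_nsmul k P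

theorem smul_point_ne_zero (σ : Qbar ≃ₐ[ℚ] Qbar) {P : (EK E).Point} (hP : P ≠ 0) : σ • P ≠ 0 := by
  intro h
  apply hP
  have : σ⁻¹ • (σ • P) = P := inv_smul_smul σ P
  rw [← this, h]
  exact smul_zero (A := (EK E).Point) σ⁻¹

/-! ### The case `p = 3` -/

theorem exists_rat_root_psi3 (hΔ : E.Δ ≠ 0) (h : ¬ Affine.Point.GaloisRepIsIrreducible (K := AlgebraicClosure ℚ) ℚ E 3) :
    ∃ x : ℚ, psi3 (E) x = 0 := by
  have hns := EK_nonsingular E hΔ
  have hp3 : Fact (Nat.Prime 3) := ⟨by norm_num⟩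
  obtain ⟨hfin, hcard⟩ := three_torsion_finite_and_ncard_le (W := EK E)
  have hF : Finite (Tors E 3) := finite_Tors_of E 3 hfin
  have hc : Nat.card (Tors E 3) ≤ 3 ^ 2 := by rw [card_Tors]; exact hcard
  have hnt : Nontrivial (Tors E 3) := by
    obtain ⟨P, hP0, hP3⟩ := exists_three_torsion (W := EK E) hns
    refine nontrivial_of_ne (⟨P, (mem_Tors_iff E 3 P).mpr hP3⟩ : Tors E 3) 0 ?_
    intro h0
    exact hP0 (congrArg Subtype.val h0)
  unfold Affine.Point.GaloisRepIsIrreducible at h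
  have h' : ∃ N : Submodule (ZMod 3) (Tors E 3),
      Affine.Point.IsGaloisStable ℚ N ∧ N ≠ ⊥ ∧ N ≠ ⊤ := by
    by_contra hcon
    apply h
    refine ⟨hnt, fun N hN => ?_⟩
    by_contra hN2
    push Not at hN2
    exact hcon ⟨N, hN, hN2.1, hN2.2⟩
  obtain ⟨N, hst, hbot, htop⟩ := h'
  obtain ⟨P, hPN, hP0⟩ := Submodule.exists_mem_ne_zero_of_ne_bot hbot
  have hP0' : (P : (EK E).Point) ≠ 0 := fun h0 => hP0 (Subtype.ext h0)
  have hP3 : 3 • (P : (EK E).Point) = 0 := (mem_Tors_iff E 3 _).mp P.2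
  obtain ⟨x, hx⟩ := exists_hasX_of_ne_zero hP0'
  have hpsi : psi3 (EK E) x = 0 := psi3_eq_zero_of_three_nsmul hP0' hP3 hx
  have hfix : ∀ σ : Qbar ≃ₐ[ℚ] Qbar, σ x = x := by
    intro σ
    have hσP : σ • P ∈ N := hst σ P hPN
    obtain ⟨k, hk3, hk⟩ := exists_nsmul_of_card_le hc N hbot htop hPN hP0 hσP
    have hk' : σ • (P : (EK E).Point) = k • (P : (EK E).Point) := by
      have h1 : ((σ • P : Tors E 3) : (EK E).Point) = ((k • P : Tors E 3) : (EK E).Point) :=
        congrArg Subtype.val hk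
      have h2 : ((k • P : Tors E 3) : (EK E).Point) = k • (P : (EK E).Point) := by simp
      exact h1.trans h2
    have hσx := hasX_smul E σ hx
    rw [hk'] at hσx
    interval_cases k
    · exact absurd (by simp) hσx.ne_zero
    · rw [one_nsmul] at hσx
      exact hσx.unique hx
    · have : 2 • (P : (EK E).Point) = -P := by
        rw [eq_neg_iff_add_eq_zero, ← hP3]; abel
      rw [this] at hσx
      exact hσx.unique hx.neg
  obtain ⟨q, hq⟩ := exists_rat_of_fixed hfix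
  refine ⟨q, ?_⟩
  have hmap : psi3 (EK E) (algebraMap ℚ Qbar q) = algebraMap ℚ Qbar (psi3 (E) q) := by
    simp only [psi3, EK, WeierstrassCurve.baseChange,
      WeierstrassCurve.map_b₂, WeierstrassCurve.map_b₄, WeierstrassCurve.map_b₆,
      WeierstrassCurve.map_b₈, map_add, map_mul, map_pow, map_ofNat]
  rw [← hq, hmap] at hpsi
  exact (map_eq_zero_iff _ (algebraMap ℚ Qbar).injective).mp hpsi

/-! ### The case `p = 5` -/

theorem hasX_nsmul_of_five {P : (EK E).Point} (h5 : 5 • P = 0) {u v : Qbar}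
    (hu : HasX (EK E) P u) (hv : HasX (EK E) (2 • P) v) (k : ℕ) :
    (k % 5 = 1 ∨ k % 5 = 4 → HasX (EK E) (k • P) u) ∧
      (k % 5 = 2 ∨ k % 5 = 3 → HasX (EK E) (k • P) v) := by
  have hk : k • P = (k % 5) • P := by
    have h0 : k • P = (k / 5) • (5 • P) + (k % 5) • P := by
      rw [← mul_nsmul, ← add_nsmul, Nat.div_add_mod]
    rw [h0, h5, nsmul_zero, zero_add]
  have h4 : (4 • P : (EK E).Point) = -P := by
    rw [eq_neg_iff_add_eq_zero, ← h5]; abel
  have h3 : (3 • P : (EK E).Point) = -((2 • P : (EK E).Point)) := by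
    rw [eq_neg_iff_add_eq_zero, ← h5]; abel
  rw [hk]
  have hlt : k % 5 < 5 := Nat.mod_lt _ (by norm_num)
  generalize k % 5 = r at hlt ⊢
  interval_cases r
  · simp
  · simpa using hu
  · simpa using hv
  · simp only [h3]; simpa using hv.neg
  · simp only [h4]; simpa using hu.neg

theorem exists_five_data (hΔ : E.Δ ≠ 0) (h : ¬ Affine.Point.GaloisRepIsIrreducible (K := AlgebraicClosure ℚ) ℚ E 5) :
    ∃ s1 s2 : ℚ, ∃ u v : Qbar, u + v = algebraMap ℚ Qbar s1 ∧ u * v = algebraMap ℚ Qbar s2 ∧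
      u ≠ v ∧ v * gX (EK E) u = phi2 (EK E) u ∧ u * gX (EK E) v = phi2 (EK E) v ∧
      gX (EK E) u ≠ 0 ∧ gX (EK E) v ≠ 0 := by
  have hns := EK_nonsingular E hΔ
  have hp5 : Fact (Nat.Prime 5) := ⟨by norm_num⟩
  obtain ⟨hfin, hcard⟩ := five_torsion_finite_and_ncard_le (W := EK E)
  have hF : Finite (Tors E 5) := finite_Tors_of E 5 hfin
  have hc : Nat.card (Tors E 5) ≤ 5 ^ 2 := by rw [card_Tors]; exact hcard
  have hnt : Nontrivial (Tors E 5) := by
    obtain ⟨P, hP0, hP5⟩ := exists_five_torsion (W := EK E) hns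
    refine nontrivial_of_ne (⟨P, (mem_Tors_iff E 5 P).mpr hP5⟩ : Tors E 5) 0 ?_
    intro h0
    exact hP0 (congrArg Subtype.val h0)
  unfold Affine.Point.GaloisRepIsIrreducible at h
  have h' : ∃ N : Submodule (ZMod 5) (Tors E 5),
      Affine.Point.IsGaloisStable ℚ N ∧ N ≠ ⊥ ∧ N ≠ ⊤ := by
    by_contra hcon
    apply h
    refine ⟨hnt, fun N hN => ?_⟩
    by_contra hN2
    push Not at hN2
    exact hcon ⟨N, hN, hN2.1, hN2.2⟩
  obtain ⟨N, hst, hbot, htop⟩ := h'
  obtain ⟨P, hPN, hP0⟩ := Submodule.exists_mem_ne_zero_of_ne_bot hbot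
  have hP0' : (P : (EK E).Point) ≠ 0 := fun h0 => hP0 (Subtype.ext h0)
  have hP5 : 5 • (P : (EK E).Point) = 0 := (mem_Tors_iff E 5 _).mp P.2
  obtain ⟨u, v, hu, hv, huv, h1, h2, hgu, hgv⟩ := five_torsion_data hP0' hP5
  have key : ∀ σ : Qbar ≃ₐ[ℚ] Qbar, (σ u = u ∧ σ v = v) ∨ (σ u = v ∧ σ v = u) := by
    intro σ
    have hσP : σ • P ∈ N := hst σ P hPN
    obtain ⟨k, hk5, hk⟩ := exists_nsmul_of_card_le hc N hbot htop hPN hP0 hσP
    have hk' : σ • (P : (EK E).Point) = k • (P : (EK E).Point) := by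
      have h1 : ((σ • P : Tors E 5) : (EK E).Point) = ((k • P : Tors E 5) : (EK E).Point) :=
        congrArg Subtype.val hk
      have h2 : ((k • P : Tors E 5) : (EK E).Point) = k • (P : (EK E).Point) := by simp
      exact h1.trans h2
    have hσu := hasX_smul E σ hu
    have hσv := hasX_smul E σ hv
    rw [smul_nsmul_point, hk', ← mul_nsmul'] at hσv
    rw [hk'] at hσu
    have hk0 : k ≠ 0 := by
      rintro rfl
      exact hσu.ne_zero (by simp)
    have A1 := hasX_nsmul_of_five E hP5 hu hv k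
    have A2 := hasX_nsmul_of_five E hP5 hu hv (2 * k)
    interval_cases k
    · exact absurd rfl hk0
    · exact Or.inl ⟨hσu.unique (A1.1 (by decide)), hσv.unique (A2.2 (by decide))⟩
    · exact Or.inr ⟨hσu.unique (A1.2 (by decide)), hσv.unique (A2.1 (by decide))⟩
    · exact Or.inr ⟨hσu.unique (A1.2 (by decide)), hσv.unique (A2.1 (by decide))⟩
    · exact Or.inl ⟨hσu.unique (A1.1 (by decide)), hσv.unique (A2.2 (by decide))⟩
  obtain ⟨s1, hs1⟩ := exists_rat_of_fixed (x := u + v) (by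
    intro σ
    rcases key σ with ⟨h3, h4⟩ | ⟨h3, h4⟩
    · rw [map_add, h3, h4]
    · rw [map_add, h3, h4, add_comm])
  obtain ⟨s2, hs2⟩ := exists_rat_of_fixed (x := u * v) (by
    intro σ
    rcases key σ with ⟨h3, h4⟩ | ⟨h3, h4⟩
    · rw [map_mul, h3, h4]
    · rw [map_mul, h3, h4, mul_comm])
  exact ⟨s1, s2, u, v, hs1.symm, hs2.symm, huv, h1, h2, hgu, hgv⟩

end Fermat.Agent.S51lib.Tor
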