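import Fermat.Agent.S51lib.TorsionGalois

/-!
# Rational 3- and 5-isogeny data in short Weierstrass form (S51 support)

Final interface of the torsion part: for `W : WeierstrassCurve ℤ` with `Δ ≠ 0`, put
`A = -27 c₄`, `B = -54 c₆` (so that `W` is `ℚ`-isomorphic to `y² = x³ + A x + B`).

* `exists_root_psi3_short`: if the mod 3 representation is not irreducible then the 3-division
  polynomial `3x⁴ + 6Ax² + 12Bx - A²` has a rational root.
* `exists_kernel_quadratic_short`: if the mod 5 representation is not irreducible then there are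
  rational `s1, s2` (sum and product of the `x`-coordinates of `P, 2P` for a generator `P` of a
  rational cyclic subgroup of order 5) with `s1² - 4 s2 ≠ 0` satisfying two explicit relations.
-/

set_option autoImplicit false
set_option linter.unusedSectionVars false

namespace Fermat.Agent.S51lib.Tor

open WeierstrassCurve Polynomial

/-- The symmetric relation `relR` in terms of `s1 = u + v`, `s2 = u * v`. -/
def relRs {F : Type*} [Field F] (W : WeierstrassCurve.Affine F) (s1 s2 : F) : F :=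
  6 * s1 * s2 - s1 ^ 3 + W.b₂ * s2 + W.b₄ * s1 + W.b₆

/-- The second symmetric relation in terms of `s1 = u + v`, `s2 = u * v`. -/
def rel2s {F : Type*} [Field F] (W : WeierstrassCurve.Affine F) (s1 s2 : F) : F :=
  4 * s2 * (s1 ^ 2 - 2 * s2) + W.b₂ * s1 * s2 + 4 * W.b₄ * s2 + 3 * W.b₆ * s1 -
    (s1 ^ 2 - 2 * s2) ^ 2 + 2 * s2 ^ 2 + W.b₄ * (s1 ^ 2 - 2 * s2) + 2 * W.b₈

theorem relR_eq_relRs {F : Type*} [Field F] (W : WeierstrassCurve.Affine F) (u v : F) :
    relR W u v = relRs W (u + v) (u * v) := by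
  simp only [relR, relRs]

theorem rel2s_eq {F : Type*} [Field F] (W : WeierstrassCurve.Affine F) (u v : F) :
    rel2s W (u + v) (u * v) = v * gX W u + u * gX W v - phi2 W u - phi2 W v := by
  simp only [rel2s, gX, phi2]; ring

variable (W : WeierstrassCurve ℤ)

/-- The curve over `ℚ`. -/
abbrev EQ : WeierstrassCurve.Affine ℚ := W.map (Int.castRingHom ℚ)

theorem EQ_Δ_ne_zero (hΔ : W.Δ ≠ 0) : (EQ W).Δ ≠ 0 := by
  show (W.map (Int.castRingHom ℚ)).Δ ≠ 0
  rw [WeierstrassCurve.map_Δ]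
  simp [hΔ]

theorem relRs_map (s1 s2 : ℚ) :
    relRs (EK (EQ W)) (algebraMap ℚ Qbar s1) (algebraMap ℚ Qbar s2) =
      algebraMap ℚ Qbar (relRs (EQ W) s1 s2) := by
  simp only [relRs, EK, WeierstrassCurve.baseChange,
      WeierstrassCurve.map_b₂, WeierstrassCurve.map_b₄, WeierstrassCurve.map_b₆,
      map_add, map_sub, map_mul, map_pow, map_ofNat]

theorem rel2s_map (s1 s2 : ℚ) :
    rel2s (EK (EQ W)) (algebraMap ℚ Qbar s1) (algebraMap ℚ Qbar s2) =
      algebraMap ℚ Qbar (rel2s (EQ W) s1 s2) := by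
  simp only [rel2s, EK, WeierstrassCurve.baseChange,
      WeierstrassCurve.map_b₂, WeierstrassCurve.map_b₄, WeierstrassCurve.map_b₆,
      WeierstrassCurve.map_b₈, map_add, map_sub, map_mul, map_pow, map_ofNat]

/-- General-form version of the 5-isogeny data over `ℚ`. -/
theorem exists_kernel_quadratic (hΔ : W.Δ ≠ 0) (h : ¬ W.ModRepIsIrreducible 5) :
    ∃ s1 s2 : ℚ, s1 ^ 2 - 4 * s2 ≠ 0 ∧ relRs (EQ W) s1 s2 = 0 ∧ rel2s (EQ W) s1 s2 = 0 := by
  obtain ⟨s1, s2, u, v, hs1, hs2, huv, h1, h2, -, -⟩ := exists_five_data (EQ W) (EQ_Δ_ne_zero W hΔ) h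
  have hinj := (algebraMap ℚ Qbar).injective
  refine ⟨s1, s2, ?_, ?_, ?_⟩
  · intro h0
    have : (u - v) ^ 2 = 0 := by
      have e : (u - v) ^ 2 = (u + v) ^ 2 - 4 * (u * v) := by ring
      rw [e, hs1, hs2]
      have := congrArg (algebraMap ℚ Qbar) h0
      simpa using this
    exact huv (sub_eq_zero.mp (pow_eq_zero_iff two_ne_zero |>.mp this))
  · apply hinj
    rw [← relRs_map, ← hs1, ← hs2, ← relR_eq_relRs, map_zero]
    have h3 := sub_mul_relR (EK (EQ W)) u v
    rw [h1, h2] at h3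
    have h4 : (u - v) * relR (EK (EQ W)) u v = 0 := by rw [h3]; ring
    rcases mul_eq_zero.mp h4 with h5 | h5
    · exact absurd (sub_eq_zero.mp h5) huv
    · exact h5
  · apply hinj
    rw [← rel2s_map, ← hs1, ← hs2, rel2s_eq, h1, h2, map_zero]; ring

/-! ### Short Weierstrass form -/

/-- `A = -27 c₄`. -/
def shortA : ℚ := -27 * (W.c₄ : ℚ)

/-- `B = -54 c₆`. -/
def shortB : ℚ := -54 * (W.c₆ : ℚ)

theorem shortA_eq : shortA W = -27 * ((EQ W).b₂ ^ 2 - 24 * (EQ W).b₄) := by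
  have : (EQ W).c₄ = (W.c₄ : ℚ) := by
    show (W.map (Int.castRingHom ℚ)).c₄ = _
    rw [WeierstrassCurve.map_c₄]; simp
  rw [shortA, ← this, WeierstrassCurve.c₄]

theorem shortB_eq : shortB W =
    -54 * (-(EQ W).b₂ ^ 3 + 36 * (EQ W).b₂ * (EQ W).b₄ - 216 * (EQ W).b₆) := by
  have : (EQ W).c₆ = (W.c₆ : ℚ) := by
    show (W.map (Int.castRingHom ℚ)).c₆ = _
    rw [WeierstrassCurve.map_c₆]; simp
  rw [shortB, ← this, WeierstrassCurve.c₆]

/-- (T3) If the mod 3 representation is not irreducible, the 3-division polynomial of the short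
model `y² = x³ + A x + B` has a rational root. -/
theorem exists_root_psi3_short (hΔ : W.Δ ≠ 0) (h : ¬ W.ModRepIsIrreducible 3) :
    ∃ x : ℚ, 3 * x ^ 4 + 6 * shortA W * x ^ 2 + 12 * shortB W * x - shortA W ^ 2 = 0 := by
  obtain ⟨x, hx⟩ := exists_rat_root_psi3 (EQ W) (EQ_Δ_ne_zero W hΔ) h
  refine ⟨36 * x + 3 * (EQ W).b₂, ?_⟩
  rw [shortA_eq, shortB_eq]
  have hb := (EQ W).b_relation
  simp only [psi3] at hx
  linear_combination (1679616 : ℚ) * hx + (-419904 : ℚ) * hb

/-- (T5) If the mod 5 representation is not irreducible, there are rational `s1, s2` (sum and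
product of `x(P)`, `x(2P)` on the short model `y² = x³ + A x + B`, for a generator `P` of a
rational cyclic subgroup of order 5) with `s1² ≠ 4 s2` satisfying the two relations below. -/
theorem exists_kernel_quadratic_short (hΔ : W.Δ ≠ 0) (h : ¬ W.ModRepIsIrreducible 5) :
    ∃ s1 s2 : ℚ, s1 ^ 2 - 4 * s2 ≠ 0 ∧
      s1 * (6 * s2 - s1 ^ 2 + 2 * shortA W) + 4 * shortB W = 0 ∧
      4 * s2 * (s1 ^ 2 - 2 * s2) + 8 * shortA W * s2 + 12 * shortB W * s1 -
        (s1 ^ 2 - 2 * s2) ^ 2 + 2 * s2 ^ 2 + 2 * shortA W * (s1 ^ 2 - 2 * s2) -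
        2 * shortA W ^ 2 = 0 := by
  obtain ⟨s1, s2, hne, hR1, hR2⟩ := exists_kernel_quadratic W hΔ h
  refine ⟨36 * s1 + 6 * (EQ W).b₂, 1296 * s2 + 108 * (EQ W).b₂ * s1 + 9 * (EQ W).b₂ ^ 2,
    ?_, ?_, ?_⟩
  · intro h0
    apply hne
    linear_combination (1 / 1296 : ℚ) * h0
  · rw [shortA_eq, shortB_eq]
    simp only [relRs] at hR1
    linear_combination (46656 : ℚ) * hR1
  · rw [shortA_eq, shortB_eq]
    have hb := (EQ W).b_relation
    simp only [rel2s] at hR2
    linear_combination (1679616 : ℚ) * hR2 + (-839808 : ℚ) * hb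

end Fermat.Agent.S51lib.Tor
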