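/-
S51 library: the rational points of `X₀(15)` in the `(h3, h5)` model (fibre product of `X₀(3)` and
`X₀(5)` over the `j`-line), deduced from the rational points of `y² = x (x + 9) (x - 16)`.

On `E : y² = x (x + 9) (x - 16)` the functions
`h5 = 250 x y / ((y - 9 x + 144) (y - 4 x - 36))`,
`h3 = 1458 (y + x - 16)² (x + 4) / ((y - 9 x + 144)² (y - 5 x))`
satisfy `(h3 + 27) (h3 + 3)³ h5 = (h5² + 10 h5 + 5)³ h3`.  Conversely the functions
`u = (x - 36) / (y + 5 x)` and `p = u v`, `v = (y - 5 x) / (x + 4)`, are the explicit rational functions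
of `(h3, h5)` used below; they satisfy `p² + 4 u² p + 10 u p - p + 36 u² = 0`, `h3 p³ = 1458 u`, and
`x = p / u²`, `y = p (p + 5 u + 4 u²) / u³`.
-/
import Mathlib

set_option autoImplicit false

namespace Fermat.Agent.S51lib

/-- `5` is not a rational square. -/
theorem sq_ne_five (t : ℚ) : t ^ 2 ≠ 5 := by
  intro h
  have h5 : IsSquare (5 : ℚ) := ⟨t, by rw [← h]; ring⟩
  rw [show (5 : ℚ) = ((5 : ℕ) : ℚ) by norm_num, Rat.isSquare_natCast_iff] at h5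
  obtain ⟨r, hr⟩ := h5
  have : r ≤ 2 := by nlinarith
  interval_cases r <;> omega

/-- `20` is not a rational square. -/
theorem sq_ne_twenty (t : ℚ) : t ^ 2 ≠ 20 := by
  intro h
  have h5 : IsSquare (20 : ℚ) := ⟨t, by rw [← h]; ring⟩
  rw [show (20 : ℚ) = ((20 : ℕ) : ℚ) by norm_num, Rat.isSquare_natCast_iff] at h5
  obtain ⟨r, hr⟩ := h5
  have : r ≤ 4 := by nlinarith
  interval_cases r <;> omega

/-- The inverse of the parametrisation of the `(h3, h5)`-model of `X₀(15)` by the elliptic curve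
`y² = x (x + 9) (x - 16)`: existence of the auxiliary rational numbers `u`, `p` with their
relations. -/
theorem exists_u_p (h3 h5 : ℚ) (h50 : h5 ≠ 0)
    (hF : (h3 + 27) * (h3 + 3) ^ 3 * h5 = (h5 ^ 2 + 10 * h5 + 5) ^ 3 * h3) :
    ∃ u p : ℚ, u ≠ 0 ∧ p ≠ 0 ∧
      u * (2 * (h3 + 3) * (h5 ^ 2 + 4 * h5 - 1)) = (-105) * h5 + (-39) * h5^2 + (-3) * h5^3 + (18) * h3 + (1) * h3^2 ∧
      p * ((h3 + 3) ^ 2 * (h5 ^ 2 + 4 * h5 - 1)) = (-9) + (-576) * h5 + (-693) * h5^2 + (-153) * h5^3 + (-9) * h5^4 + (99) * h3 + (81) * h3 * h5 + (99) * h3 * h5^2 + (9) * h3 * h5^3 + (9) * h3^2 + (-9) * h3^2 * h5 ∧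
      p ^ 2 + 4 * u ^ 2 * p + 10 * u * p - p + 36 * u ^ 2 = 0 ∧
      h3 * p ^ 3 = 1458 * u := by
  have hq : h5 ^ 2 + 4 * h5 - 1 ≠ 0 := by
    intro h
    exact sq_ne_five (h5 + 2) (by linear_combination h)
  have hw : h3 + 3 ≠ 0 := by
    intro h
    have h3' : h3 = -3 := by linear_combination h
    rw [h3'] at hF
    have h1 : (h5 ^ 2 + 10 * h5 + 5) ^ 3 = 0 := by linear_combination (1 / 3 : ℚ) * hF
    have h2 : h5 ^ 2 + 10 * h5 + 5 = 0 := by simpa using h1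
    exact sq_ne_twenty (h5 + 5) (by linear_combination h2)
  have hD1 : 2 * (h3 + 3) * (h5 ^ 2 + 4 * h5 - 1) ≠ 0 := mul_ne_zero (mul_ne_zero two_ne_zero hw) hq
  have hD2 : (h3 + 3) ^ 2 * (h5 ^ 2 + 4 * h5 - 1) ≠ 0 := mul_ne_zero (pow_ne_zero 2 hw) hq
  obtain ⟨u, hu⟩ : ∃ u : ℚ, u * (2 * (h3 + 3) * (h5 ^ 2 + 4 * h5 - 1)) = (-105) * h5 + (-39) * h5^2 + (-3) * h5^3 + (18) * h3 + (1) * h3^2 :=
    ⟨((-105) * h5 + (-39) * h5^2 + (-3) * h5^3 + (18) * h3 + (1) * h3^2) / (2 * (h3 + 3) * (h5 ^ 2 + 4 * h5 - 1)), div_mul_cancel₀ _ hD1⟩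
  obtain ⟨p, hp⟩ : ∃ p : ℚ, p * ((h3 + 3) ^ 2 * (h5 ^ 2 + 4 * h5 - 1)) = (-9) + (-576) * h5 + (-693) * h5^2 + (-153) * h5^3 + (-9) * h5^4 + (99) * h3 + (81) * h3 * h5 + (99) * h3 * h5^2 + (9) * h3 * h5^3 + (9) * h3^2 + (-9) * h3^2 * h5 :=
    ⟨((-9) + (-576) * h5 + (-693) * h5^2 + (-153) * h5^3 + (-9) * h5^4 + (99) * h3 + (81) * h3 * h5 + (99) * h3 * h5^2 + (9) * h3 * h5^3 + (9) * h3^2 + (-9) * h3^2 * h5) / ((h3 + 3) ^ 2 * (h5 ^ 2 + 4 * h5 - 1)), div_mul_cancel₀ _ hD2⟩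
  -- `u ≠ 0`
  have hI0 : ((-105) * h5 + (-39) * h5^2 + (-3) * h5^3 + (18) * h3 + (1) * h3^2) * ((-2250) + (90) * h5 + (-18) * h5^2 + (4862) * h3 * h5 + (3818) * h3 * h5^2 + (838) * h3 * h5^3 + (70) * h3 * h5^4 + (2) * h3 * h5^5 + (648) * h3^2 * h5 + (108) * h3^2 * h5^2 + (6) * h3^2 * h5^3 + (18) * h3^3 * h5) = 2 * h5 * (h3 + 3) ^ 3 * (h5 ^ 2 + 4 * h5 - 1) ^ 2 := by
    linear_combination ((324) + (108) * h5 + (6) * h5^2 + (18) * h3) * hF
  have hNu : (-105) * h5 + (-39) * h5^2 + (-3) * h5^3 + (18) * h3 + (1) * h3^2 ≠ 0 := by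
    intro h
    rw [h, zero_mul] at hI0
    exact (mul_ne_zero (mul_ne_zero (mul_ne_zero two_ne_zero h50) (pow_ne_zero 3 hw))
      (pow_ne_zero 2 hq)) hI0.symm
  have hu0 : u ≠ 0 := by
    intro h
    rw [h, zero_mul] at hu
    exact hNu hu.symm
  -- the curve relation
  have hI1 : p ^ 2 + 4 * u ^ 2 * p + 10 * u * p - p + 36 * u ^ 2 = 0 := by
    have e : (p ^ 2 + 4 * u ^ 2 * p + 10 * u * p - p + 36 * u ^ 2) *
        ((2 * (h3 + 3) * (h5 ^ 2 + 4 * h5 - 1)) ^ 2 *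
          ((h3 + 3) ^ 2 * (h5 ^ 2 + 4 * h5 - 1)) ^ 2) =
        (p * ((h3 + 3) ^ 2 * (h5 ^ 2 + 4 * h5 - 1))) ^ 2 *
            (2 * (h3 + 3) * (h5 ^ 2 + 4 * h5 - 1)) ^ 2 +
          4 * (u * (2 * (h3 + 3) * (h5 ^ 2 + 4 * h5 - 1))) ^ 2 *
            (p * ((h3 + 3) ^ 2 * (h5 ^ 2 + 4 * h5 - 1))) * ((h3 + 3) ^ 2 * (h5 ^ 2 + 4 * h5 - 1)) +
          10 * (u * (2 * (h3 + 3) * (h5 ^ 2 + 4 * h5 - 1))) *
            (p * ((h3 + 3) ^ 2 * (h5 ^ 2 + 4 * h5 - 1))) *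
            (2 * (h3 + 3) * (h5 ^ 2 + 4 * h5 - 1)) * ((h3 + 3) ^ 2 * (h5 ^ 2 + 4 * h5 - 1)) -
          (p * ((h3 + 3) ^ 2 * (h5 ^ 2 + 4 * h5 - 1))) *
            (2 * (h3 + 3) * (h5 ^ 2 + 4 * h5 - 1)) ^ 2 * ((h3 + 3) ^ 2 * (h5 ^ 2 + 4 * h5 - 1)) +
          36 * (u * (2 * (h3 + 3) * (h5 ^ 2 + 4 * h5 - 1))) ^ 2 *
            ((h3 + 3) ^ 2 * (h5 ^ 2 + 4 * h5 - 1)) ^ 2 := by ring
    have e0 : (p ^ 2 + 4 * u ^ 2 * p + 10 * u * p - p + 36 * u ^ 2) *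
        ((2 * (h3 + 3) * (h5 ^ 2 + 4 * h5 - 1)) ^ 2 *
          ((h3 + 3) ^ 2 * (h5 ^ 2 + 4 * h5 - 1)) ^ 2) = 0 := by
      rw [e, hu, hp]
      linear_combination ((972) + (104004) * h5 + (-399492) * h5^2 + (-238140) * h5^3 + (-40824) * h5^4 + (-1944) * h5^5 + (-18144) * h3 + (143856) * h3 * h5 + (-243648) * h3 * h5^2 + (-163296) * h3 * h5^3 + (-28512) * h3 * h5^4 + (-1296) * h3 * h5^5 + (-13392) * h3^2 + (64800) * h3^2 * h5 + (-27000) * h3^2 * h5^2 + (-29160) * h3^2 * h5^3 + (-5400) * h3^2 * h5^4 + (-216) * h3^2 * h5^5 + (-2736) * h3^3 + (10656) * h3^3 * h5 + (4032) * h3^3 * h5^2 + (-288) * h3^3 * h5^3 + (-144) * h3^3 * h5^4 + (-108) * h3^4 + (396) * h3^4 * h5 + (252) * h3^4 * h5^2 + (36) * h3^4 * h5^3) * hF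
    rcases mul_eq_zero.mp e0 with h | h
    · exact h
    · exact absurd h (mul_ne_zero (pow_ne_zero 2 hD1) (pow_ne_zero 2 hD2))
  have hI2 : h3 * p ^ 3 = 1458 * u := by
    have e : (h3 * p ^ 3 - 1458 * u) *
        ((2 * (h3 + 3) * (h5 ^ 2 + 4 * h5 - 1)) *
          ((h3 + 3) ^ 2 * (h5 ^ 2 + 4 * h5 - 1)) ^ 3) =
        h3 * (p * ((h3 + 3) ^ 2 * (h5 ^ 2 + 4 * h5 - 1))) ^ 3 *
            (2 * (h3 + 3) * (h5 ^ 2 + 4 * h5 - 1)) -
          1458 * (u * (2 * (h3 + 3) * (h5 ^ 2 + 4 * h5 - 1))) *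
            ((h3 + 3) ^ 2 * (h5 ^ 2 + 4 * h5 - 1)) ^ 3 := by ring
    have e0 : (h3 * p ^ 3 - 1458 * u) *
        ((2 * (h3 + 3) * (h5 ^ 2 + 4 * h5 - 1)) *
          ((h3 + 3) ^ 2 * (h5 ^ 2 + 4 * h5 - 1)) ^ 3) = 0 := by
      rw [e, hu, hp]
      linear_combination ((-153090) + (1780218) * h5 + (-6211080) * h5^2 + (3617298) * h5^3 + (8966700) * h5^4 + (4570830) * h5^5 + (1032264) * h5^6 + (109350) * h5^7 + (4374) * h5^8 + (-313470) * h3 + (3401514) * h3 * h5 + (-7778430) * h3 * h5^2 + (-4003668) * h3 * h5^3 + (-1078920) * h3 * h5^4 + (-51030) * h3 * h5^5 + (94770) * h3 * h5^6 + (23328) * h3 * h5^7 + (1458) * h3 * h5^8 + (-284310) * h3^2 + (1959552) * h3^2 * h5 + (-2755620) * h3^2 * h5^2 + (-1683990) * h3^2 * h5^3 + (-739206) * h3^2 * h5^4 + (-341172) * h3^2 * h5^5 + (-69984) * h3^2 * h5^6 + (-4374) * h3^2 * h5^7 + (-87480) * h3^3 + (476766) * h3^3 * h5 + (-415530) * h3^3 * h5^2 +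 (-183708) * h3^3 * h5^3 + (148716) * h3^3 * h5^4 + (56862) * h3^3 * h5^5 + (4374) * h3^3 * h5^6 + (-7290) * h3^4 + (45198) * h3^4 * h5 + (-43740) * h3^4 * h5^2 + (-67068) * h3^4 * h5^3 + (-18954) * h3^4 * h5^4 + (-1458) * h3^4 * h5^5) * hF
    rcases mul_eq_zero.mp e0 with h | h
    · exact sub_eq_zero.mp h
    · exact absurd h (mul_ne_zero hD1 (pow_ne_zero 3 hD2))
  have hp0 : p ≠ 0 := by
    intro h
    rw [h] at hI2
    have : (1458 : ℚ) * u = 0 := by rw [← hI2]; ring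
    exact hu0 (by simpa using this)
  exact ⟨u, p, hu0, hp0, hu, hp, hI1, hI2⟩

/-- The non-cuspidal rational points of `X₀(15)` in the `(h3, h5)`-model, given the rational points
of the elliptic curve `y² = x (x + 9) (x - 16)`. -/
theorem x015_points_of_15a
    (H : ∀ x y : ℚ, y ^ 2 = x * (x + 9) * (x - 16) →
      x = 0 ∨ x = -9 ∨ x = 16 ∨ x = 36 ∨ x = -4)
    (h3 h5 : ℚ) (_h30 : h3 ≠ 0) (h50 : h5 ≠ 0)
    (hF : (h3 + 27) * (h3 + 3) ^ 3 * h5 = (h5 ^ 2 + 10 * h5 + 5) ^ 3 * h3) :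
    h5 = -10 ∨ h5 = -40 ∨ h5 = -25 / 2 ∨ h5 = -25 / 8 := by
  obtain ⟨u, p, hu0, hp0, hu, hp, hI1, hI2⟩ := exists_u_p h3 h5 h50 hF
  have hcurve : (p * (p + 5 * u + 4 * u ^ 2) / u ^ 3) ^ 2 =
      (p / u ^ 2) * (p / u ^ 2 + 9) * (p / u ^ 2 - 16) := by
    have key : (p * (p + 5 * u + 4 * u ^ 2) / u ^ 3) ^ 2 -
        (p / u ^ 2) * (p / u ^ 2 + 9) * (p / u ^ 2 - 16) =
        p * (p + 4 * u ^ 2) * (p ^ 2 + 4 * u ^ 2 * p + 10 * u * p - p + 36 * u ^ 2) / u ^ 6 := by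
      field_simp
      ring
    rw [hI1, mul_zero, zero_div] at key
    exact sub_eq_zero.mp key
  have hx := H _ _ hcurve
  -- in each case `p = x₀ u ^ 2`
  have hpx : ∀ x0 : ℚ, p / u ^ 2 = x0 → p = x0 * u ^ 2 := by
    intro x0 h
    rw [← h]; field_simp
  rcases hx with hx | hx | hx | hx | hx
  · exfalso
    have := hpx 0 hx
    rw [zero_mul] at this
    exact hp0 this
  · -- `x = -9`
    have hp' := hpx (-9) hx
    rw [hp'] at hI1 hI2 hp
    have h1 : u ^ 2 * (u - 1) ^ 2 = 0 := by linear_combination (1 / 45 : ℚ) * hI1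
    have hu1 : u = 1 := by
      rcases mul_eq_zero.mp h1 with h | h
      · exact absurd ((pow_eq_zero_iff two_ne_zero).mp h) hu0
      · have := (pow_eq_zero_iff two_ne_zero).mp h; linarith
    subst hu1
    have hh3 : h3 = (-2) := by
      linear_combination ((-1 / 729) : ℚ) * hI2
    subst hh3
    left
    linear_combination ((-631/413) + (-141/59) * h5 + (-113/413) * h5^2) * hu + ((1153/3717) + (113/1239) * h5) * hp
  · -- `x = 16`
    have hp' := hpx 16 hx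
    rw [hp'] at hI1 hI2 hp
    have h1 : u ^ 2 * (4 * u + 1) ^ 2 = 0 := by linear_combination (1 / 20 : ℚ) * hI1
    have hu1 : u = -1 / 4 := by
      rcases mul_eq_zero.mp h1 with h | h
      · exact absurd ((pow_eq_zero_iff two_ne_zero).mp h) hu0
      · have := (pow_eq_zero_iff two_ne_zero).mp h; linarith
    subst hu1
    have hh3 : h3 = (-729 / 2) := by
      linear_combination (1 : ℚ) * hI2
    subst hh3
    right; left
    linear_combination ((-30277228/94527350229) + (-3877624/850746152061) * h5 + (-9296/850746152061) * h5^2) * hu + ((1012132/2552238456183) + (9296/2552238456183) * h5) * hp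
  · -- `x = 36`
    have hp' := hpx 36 hx
    rw [hp'] at hI1 hI2 hp
    have h1 : u ^ 3 * (4 * u + 1) = 0 := by linear_combination (1 / 360 : ℚ) * hI1
    have hu1 : u = -1 / 4 := by
      rcases mul_eq_zero.mp h1 with h | h
      · exact absurd ((pow_eq_zero_iff three_ne_zero).mp h) hu0
      · linarith
    subst hu1
    have hh3 : h3 = (-32) := by
      linear_combination ((64 / 729) : ℚ) * hI2
    subst hh3
    right; right; left
    linear_combination ((-24579/708122) + (2246/354061) * h5 + (262/1062183) * h5^2) * hu + ((4283/9559647) + (-262/3186549) * h5) * hp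
  · -- `x = -4`
    have hp' := hpx (-4) hx
    rw [hp'] at hI1 hI2 hp
    have h1 : u ^ 2 * (u - 1) = 0 := by linear_combination (-1 / 40 : ℚ) * hI1
    have hu1 : u = 1 := by
      rcases mul_eq_zero.mp h1 with h | h
      · exact absurd ((pow_eq_zero_iff two_ne_zero).mp h) hu0
      · linarith
    subst hu1
    have hh3 : h3 = (-729 / 32) := by
      linear_combination ((-1 / 64) : ℚ) * hI2
    subst hh3
    right; right; right
    linear_combination ((329471872/3734822169) + (-902388736/3734822169) * h5 + (-950272/138326747) * h5^2) * hu + ((-123103232/11204466507) + (950272/414980241) * h5) * hp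
end Fermat.Agent.S51lib
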