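import Mathlib

/-!
# The `x`-coordinate duplication formula on a Weierstrass curve (S51 support)

For a nonsingular point `P = (x, y)` with `2P ≠ 0` we have `x(2P) * g(x) = Φ₂(x)` where
`g = 4x³ + b₂x² + 2b₄x + b₆` and `Φ₂ = x⁴ - b₄x² - 2b₆x - b₈`.
-/

set_option autoImplicit false
set_option linter.unusedSectionVars false

namespace Fermat.Agent.S51lib.Tor

open WeierstrassCurve

variable {F : Type*} [Field F] (W : WeierstrassCurve.Affine F)

/-- `ψ₂²` as a function of `x`. -/
def gX (x : F) : F := 4 * x ^ 3 + W.b₂ * x ^ 2 + 2 * W.b₄ * x + W.b₆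

/-- derivative of `gX`. -/
def gX' (x : F) : F := 12 * x ^ 2 + 2 * W.b₂ * x + 2 * W.b₄

/-- `Φ₂` as a function of `x`. -/
def phi2 (x : F) : F := x ^ 4 - W.b₄ * x ^ 2 - 2 * W.b₆ * x - W.b₈

/-- `Ψ₃` as a function of `x`. -/
def psi3 (x : F) : F := 3 * x ^ 4 + W.b₂ * x ^ 3 + 3 * W.b₄ * x ^ 2 + 3 * W.b₆ * x + W.b₈

theorem phi2_eq (x : F) : phi2 W x = x * gX W x - psi3 W x := by
  simp only [phi2, gX, psi3]; ring

theorem sixteen_phi2_eq (x : F) :
    16 * phi2 W x = gX' W x ^ 2 - (32 * x + 4 * W.b₂) * gX W x := by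
  have h := W.b_relation
  simp only [phi2, gX, gX']
  linear_combination (-4 : F) * h

theorem sq_eq_gX {x y : F} (h : W.Equation x y) : (y - W.negY x y) ^ 2 = gX W x := by
  rw [Affine.equation_iff] at h
  simp only [gX, Affine.negY, WeierstrassCurve.b₂, WeierstrassCurve.b₄, WeierstrassCurve.b₆]
  linear_combination 4 * h

theorem gX'_eq {x y : F} (hy : y = W.negY x y) :
    gX' W x = -4 * (W.a₁ * y - (3 * x ^ 2 + 2 * W.a₂ * x + W.a₄)) := by
  simp only [Affine.negY] at hy
  simp only [gX', WeierstrassCurve.b₂, WeierstrassCurve.b₄]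
  linear_combination (2 * W.a₁) * hy

/-- If `(x, y)` is a nonsingular point with `y = negY` then `g(x) = 0` and `g'(x) ≠ 0`. -/
theorem gX'_ne_zero [CharZero F] {x y : F} (h : W.Nonsingular x y) (hy : y = W.negY x y) :
    gX' W x ≠ 0 := by
  rw [Affine.nonsingular_iff'] at h
  rw [gX'_eq W hy]
  rcases h.2 with h2 | h2
  · exact mul_ne_zero (by norm_num) h2
  · exfalso; apply h2
    simp only [Affine.negY] at hy
    linear_combination hy

variable [DecidableEq F]

theorem addX_dup {x y : F} (h : W.Equation x y) (hy : y ≠ W.negY x y) :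
    W.addX x x (W.slope x x y y) * gX W x = phi2 W x := by
  have hd : y - W.negY x y ≠ 0 := sub_ne_zero.mpr hy
  rw [Affine.slope_of_Y_ne rfl hy, ← sq_eq_gX W h]
  simp only [Affine.addX]
  rw [Affine.equation_iff] at h
  field_simp
  simp only [phi2, Affine.negY, WeierstrassCurve.b₄, WeierstrassCurve.b₆, WeierstrassCurve.b₈]
  linear_combination (-(8 * x + 4 * W.a₂ + W.a₁ ^ 2)) * h

/-! ### Points with a given `x`-coordinate -/

/-- `P` is an affine point with `x`-coordinate `x`. -/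
def HasX (P : W.Point) (x : F) : Prop := ∃ (y : F) (h : W.Nonsingular x y), P = Affine.Point.some x y h

variable {W}

theorem hasX_some {x y : F} (h : W.Nonsingular x y) : HasX W (Affine.Point.some x y h) x :=
  ⟨y, h, rfl⟩

theorem exists_hasX_of_ne_zero {P : W.Point} (hP : P ≠ 0) : ∃ x, HasX W P x := by
  cases P with
  | zero => exact absurd rfl hP
  | some x y h => exact ⟨x, hasX_some h⟩

theorem HasX.ne_zero {P : W.Point} {x : F} (h : HasX W P x) : P ≠ 0 := by
  obtain ⟨y, hns, rfl⟩ := h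
  exact Affine.Point.some_ne_zero hns

theorem HasX.unique {P : W.Point} {x x' : F} (h : HasX W P x) (h' : HasX W P x') : x = x' := by
  obtain ⟨y, hns, rfl⟩ := h
  obtain ⟨y', hns', h2⟩ := h'
  simp only [Affine.Point.some.injEq] at h2
  exact h2.1

theorem HasX.neg {P : W.Point} {x : F} (h : HasX W P x) : HasX W (-P) x := by
  obtain ⟨y, hns, rfl⟩ := h
  rw [Affine.Point.neg_some]
  exact hasX_some _

theorem HasX.eq_or_eq_neg {P Q : W.Point} {x : F} (h : HasX W P x) (h' : HasX W Q x) :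
    P = Q ∨ P = -Q := by
  obtain ⟨y, hns, rfl⟩ := h
  obtain ⟨y', hns', rfl⟩ := h'
  exact Affine.Point.X_eq_iff.mp rfl

theorem HasX.gX_eq_zero {P : W.Point} {x : F} (h : HasX W P x) (h2 : P + P = 0) :
    gX W x = 0 := by
  obtain ⟨y, hns, rfl⟩ := h
  by_cases hy : y = W.negY x y
  · rw [← sq_eq_gX W hns.1, ← hy, sub_self]; ring
  · rw [Affine.Point.add_self_of_Y_ne hy] at h2
    exact absurd h2 (Affine.Point.some_ne_zero _)

theorem HasX.dup {P : W.Point} {x : F} (h : HasX W P x) (h2 : P + P ≠ 0) :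
    ∃ x', HasX W (P + P) x' ∧ x' * gX W x = phi2 W x ∧ gX W x ≠ 0 := by
  obtain ⟨y, hns, rfl⟩ := h
  by_cases hy : y = W.negY x y
  · exact absurd (Affine.Point.add_self_of_Y_eq hy) h2
  · refine ⟨_, ?_, addX_dup W hns.1 hy, ?_⟩
    · rw [Affine.Point.add_self_of_Y_ne hy]
      exact hasX_some _
    · rw [← sq_eq_gX W hns.1]
      exact pow_ne_zero 2 (sub_ne_zero.mpr hy)

/-- A point with `g(x) = 0` is 2-torsion; in char 0 then `g'(x) ≠ 0`. -/
theorem HasX.add_self_eq_zero {P : W.Point} {x : F} (h : HasX W P x) (hg : gX W x = 0) :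
    P + P = 0 := by
  obtain ⟨y, hns, rfl⟩ := h
  have : y = W.negY x y := by
    have h1 := sq_eq_gX W hns.1
    rw [hg] at h1
    exact sub_eq_zero.mp (pow_eq_zero_iff (two_ne_zero) |>.mp h1)
  exact Affine.Point.add_self_of_Y_eq this

theorem HasX.gX'_ne_zero [CharZero F] {P : W.Point} {x : F} (h : HasX W P x) (hg : gX W x = 0) :
    gX' W x ≠ 0 := by
  obtain ⟨y, hns, rfl⟩ := h
  have : y = W.negY x y := by
    have h1 := sq_eq_gX W hns.1
    rw [hg] at h1
    exact sub_eq_zero.mp (pow_eq_zero_iff (two_ne_zero) |>.mp h1)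
  exact Fermat.Agent.S51lib.Tor.gX'_ne_zero W hns this

end Fermat.Agent.S51lib.Tor
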